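/-
S27 / (GOOD): definitions shared by all cells (helper13).  Prefix `s27g_`.

`F / K` is a function field over an algebraically closed field `K` of characteristic zero.
(GOOD) produces a valuation ring `𝒪` of `K` with residue field `k ≅ 𝔽̄_p`, and a valuation ring `𝒱`
of `F` over `𝒪`, unramified, whose residue field `F̄` is a function field over `k` of the same
(Riemann) genus, such that reduction preserves the dimension of all finite-dimensional spaces of
functions and maps `L(r P∞)` onto `L̄(r P̄∞)`.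

The construction: an *Apéry frame* `A = ⊕ K[x] ω_i` (`x` with a single pole `P∞`, `ω_i` of least
pole order in the class `i` mod `n`), its structure constants, and a Jacobian certificate of
nonsingularity; `𝒱` is the localisation of `⊕ 𝒪[x] ω_i` at the prime ideal generated by the
maximal ideal of `𝒪`.
-/
import Mathlib
import Fermat.Prelude.Def_AlgebraicCurve_IsCurveOver
import Fermat.Prelude.Def_AlgebraicCurve_Repartitions
import Fermat.Agent.JT3.Riemann.Main

set_option autoImplicit false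

noncomputable section

namespace Fermat.Agent.S27

open Polynomial AlgebraicCurve IsLocalRing IntermediateField Fermat.Agent.JT3
open scoped Classical

/-! ### Structure constants with a weighted degree -/

/-- Structure constants of an "Apéry algebra" `⊕ L[x] ω_i` of rank `n`: pole orders `ρ i ≡ i (n)`,
`ω_i ω_j = ∑_k c i j k (x) ω_k`, the pole order `ρ i + ρ j` being carried by `k = κ i j`. -/
structure s27g_Consts (L : Type*) [Field L] where
  /-- the rank -/
  n : ℕ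
  hn : 0 < n
  /-- the pole orders -/
  ρ : Fin n → ℕ
  /-- the structure constants -/
  c : Fin n → Fin n → Fin n → L[X]
  /-- the index carrying the pole order of `ω_i ω_j` -/
  κ : Fin n → Fin n → Fin n

namespace s27g_Consts

variable {L : Type*} [Field L] (C : s27g_Consts L)

/-- the index `0`. -/
def i0 : Fin C.n := ⟨0, C.hn⟩

/-- the weighted-degree conditions. -/
structure IsGraded : Prop where
  ρ_zero : C.ρ C.i0 = 0
  ρ_mod : ∀ i, C.ρ i % C.n = (i : ℕ)
  one_mul : ∀ j k, C.c C.i0 j k = if k = j then 1 else 0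
  comm : ∀ i j k, C.c i j k = C.c j i k
  lead_ne : ∀ i j, C.c i j (C.κ i j) ≠ 0
  lead_deg : ∀ i j, C.n * (C.c i j (C.κ i j)).natDegree + C.ρ (C.κ i j) = C.ρ i + C.ρ j
  low : ∀ i j k, k ≠ C.κ i j → C.c i j k ≠ 0 →
    C.n * (C.c i j k).natDegree + C.ρ k < C.ρ i + C.ρ j

/-- coordinates of a product. -/
def mulCoord (a b : Fin C.n → L[X]) (k : Fin C.n) : L[X] :=
  ∑ i, ∑ j, a i * b j * C.c i j k

/-- the weighted degree (pole order at infinity) of a coordinate vector. -/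
def wdeg (a : Fin C.n → L[X]) : ℕ :=
  (Finset.univ.filter fun i => a i ≠ 0).sup fun i => C.n * (a i).natDegree + C.ρ i

end s27g_Consts

/-! ### Frames inside a field -/

/-- A frame of `E / L`: structure constants realised by elements `x, ω_i` of `E`. -/
structure s27g_Frame (L E : Type*) [Field L] [Field E] [Algebra L E] extends s27g_Consts L where
  /-- the function with a single pole -/
  x : E
  /-- the Apéry basis -/
  ω : Fin n → E

namespace s27g_Frame

variable {L E : Type*} [Field L] [Field E] [Algebra L E] (𝔉 : s27g_Frame L E)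

/-- the element `∑ a_i(x) ω_i`. -/
def elt (a : Fin 𝔉.n → L[X]) : E := ∑ i, aeval 𝔉.x (a i) * 𝔉.ω i

/-- `𝔉` is a frame of `E`: `E = ⊕ L(x) ω_i`, with the given multiplication table. -/
structure IsFrame : Prop where
  graded : 𝔉.tos27g_Consts.IsGraded
  x_trans : Transcendental L 𝔉.x
  ω_zero : 𝔉.ω 𝔉.i0 = 1
  indep : ∀ a : Fin 𝔉.n → L[X], 𝔉.elt a = 0 → a = 0
  frac : ∀ f : E, ∃ (g : L[X]) (a : Fin 𝔉.n → L[X]), g ≠ 0 ∧ aeval 𝔉.x g * f = 𝔉.elt a
  mul : ∀ i j, 𝔉.ω i * 𝔉.ω j = ∑ k, aeval 𝔉.x (𝔉.c i j k) * 𝔉.ω k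

/-- the lattice `Λ = ⊕ L[x] ω_i` as a set. -/
def lattice : Set E := Set.range 𝔉.elt

/-- the Jacobian matrix of the relations `T_i T_j - ∑_k c i j k (x) T_k`; column `0` is `∂/∂x`,
column `l ≥ 1` is `∂/∂T_l` (recall that `ω_0 = 1` is not a variable). -/
def jac : Matrix (Fin 𝔉.n × Fin 𝔉.n) (Fin 𝔉.n) E := fun r l =>
  if l = 𝔉.i0 then -∑ k, aeval 𝔉.x (derivative (𝔉.c r.1 r.2 k)) * 𝔉.ω k
  else (if l = r.1 then 𝔉.ω r.2 else 0) + (if l = r.2 then 𝔉.ω r.1 else 0)
    - aeval 𝔉.x (𝔉.c r.1 r.2 l)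

/-- a Jacobian certificate with coefficients in a subset `T` of `L`: the `(n-1)`-minors of the
Jacobian generate the unit ideal of `Λ`, with cofactors `h α` whose coefficients lie in `T`. -/
def JacUnitIn (T : Set L) : Prop :=
  ∃ (ι : Type) (_ : Fintype ι) (rows : ι → Fin (𝔉.n - 1) → Fin 𝔉.n × Fin 𝔉.n)
    (cols : ι → Fin (𝔉.n - 1) → Fin 𝔉.n) (h : ι → Fin 𝔉.n → L[X]),
    (∀ α i m, (h α i).coeff m ∈ T) ∧
      ∑ α, 𝔉.elt (h α) * (𝔉.jac.submatrix (rows α) (cols α)).det = 1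

/-- **the Jacobian certificate**. -/
def JacUnit : Prop := 𝔉.JacUnitIn Set.univ

/-- `Λ` contains every element of `E` integral over `L[x]`. -/
def IsClosed : Prop :=
  ∀ f : E, IsIntegral (Algebra.adjoin L ({𝔉.x} : Set E)) f → f ∈ 𝔉.lattice

end s27g_Frame

/-! ### Valuation rings -/

variable {K F : Type*} [Field K] [Field F] [Algebra K F]

/-- `𝒱` lies over `𝒪`:  `𝒱 ∩ K = 𝒪`. -/
def s27g_Over (𝒪 : ValuationSubring K) (𝒱 : ValuationSubring F) : Prop :=
  ∀ a : K, algebraMap K F a ∈ 𝒱 ↔ a ∈ 𝒪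

/-- the inclusion `𝒪 → 𝒱`. -/
def s27g_incl {𝒪 : ValuationSubring K} {𝒱 : ValuationSubring F} (h : s27g_Over 𝒪 𝒱) :
    ↥𝒪 →+* ↥𝒱 where
  toFun a := ⟨algebraMap K F a, (h a).2 a.2⟩
  map_one' := Subtype.ext (map_one _)
  map_mul' _ _ := Subtype.ext (map_mul _ _ _)
  map_zero' := Subtype.ext (map_zero _)
  map_add' _ _ := Subtype.ext (map_add _ _ _)

theorem s27g_incl_isLocalHom {𝒪 : ValuationSubring K} {𝒱 : ValuationSubring F}
    (h : s27g_Over 𝒪 𝒱) : IsLocalHom (s27g_incl h) := by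
  constructor
  intro a ha
  obtain ⟨u, hu⟩ := ha
  have h1 : (algebraMap K F (a : K)) * ((u⁻¹ : (↥𝒱)ˣ) : ↥𝒱) = 1 := by
    have := congrArg (fun z : ↥𝒱 => (z : F)) (show s27g_incl h a * ((u⁻¹ : (↥𝒱)ˣ) : ↥𝒱) = 1 by
      rw [← hu]; exact u.mul_inv)
    simpa [s27g_incl] using this
  have ha0 : (a : K) ≠ 0 := by
    intro h0
    rw [h0, map_zero, zero_mul] at h1
    exact zero_ne_one h1
  have h2 : algebraMap K F ((a : K)⁻¹) = ((u⁻¹ : (↥𝒱)ˣ) : ↥𝒱) := by
    rw [map_inv₀]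
    exact (eq_inv_of_mul_eq_one_right h1).symm ▸ (by simp)
  have h3 : (a : K)⁻¹ ∈ 𝒪 := (h _).1 (h2 ▸ Subtype.coe_prop _)
  exact IsUnit.of_mul_eq_one ⟨(a : K)⁻¹, h3⟩ (Subtype.ext (by simp [ha0]))

/-- the residue field of `𝒱` as an algebra over the residue field of `𝒪`. -/
@[reducible] def s27g_resAlgebra {𝒪 : ValuationSubring K} {𝒱 : ValuationSubring F}
    (h : s27g_Over 𝒪 𝒱) : Algebra (ResidueField ↥𝒪) (ResidueField ↥𝒱) :=
  haveI := s27g_incl_isLocalHom h
  (ResidueField.map (s27g_incl h)).toAlgebra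

/-- the residue class of `f ∈ F` (zero if `f ∉ 𝒱`). -/
def s27g_resElt (𝒱 : ValuationSubring F) (f : F) : ResidueField ↥𝒱 :=
  if h : f ∈ 𝒱 then residue ↥𝒱 ⟨f, h⟩ else 0

/-- the reduction of a polynomial (coefficients outside `𝒪` are sent to zero). -/
def s27g_redPoly (𝒪 : ValuationSubring K) (q : K[X]) : (ResidueField ↥𝒪)[X] :=
  ∑ m ∈ q.support, monomial m (s27g_resElt (F := K) 𝒪 (q.coeff m))

/-- the reduction of a `K`-subspace `W` of `F`: the image of `W ∩ 𝒱` in the residue field. -/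
def s27g_red (𝒱 : ValuationSubring F) (W : Submodule K F) : Set (ResidueField ↥𝒱) :=
  {z | ∃ f : ↥𝒱, (f : F) ∈ W ∧ residue ↥𝒱 f = z}

/-- the coefficients of `a` lie in `𝒪`. -/
def s27g_coeffsIn (𝒪 : ValuationSubring K) {n : ℕ} (a : Fin n → K[X]) : Prop :=
  ∀ i m, (a i).coeff m ∈ 𝒪

/-- the coefficients of `a` lie in the maximal ideal of `𝒪`. -/
def s27g_coeffsInMax (𝒪 : ValuationSubring K) {n : ℕ} (a : Fin n → K[X]) : Prop :=
  ∀ i m, (a i).coeff m ∈ 𝒪.nonunits

/-- the frame `𝔉` is integral at `𝒪`: coefficients in `𝒪`, leading structure constants units,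
and a Jacobian certificate with coefficients in `𝒪`. -/
structure s27g_Frame.IsIntegralAt (𝔉 : s27g_Frame K F) (𝒪 : ValuationSubring K) : Prop where
  coeff_mem : ∀ i j k m, (𝔉.c i j k).coeff m ∈ 𝒪
  lead_inv_mem : ∀ i j, (𝔉.c i j (𝔉.κ i j)).leadingCoeff⁻¹ ∈ 𝒪
  jac : 𝔉.JacUnitIn (𝒪 : Set K)

/-- **orthonormality**: `𝒱` is the Gauss valuation ring of the frame. -/
structure s27g_Ortho (𝔉 : s27g_Frame K F) (𝒪 : ValuationSubring K) (𝒱 : ValuationSubring F) :
    Prop where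
  lies : s27g_Over 𝒪 𝒱
  mem : ∀ a : Fin 𝔉.n → K[X], 𝔉.elt a ∈ 𝒱 ↔ s27g_coeffsIn 𝒪 a
  max : ∀ a : Fin 𝔉.n → K[X], 𝔉.elt a ∈ 𝒱.nonunits ↔ s27g_coeffsInMax 𝒪 a

/-- the reduced frame. -/
def s27g_Frame.red (𝔉 : s27g_Frame K F) {𝒪 : ValuationSubring K} {𝒱 : ValuationSubring F}
    (h : s27g_Over 𝒪 𝒱) :
    @s27g_Frame (ResidueField ↥𝒪) (ResidueField ↥𝒱) _ _ (s27g_resAlgebra h) :=
  letI := s27g_resAlgebra h
  { n := 𝔉.n
    hn := 𝔉.hn
    ρ := 𝔉.ρ
    c := fun i j k => s27g_redPoly 𝒪 (𝔉.c i j k)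
    κ := 𝔉.κ
    x := s27g_resElt 𝒱 𝔉.x
    ω := fun i => s27g_resElt 𝒱 (𝔉.ω i) }

/-- `g` is the Riemann genus of `F / K`: `g = max_A (deg A + 1 - l(A))`
(the `g` of `JT3.rt_exists_genus`). -/
def s27g_IsRGenus (K F : Type*) [Field K] [Field F] [Algebra K F] (g : ℕ) : Prop :=
  (∀ A : Divisor K F,
      Divisor.degree A + 1 - g ≤ (Module.finrank K ↥(riemannRochSpace A) : ℤ)) ∧
    ∃ A₀ : Divisor K F,
      Divisor.degree A₀ + 1 - g = (Module.finrank K ↥(riemannRochSpace A₀) : ℤ)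

/-- **(GOOD)**: good reduction data for `F / K` at `(𝒪, 𝒱)`. -/
structure s27g_Good (𝒪 : ValuationSubring K) (𝒱 : ValuationSubring F) (p : ℕ) : Prop where
  lies : s27g_Over 𝒪 𝒱
  charP : CharP (ResidueField ↥𝒪) p
  algClosed : IsAlgClosed (ResidueField ↥𝒪)
  /-- the residue field of `𝒪` is algebraic over the prime field (hence `≅ 𝔽̄_p`) -/
  algebraic : ∀ a : ResidueField ↥𝒪, ∃ q : ℤ[X], q.Monic ∧ aeval a q = 0
  /-- `v(F^×) = v(K^×)` -/
  value : ∀ f : F, f ≠ 0 →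
    ∃ c : K, c ≠ 0 ∧ algebraMap K F c * f ∈ 𝒱 ∧ (algebraMap K F c * f)⁻¹ ∈ 𝒱
  /-- a separating generator which stays a separating generator of the same degree -/
  sepGen : letI := s27g_resAlgebra lies
    ∃ x : ↥𝒱, rt_IsSepGen K (x : F) ∧ rt_IsSepGen (ResidueField ↥𝒪) (residue ↥𝒱 x) ∧
      Module.finrank (ResidueField ↥𝒪)⟮residue ↥𝒱 x⟯ (ResidueField ↥𝒱) =
        Module.finrank K⟮(x : F)⟯ F
  /-- the same Riemann genus on both sides -/
  rgenus : letI := s27g_resAlgebra lies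
    ∃ g : ℕ, s27g_IsRGenus K F g ∧ s27g_IsRGenus (ResidueField ↥𝒪) (ResidueField ↥𝒱) g
  /-- reduction preserves the dimension of every finite-dimensional space of functions -/
  dim : letI := s27g_resAlgebra lies
    ∀ W : Submodule K F, Module.Finite K W →
      ∃ Wb : Submodule (ResidueField ↥𝒪) (ResidueField ↥𝒱), (Wb : Set _) = s27g_red 𝒱 W ∧
        Module.finrank (ResidueField ↥𝒪) Wb = Module.finrank K W
  /-- a point at infinity with the same Riemann–Roch spaces on both sides -/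
  infty : letI := s27g_resAlgebra lies
    ∃ (P : Place K F) (Pb : Place (ResidueField ↥𝒪) (ResidueField ↥𝒱)),
      ∀ r : ℕ, s27g_red 𝒱 (riemannRochSpace (Finsupp.single P (r : ℤ))) =
        (riemannRochSpace (Finsupp.single Pb (r : ℤ)) : Set (ResidueField ↥𝒱))

end Fermat.Agent.S27
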