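/-
S27 / (GOOD), cell L7 (helper4): the lattice `Λ = ⊕ L[x] ω_i` of a frame as a subalgebra.
Prefix `s27g_cl`.

* `s27g_cl_elt_add`, `s27g_cl_elt_single`, `s27g_cl_elt_mul` : `elt` is additive and
  `elt a * elt b = elt (mulCoord a b)`;
* `s27g_clΛ h` : the subalgebra `Λ` of `E` with carrier `Set.range 𝔉.elt`;
* `s27g_cl_Λ_eq_adjoin` : `Λ = L[x, ω_i]`, hence of finite type over `L` and noetherian;
* `s27g_cl_isFractionRing` : `E = Frac Λ`.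
-/
import Mathlib
import Fermat.Agent.S27.Good.Defs

set_option autoImplicit false
set_option linter.style.haveILetI false

noncomputable section

namespace Fermat.Agent.S27

open Polynomial

variable {L E : Type*} [Field L] [Field E] [Algebra L E] (𝔉 : s27g_Frame L E)

theorem s27g_cl_elt_add (a b : Fin 𝔉.n → L[X]) : 𝔉.elt (a + b) = 𝔉.elt a + 𝔉.elt b := by
  unfold s27g_Frame.elt
  rw [← Finset.sum_add_distrib]
  refine Finset.sum_congr rfl fun i _ => ?_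
  rw [Pi.add_apply, map_add, add_mul]

theorem s27g_cl_elt_zero : 𝔉.elt 0 = 0 := by
  unfold s27g_Frame.elt
  refine Finset.sum_eq_zero fun i _ => ?_
  rw [Pi.zero_apply, map_zero, zero_mul]

theorem s27g_cl_elt_single (i : Fin 𝔉.n) (q : L[X]) :
    𝔉.elt (Pi.single i q) = aeval 𝔉.x q * 𝔉.ω i := by
  classical
  unfold s27g_Frame.elt
  rw [Finset.sum_eq_single i]
  · rw [Pi.single_eq_same]
  · intro j _ hj
    rw [Pi.single_eq_of_ne hj, map_zero, zero_mul]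
  · intro hi
    exact absurd (Finset.mem_univ i) hi

theorem s27g_cl_elt_sum {ι : Type*} (s : Finset ι) (a : ι → Fin 𝔉.n → L[X]) :
    𝔉.elt (∑ t ∈ s, a t) = ∑ t ∈ s, 𝔉.elt (a t) := by
  classical
  induction s using Finset.induction_on with
  | empty => rw [Finset.sum_empty, Finset.sum_empty, s27g_cl_elt_zero]
  | insert t s ht ih => rw [Finset.sum_insert ht, Finset.sum_insert ht, s27g_cl_elt_add, ih]

/-- the product formula in the lattice. -/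
theorem s27g_cl_elt_mul (h : 𝔉.IsFrame) (a b : Fin 𝔉.n → L[X]) :
    𝔉.elt a * 𝔉.elt b = 𝔉.elt (𝔉.mulCoord a b) := by
  have e1 : 𝔉.elt a * 𝔉.elt b =
      ∑ i, ∑ j, ∑ k, aeval 𝔉.x (a i * b j * 𝔉.c i j k) * 𝔉.ω k := by
    unfold s27g_Frame.elt
    rw [Finset.sum_mul_sum]
    refine Finset.sum_congr rfl fun i _ => Finset.sum_congr rfl fun j _ => ?_
    have : aeval 𝔉.x (a i) * 𝔉.ω i * (aeval 𝔉.x (b j) * 𝔉.ω j) =
        aeval 𝔉.x (a i) * aeval 𝔉.x (b j) * (𝔉.ω i * 𝔉.ω j) := by ring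
    rw [this, h.mul, Finset.mul_sum]
    refine Finset.sum_congr rfl fun k _ => ?_
    rw [map_mul, map_mul]
    ring
  have e2 : 𝔉.elt (𝔉.mulCoord a b) =
      ∑ k, ∑ i, ∑ j, aeval 𝔉.x (a i * b j * 𝔉.c i j k) * 𝔉.ω k := by
    unfold s27g_Frame.elt s27g_Consts.mulCoord
    refine Finset.sum_congr rfl fun k _ => ?_
    rw [map_sum, Finset.sum_mul]
    refine Finset.sum_congr rfl fun i _ => ?_
    rw [map_sum, Finset.sum_mul]
  rw [e1, e2]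
  have e3 : ∀ i, ∑ j, ∑ k, aeval 𝔉.x (a i * b j * 𝔉.c i j k) * 𝔉.ω k =
      ∑ k, ∑ j, aeval 𝔉.x (a i * b j * 𝔉.c i j k) * 𝔉.ω k := fun i => Finset.sum_comm
  rw [Finset.sum_congr rfl fun i _ => e3 i, Finset.sum_comm]

theorem s27g_cl_one_eq (h : 𝔉.IsFrame) : 𝔉.elt (Pi.single 𝔉.i0 1) = 1 := by
  rw [s27g_cl_elt_single, map_one, one_mul, h.ω_zero]

theorem s27g_cl_aeval_eq (h : 𝔉.IsFrame) (q : L[X]) :
    𝔉.elt (Pi.single 𝔉.i0 q) = aeval 𝔉.x q := by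
  rw [s27g_cl_elt_single, h.ω_zero, mul_one]

/-- **the lattice `Λ = ⊕ L[x] ω_i` as a subalgebra of `E`.** -/
def s27g_clΛ (h : 𝔉.IsFrame) : Subalgebra L E where
  carrier := Set.range 𝔉.elt
  mul_mem' := by
    rintro _ _ ⟨a, rfl⟩ ⟨b, rfl⟩
    exact ⟨_, (s27g_cl_elt_mul 𝔉 h a b).symm⟩
  add_mem' := by
    rintro _ _ ⟨a, rfl⟩ ⟨b, rfl⟩
    exact ⟨_, s27g_cl_elt_add 𝔉 a b⟩
  algebraMap_mem' := fun c => ⟨Pi.single 𝔉.i0 (C c), by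
    rw [s27g_cl_aeval_eq 𝔉 h, aeval_C]⟩

theorem s27g_cl_mem_Λ (h : 𝔉.IsFrame) {f : E} : f ∈ s27g_clΛ 𝔉 h ↔ ∃ a, 𝔉.elt a = f :=
  Iff.rfl

theorem s27g_cl_elt_mem (h : 𝔉.IsFrame) (a : Fin 𝔉.n → L[X]) : 𝔉.elt a ∈ s27g_clΛ 𝔉 h :=
  ⟨a, rfl⟩

theorem s27g_cl_x_mem (h : 𝔉.IsFrame) : 𝔉.x ∈ s27g_clΛ 𝔉 h :=
  ⟨Pi.single 𝔉.i0 X, by rw [s27g_cl_aeval_eq 𝔉 h, aeval_X]⟩

theorem s27g_cl_aeval_mem (h : 𝔉.IsFrame) (q : L[X]) : aeval 𝔉.x q ∈ s27g_clΛ 𝔉 h :=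
  ⟨Pi.single 𝔉.i0 q, s27g_cl_aeval_eq 𝔉 h q⟩

theorem s27g_cl_ω_mem (h : 𝔉.IsFrame) (i : Fin 𝔉.n) : 𝔉.ω i ∈ s27g_clΛ 𝔉 h :=
  ⟨Pi.single i 1, by rw [s27g_cl_elt_single, map_one, one_mul]⟩

/-- `Λ = L[x, ω_i]`. -/
theorem s27g_cl_Λ_eq_adjoin (h : 𝔉.IsFrame) :
    s27g_clΛ 𝔉 h = Algebra.adjoin L (insert 𝔉.x (Set.range 𝔉.ω)) := by
  apply le_antisymm
  · rintro _ ⟨a, rfl⟩
    unfold s27g_Frame.elt
    refine Subalgebra.sum_mem _ fun i _ => Subalgebra.mul_mem _ ?_ ?_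
    · have hx : 𝔉.x ∈ Algebra.adjoin L (insert 𝔉.x (Set.range 𝔉.ω)) :=
        Algebra.subset_adjoin (Set.mem_insert _ _)
      rw [aeval_def, eval₂_eq_sum_range]
      exact Subalgebra.sum_mem _ fun m _ =>
        Subalgebra.mul_mem _ (Subalgebra.algebraMap_mem _ _) (Subalgebra.pow_mem _ hx m)
    · exact Algebra.subset_adjoin (Set.mem_insert_of_mem _ (Set.mem_range_self i))
  · rw [Algebra.adjoin_le_iff]
    rintro f (rfl | ⟨i, rfl⟩)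
    · exact s27g_cl_x_mem 𝔉 h
    · exact s27g_cl_ω_mem 𝔉 h i

instance s27g_cl_finiteType (h : 𝔉.IsFrame) : Algebra.FiniteType L ↥(s27g_clΛ 𝔉 h) := by
  classical
  rw [← Subalgebra.fg_iff_finiteType, s27g_cl_Λ_eq_adjoin 𝔉 h]
  have : insert 𝔉.x (Set.range 𝔉.ω) =
      ((insert 𝔉.x (Finset.univ.image 𝔉.ω) : Finset E) : Set E) := by
    rw [Finset.coe_insert, Finset.coe_image, Finset.coe_univ, Set.image_univ]
  rw [this]
  exact Subalgebra.fg_adjoin_finset _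

instance s27g_cl_isNoetherianRing (h : 𝔉.IsFrame) : IsNoetherianRing ↥(s27g_clΛ 𝔉 h) :=
  Algebra.FiniteType.isNoetherianRing L _

/-- `E` is the fraction field of `Λ`. -/
theorem s27g_cl_isFractionRing (h : 𝔉.IsFrame) : IsFractionRing ↥(s27g_clΛ 𝔉 h) E := by
  refine IsFractionRing.of_field (R := ↥(s27g_clΛ 𝔉 h)) (K := E) fun f => ?_
  obtain ⟨g, a, hg, hga⟩ := h.frac f
  have hg0 : aeval 𝔉.x g ≠ 0 := fun h0 => hg ((transcendental_iff.1 h.x_trans) g h0)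
  refine ⟨⟨𝔉.elt a, s27g_cl_elt_mem 𝔉 h a⟩, ⟨aeval 𝔉.x g, s27g_cl_aeval_mem 𝔉 h g⟩, ?_⟩
  show f = 𝔉.elt a / aeval 𝔉.x g
  rw [← hga, mul_div_cancel_left₀ _ hg0]

end Fermat.Agent.S27
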