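/-
S27 / (GOOD), cell L7 (helper4): THE JACOBIAN CRITERION.  Prefix `s27g_cl`.

`s27g_isClosed_of_jacUnit` : for a frame `𝔉` of `E / L`, `L` algebraically closed, with a Jacobian
certificate `𝔉.JacUnit`, the lattice `Λ = ⊕ L[x] ω_i` contains every element of `E` integral over
`L[x]`.

Proof: `Λ` is a noetherian domain of finite type over `L` with fraction field `E`; every maximal
ideal `𝔪` is the kernel of an `L`-point `P = (a₀, t_l)`, generated by `Z_0 = x - a₀`,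
`Z_l = ω_l - t_l`; the Taylor expansion of the multiplication table gives
`∑_l J(r, l) Z_l ∈ 𝔪²` for every row `r` of the Jacobian matrix; the certificate provides a
nonzero `(n-1)`-minor of `P(J)`, so all `Z_l` are proportional modulo `𝔪²` to one of them
(`s27g_cl_rank_one`), `𝔪 ≤ (Z_{l0}) + 𝔪²`, and `Λ_𝔪` is integrally closed
(`s27g_cl_localization_closed`).  Hence `Λ` is integrally closed.
-/
import Mathlib
import Fermat.Agent.S27.Good.ClosedAbs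
import Fermat.Agent.S27.Good.ClosedLattice

set_option autoImplicit false
set_option linter.style.haveILetI false
set_option linter.unusedSectionVars false
set_option linter.unusedVariables false

noncomputable section

namespace Fermat.Agent.S27

open Polynomial IsLocalRing

/-- second order Taylor expansion of a polynomial. -/
theorem s27g_cl_taylor2 {L : Type*} [Field L] (q : L[X]) (a : L) :
    ∃ q₂ : L[X],
      q = C (q.eval a) + C (q.derivative.eval a) * (X - C a) + (X - C a) ^ 2 * q₂ := by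
  obtain ⟨q₁, h1⟩ := X_sub_C_dvd_sub_C_eval (a := a) (p := q)
  obtain ⟨q₂, h2⟩ := X_sub_C_dvd_sub_C_eval (a := a) (p := q₁)
  have hq : q = C (q.eval a) + (X - C a) * q₁ := by rw [← h1]; ring
  have hq1 : q₁ = C (q₁.eval a) + (X - C a) * q₂ := by rw [← h2]; ring
  have hd : q.derivative.eval a = q₁.eval a := by
    conv_lhs => rw [hq]
    simp
  refine ⟨q₂, ?_⟩
  rw [hd]
  conv_lhs => rw [hq, hq1]
  ring

variable {L E : Type*} [Field L] [Field E] [Algebra L E] (𝔉 : s27g_Frame L E) (h : 𝔉.IsFrame)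

/-- `x` as an element of `Λ`. -/
def s27g_cl_x : ↥(s27g_clΛ 𝔉 h) := ⟨𝔉.x, s27g_cl_x_mem 𝔉 h⟩

/-- `ω_i` as an element of `Λ`. -/
def s27g_cl_ω (i : Fin 𝔉.n) : ↥(s27g_clΛ 𝔉 h) := ⟨𝔉.ω i, s27g_cl_ω_mem 𝔉 h i⟩

theorem s27g_cl_aeval_coe (q : L[X]) :
    ((aeval (s27g_cl_x 𝔉 h) q : ↥(s27g_clΛ 𝔉 h)) : E) = aeval 𝔉.x q :=
  (Subalgebra.aeval_coe (s27g_clΛ 𝔉 h) (s27g_cl_x 𝔉 h) q).symm

/-- the multiplication table in `Λ`. -/
theorem s27g_cl_rel (i j : Fin 𝔉.n) :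
    s27g_cl_ω 𝔉 h i * s27g_cl_ω 𝔉 h j =
      ∑ k, aeval (s27g_cl_x 𝔉 h) (𝔉.c i j k) * s27g_cl_ω 𝔉 h k := by
  apply Subtype.ext
  rw [Subalgebra.coe_mul, AddSubmonoidClass.coe_finsetSum]
  show 𝔉.ω i * 𝔉.ω j = _
  rw [h.mul]
  refine Finset.sum_congr rfl fun k _ => ?_
  rw [Subalgebra.coe_mul, s27g_cl_aeval_coe]
  rfl

/-- every element of `Λ` is `∑ a_i(x) ω_i`. -/
theorem s27g_cl_exists_eq (f : ↥(s27g_clΛ 𝔉 h)) :
    ∃ a : Fin 𝔉.n → L[X], f = ∑ i, aeval (s27g_cl_x 𝔉 h) (a i) * s27g_cl_ω 𝔉 h i := by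
  obtain ⟨a, ha⟩ := f.2
  refine ⟨a, Subtype.ext ?_⟩
  rw [AddSubmonoidClass.coe_finsetSum, ← ha]
  unfold s27g_Frame.elt
  refine Finset.sum_congr rfl fun k _ => ?_
  rw [Subalgebra.coe_mul, s27g_cl_aeval_coe]
  rfl

/-- the Jacobian matrix with entries in `Λ`. -/
def s27g_cl_jac : Matrix (Fin 𝔉.n × Fin 𝔉.n) (Fin 𝔉.n) ↥(s27g_clΛ 𝔉 h) := fun r l =>
  if l = 𝔉.i0 then
    -∑ k, aeval (s27g_cl_x 𝔉 h) (derivative (𝔉.c r.1 r.2 k)) * s27g_cl_ω 𝔉 h k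
  else (if l = r.1 then s27g_cl_ω 𝔉 h r.2 else 0) + (if l = r.2 then s27g_cl_ω 𝔉 h r.1 else 0)
    - aeval (s27g_cl_x 𝔉 h) (𝔉.c r.1 r.2 l)

theorem s27g_cl_jac_coe (r : Fin 𝔉.n × Fin 𝔉.n) (l : Fin 𝔉.n) :
    ((s27g_cl_jac 𝔉 h r l : ↥(s27g_clΛ 𝔉 h)) : E) = 𝔉.jac r l := by
  unfold s27g_cl_jac s27g_Frame.jac
  by_cases hl : l = 𝔉.i0
  · rw [if_pos hl, if_pos hl, NegMemClass.coe_neg, AddSubmonoidClass.coe_finsetSum]
    congr 1
    refine Finset.sum_congr rfl fun k _ => ?_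
    rw [Subalgebra.coe_mul, s27g_cl_aeval_coe]
    rfl
  · rw [if_neg hl, if_neg hl, AddSubgroupClass.coe_sub, Subalgebra.coe_add, s27g_cl_aeval_coe]
    congr 2
    · split_ifs <;> rfl
    · split_ifs <;> rfl

theorem s27g_cl_ω_zero : s27g_cl_ω 𝔉 h 𝔉.i0 = 1 := Subtype.ext h.ω_zero

/-! ### the `L`-points of `Λ` -/

section Point

variable (P : ↥(s27g_clΛ 𝔉 h) →ₐ[L] L)

theorem s27g_cl_P_aeval (q : L[X]) :
    P (aeval (s27g_cl_x 𝔉 h) q) = q.eval (P (s27g_cl_x 𝔉 h)) := by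
  rw [← aeval_algHom_apply, coe_aeval_eq_eval]

/-- the local coordinates at `P`: `Z_0 = x - a₀`, `Z_l = ω_l - t_l`. -/
def s27g_cl_Z (l : Fin 𝔉.n) : ↥(s27g_clΛ 𝔉 h) :=
  if l = 𝔉.i0 then s27g_cl_x 𝔉 h - algebraMap L _ (P (s27g_cl_x 𝔉 h))
  else s27g_cl_ω 𝔉 h l - algebraMap L _ (P (s27g_cl_ω 𝔉 h l))

theorem s27g_cl_sub_mem_ker (f : ↥(s27g_clΛ 𝔉 h)) :
    f - algebraMap L _ (P f) ∈ RingHom.ker (P : ↥(s27g_clΛ 𝔉 h) →+* L) := by
  rw [RingHom.mem_ker]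
  show P (f - algebraMap L _ (P f)) = 0
  rw [map_sub, AlgHom.commutes]
  exact sub_self _

theorem s27g_cl_Z_mem_ker (l : Fin 𝔉.n) :
    s27g_cl_Z 𝔉 h P l ∈ RingHom.ker (P : ↥(s27g_clΛ 𝔉 h) →+* L) := by
  unfold s27g_cl_Z
  split_ifs
  · exact s27g_cl_sub_mem_ker 𝔉 h P _
  · exact s27g_cl_sub_mem_ker 𝔉 h P _

/-- `ω_l - t_l` lies in the span of the `Z`'s (it is `0` for `l = 0`). -/
theorem s27g_cl_ω_sub_mem (l : Fin 𝔉.n) :
    s27g_cl_ω 𝔉 h l - algebraMap L _ (P (s27g_cl_ω 𝔉 h l)) ∈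
      Ideal.span (Set.range (s27g_cl_Z 𝔉 h P)) := by
  by_cases hl : l = 𝔉.i0
  · rw [hl, s27g_cl_ω_zero, map_one, map_one, sub_self]
    exact Ideal.zero_mem _
  · have : s27g_cl_Z 𝔉 h P l = s27g_cl_ω 𝔉 h l - algebraMap L _ (P (s27g_cl_ω 𝔉 h l)) := by
      unfold s27g_cl_Z
      rw [if_neg hl]
    rw [← this]
    exact Ideal.subset_span (Set.mem_range_self l)

/-- `q(x) - q(a₀)` lies in the span of the `Z`'s. -/
theorem s27g_cl_aeval_sub_mem (q : L[X]) :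
    aeval (s27g_cl_x 𝔉 h) q - algebraMap L _ (q.eval (P (s27g_cl_x 𝔉 h))) ∈
      Ideal.span (Set.range (s27g_cl_Z 𝔉 h P)) := by
  obtain ⟨q₁, h1⟩ := X_sub_C_dvd_sub_C_eval (a := P (s27g_cl_x 𝔉 h)) (p := q)
  have h2 := congrArg (aeval (s27g_cl_x 𝔉 h)) h1
  rw [map_sub, aeval_C, map_mul, map_sub, aeval_X, aeval_C] at h2
  rw [h2]
  have h3 : s27g_cl_Z 𝔉 h P 𝔉.i0 =
      s27g_cl_x 𝔉 h - algebraMap L _ (P (s27g_cl_x 𝔉 h)) := by
    unfold s27g_cl_Z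
    rw [if_pos rfl]
  rw [← h3]
  exact Ideal.mul_mem_right _ _ (Ideal.subset_span (Set.mem_range_self _))

/-- `ker P` is generated by the local coordinates. -/
theorem s27g_cl_ker_eq_span :
    RingHom.ker (P : ↥(s27g_clΛ 𝔉 h) →+* L) = Ideal.span (Set.range (s27g_cl_Z 𝔉 h P)) := by
  apply le_antisymm
  · intro f hf
    rw [RingHom.mem_ker] at hf
    have hf' : P f = 0 := hf
    obtain ⟨a, ha⟩ := s27g_cl_exists_eq 𝔉 h f
    -- `f = f - P f`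
    have e1 : f = ∑ i, (aeval (s27g_cl_x 𝔉 h) (a i) * s27g_cl_ω 𝔉 h i -
        algebraMap L _ ((a i).eval (P (s27g_cl_x 𝔉 h))) *
          algebraMap L _ (P (s27g_cl_ω 𝔉 h i))) := by
      rw [Finset.sum_sub_distrib]
      have e2 : ∑ i, algebraMap L ↥(s27g_clΛ 𝔉 h) ((a i).eval (P (s27g_cl_x 𝔉 h))) *
          algebraMap L _ (P (s27g_cl_ω 𝔉 h i)) = algebraMap L _ (P f) := by
        conv_rhs => rw [ha, map_sum, map_sum]
        refine Finset.sum_congr rfl fun i _ => ?_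
        rw [map_mul, s27g_cl_P_aeval, map_mul]
      rw [e2, hf', map_zero, sub_zero]
      exact ha
    rw [e1]
    refine Ideal.sum_mem _ fun i _ => ?_
    have e3 : aeval (s27g_cl_x 𝔉 h) (a i) * s27g_cl_ω 𝔉 h i -
        algebraMap L _ ((a i).eval (P (s27g_cl_x 𝔉 h))) *
          algebraMap L _ (P (s27g_cl_ω 𝔉 h i)) =
        (aeval (s27g_cl_x 𝔉 h) (a i) -
          algebraMap L _ ((a i).eval (P (s27g_cl_x 𝔉 h)))) * s27g_cl_ω 𝔉 h i +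
        algebraMap L _ ((a i).eval (P (s27g_cl_x 𝔉 h))) *
          (s27g_cl_ω 𝔉 h i - algebraMap L _ (P (s27g_cl_ω 𝔉 h i))) := by ring
    rw [e3]
    exact Ideal.add_mem _ (Ideal.mul_mem_right _ _ (s27g_cl_aeval_sub_mem 𝔉 h P _))
      (Ideal.mul_mem_left _ _ (s27g_cl_ω_sub_mem 𝔉 h P i))
  · rw [Ideal.span_le]
    rintro _ ⟨l, rfl⟩
    exact s27g_cl_Z_mem_ker 𝔉 h P l

/-- the Taylor remainder of `q(x)` at `a₀` lies in `𝔪²`. -/
theorem s27g_cl_taylor_mem (q : L[X]) :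
    aeval (s27g_cl_x 𝔉 h) q - algebraMap L _ (q.eval (P (s27g_cl_x 𝔉 h))) -
        algebraMap L _ (q.derivative.eval (P (s27g_cl_x 𝔉 h))) *
          (s27g_cl_x 𝔉 h - algebraMap L _ (P (s27g_cl_x 𝔉 h))) ∈
      RingHom.ker (P : ↥(s27g_clΛ 𝔉 h) →+* L) ^ 2 := by
  obtain ⟨q₂, hq⟩ := s27g_cl_taylor2 q (P (s27g_cl_x 𝔉 h))
  have h2 := congrArg (aeval (s27g_cl_x 𝔉 h)) hq
  rw [map_add, map_add, aeval_C, map_mul, aeval_C, map_sub, aeval_X, aeval_C, map_mul, map_pow,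
    map_sub, aeval_X, aeval_C] at h2
  have h3 : aeval (s27g_cl_x 𝔉 h) q - algebraMap L _ (q.eval (P (s27g_cl_x 𝔉 h))) -
        algebraMap L _ (q.derivative.eval (P (s27g_cl_x 𝔉 h))) *
          (s27g_cl_x 𝔉 h - algebraMap L _ (P (s27g_cl_x 𝔉 h))) =
      (s27g_cl_x 𝔉 h - algebraMap L _ (P (s27g_cl_x 𝔉 h))) ^ 2 *
        aeval (s27g_cl_x 𝔉 h) q₂ := by
    rw [h2]; ring
  rw [h3]
  exact Ideal.mul_mem_right _ _ (Ideal.pow_mem_pow (s27g_cl_sub_mem_ker 𝔉 h P _) 2)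

/-- **the Taylor expansion of the multiplication table**: `∑_l J(r, l) Z_l ∈ 𝔪²`. -/
theorem s27g_cl_jac_mul_Z_mem (r : Fin 𝔉.n × Fin 𝔉.n) :
    ∑ l, s27g_cl_jac 𝔉 h r l * s27g_cl_Z 𝔉 h P l ∈
      RingHom.ker (P : ↥(s27g_clΛ 𝔉 h) →+* L) ^ 2 := by
  classical
  obtain ⟨i, j⟩ := r
  -- notation
  set xΛ := s27g_cl_x 𝔉 h with hxΛ
  set a₀ := P xΛ with ha₀
  set u := xΛ - algebraMap L ↥(s27g_clΛ 𝔉 h) a₀ with hu
  set Ω : Fin 𝔉.n → ↥(s27g_clΛ 𝔉 h) := s27g_cl_ω 𝔉 h with hΩ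
  set T : Fin 𝔉.n → ↥(s27g_clΛ 𝔉 h) := fun k => algebraMap L _ (P (Ω k)) with hT
  set w : Fin 𝔉.n → ↥(s27g_clΛ 𝔉 h) := fun k => Ω k - T k with hw
  set α : Fin 𝔉.n → ↥(s27g_clΛ 𝔉 h) := fun k => aeval xΛ (𝔉.c i j k) with hα
  set α0 : Fin 𝔉.n → ↥(s27g_clΛ 𝔉 h) := fun k => algebraMap L _ ((𝔉.c i j k).eval a₀) with hα0
  set δ : Fin 𝔉.n → ↥(s27g_clΛ 𝔉 h) := fun k => aeval xΛ (derivative (𝔉.c i j k)) with hδ
  set δ0 : Fin 𝔉.n → ↥(s27g_clΛ 𝔉 h) :=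
    fun k => algebraMap L _ ((derivative (𝔉.c i j k)).eval a₀) with hδ0
  set 𝔪 := RingHom.ker (P : ↥(s27g_clΛ 𝔉 h) →+* L) with h𝔪
  have hum : u ∈ 𝔪 := s27g_cl_sub_mem_ker 𝔉 h P _
  have hwm : ∀ k, w k ∈ 𝔪 := fun k => s27g_cl_sub_mem_ker 𝔉 h P _
  have hw0 : w 𝔉.i0 = 0 := by
    show Ω 𝔉.i0 - algebraMap L _ (P (Ω 𝔉.i0)) = 0
    rw [hΩ, s27g_cl_ω_zero, map_one, map_one, sub_self]
  -- the two relations
  have hrel : Ω i * Ω j = ∑ k, α k * Ω k := s27g_cl_rel 𝔉 h i j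
  have hPrel : T i * T j = ∑ k, α0 k * T k := by
    have := congrArg (fun z => algebraMap L ↥(s27g_clΛ 𝔉 h) (P z)) hrel
    simp only [map_mul, map_sum] at this
    rw [this]
    refine Finset.sum_congr rfl fun k _ => ?_
    show algebraMap L _ (P (aeval xΛ (𝔉.c i j k))) * _ = _
    rw [s27g_cl_P_aeval]
  -- step (a): the sum in terms of `u`, `w`
  have hZ : ∀ l, s27g_cl_jac 𝔉 h (i, j) l * s27g_cl_Z 𝔉 h P l =
      (if l = 𝔉.i0 then (-∑ k, δ k * Ω k) * u else 0) +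
        ((if l = i then Ω j else 0) + (if l = j then Ω i else 0) - α l) * w l := by
    intro l
    unfold s27g_cl_jac s27g_cl_Z
    by_cases hl : l = 𝔉.i0
    · rw [if_pos hl, if_pos hl, if_pos hl, hl, hw0, mul_zero, add_zero]
    · rw [if_neg hl, if_neg hl, if_neg hl, zero_add]
  have hsum : ∑ l, s27g_cl_jac 𝔉 h (i, j) l * s27g_cl_Z 𝔉 h P l =
      (-∑ k, δ k * Ω k) * u + (Ω j * w i + Ω i * w j - ∑ l, α l * w l) := by
    rw [Finset.sum_congr rfl fun l _ => hZ l, Finset.sum_add_distrib,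
      Finset.sum_ite_eq' Finset.univ 𝔉.i0, if_pos (Finset.mem_univ _)]
    congr 1
    have e : ∀ l, ((if l = i then Ω j else 0) + (if l = j then Ω i else 0) - α l) * w l =
        (if l = i then Ω j * w l else 0) + (if l = j then Ω i * w l else 0) - α l * w l := by
      intro l
      rw [sub_mul, add_mul, ite_mul, ite_mul, zero_mul]
    rw [Finset.sum_congr rfl fun l _ => e l, Finset.sum_sub_distrib, Finset.sum_add_distrib,
      Finset.sum_ite_eq' Finset.univ i, Finset.sum_ite_eq' Finset.univ j,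
      if_pos (Finset.mem_univ _), if_pos (Finset.mem_univ _)]
  -- step (c): the decomposition
  have hdec : (-∑ k, δ k * Ω k) * u + (Ω j * w i + Ω i * w j - ∑ l, α l * w l) =
      w i * w j + ∑ k, (α k - α0 k - δ0 k * u) * T k + u * ∑ k, (δ0 k * T k - δ k * Ω k) := by
    have e1 : ∑ l, α l * w l = (∑ k, α k * Ω k) - ∑ k, α k * T k := by
      rw [← Finset.sum_sub_distrib]
      exact Finset.sum_congr rfl fun k _ => by rw [hw]; ring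
    have e2 : ∑ k, (α k - α0 k - δ0 k * u) * T k =
        (∑ k, α k * T k) - (∑ k, α0 k * T k) - u * ∑ k, δ0 k * T k := by
      rw [Finset.mul_sum, ← Finset.sum_sub_distrib, ← Finset.sum_sub_distrib]
      exact Finset.sum_congr rfl fun k _ => by ring
    have e3 : ∑ k, (δ0 k * T k - δ k * Ω k) = (∑ k, δ0 k * T k) - ∑ k, δ k * Ω k := by
      rw [Finset.sum_sub_distrib]
    rw [e1, e2, e3, ← hrel, ← hPrel]
    show _ = (Ω i - T i) * (Ω j - T j) + _ + _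
    show -(∑ k, δ k * Ω k) * u + (Ω j * (Ω i - T i) + Ω i * (Ω j - T j) -
      (Ω i * Ω j - ∑ k, α k * T k)) = _
    ring
  rw [hsum, hdec]
  -- step (d): membership
  refine Ideal.add_mem _ (Ideal.add_mem _ ?_ ?_) ?_
  · rw [pow_two]
    exact Ideal.mul_mem_mul (hwm i) (hwm j)
  · refine Ideal.sum_mem _ fun k _ => Ideal.mul_mem_right _ _ ?_
    exact s27g_cl_taylor_mem 𝔉 h P (𝔉.c i j k)
  · rw [pow_two]
    refine Ideal.mul_mem_mul hum (Ideal.sum_mem _ fun k _ => ?_)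
    rw [h𝔪, RingHom.mem_ker]
    show P (δ0 k * T k - δ k * Ω k) = 0
    rw [map_sub, map_mul, map_mul]
    show P (algebraMap L _ _) * P (algebraMap L _ _) - P (aeval xΛ _) * _ = 0
    rw [AlgHom.commutes, AlgHom.commutes, s27g_cl_P_aeval]
    exact sub_self _

end Point

/-! ### the main theorem -/

section Main

variable [IsAlgClosed L]

/-- every maximal ideal of `Λ` is `(z) + 𝔪²`. -/
theorem s27g_cl_max_le (hJ : 𝔉.JacUnit) (𝔪 : Ideal ↥(s27g_clΛ 𝔉 h)) [h𝔪 : 𝔪.IsMaximal] :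
    ∃ z ∈ 𝔪, 𝔪 ≤ Ideal.span {z} ⊔ 𝔪 ^ 2 := by
  classical
  obtain ⟨P, hP⟩ := s27g_cl_exists_point (L := L) 𝔪
  have hker : RingHom.ker (P : ↥(s27g_clΛ 𝔉 h) →+* L) = 𝔪 := by
    ext a
    rw [RingHom.mem_ker]
    exact hP a
  obtain ⟨ι, hι, rows, cols, hh, -, hcert⟩ := hJ
  -- the certificate in `Λ`
  have hΛ : ∑ α, (⟨𝔉.elt (hh α), s27g_cl_elt_mem 𝔉 h (hh α)⟩ : ↥(s27g_clΛ 𝔉 h)) *
      ((s27g_cl_jac 𝔉 h).submatrix (rows α) (cols α)).det = 1 := by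
    apply Subtype.ext
    rw [AddSubmonoidClass.coe_finsetSum, OneMemClass.coe_one, ← hcert]
    refine Finset.sum_congr rfl fun α _ => ?_
    rw [Subalgebra.coe_mul]
    congr 1
    have e := RingHom.map_det ((s27g_clΛ 𝔉 h).val : ↥(s27g_clΛ 𝔉 h) →+* E)
      ((s27g_cl_jac 𝔉 h).submatrix (rows α) (cols α))
    have e' : (((s27g_clΛ 𝔉 h).val : ↥(s27g_clΛ 𝔉 h) →+* E).mapMatrix
        ((s27g_cl_jac 𝔉 h).submatrix (rows α) (cols α))) =
        𝔉.jac.submatrix (rows α) (cols α) := by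
      ext s m
      exact s27g_cl_jac_coe 𝔉 h _ _
    rw [e'] at e
    exact e
  -- the certificate at the point `P`
  have hPcert : ∑ α, P ⟨𝔉.elt (hh α), s27g_cl_elt_mem 𝔉 h (hh α)⟩ *
      (((s27g_cl_jac 𝔉 h).map P).submatrix (rows α) (cols α)).det = 1 := by
    have e := congrArg P hΛ
    rw [map_sum, map_one] at e
    rw [← e]
    refine Finset.sum_congr rfl fun α _ => ?_
    rw [map_mul, AlgHom.map_det]
    rfl
  obtain ⟨α, hα⟩ : ∃ α, (((s27g_cl_jac 𝔉 h).map P).submatrix (rows α) (cols α)).det ≠ 0 := by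
    by_contra hcon
    push Not at hcon
    rw [Finset.sum_eq_zero fun α _ => by rw [hcon α, mul_zero]] at hPcert
    exact zero_ne_one hPcert
  -- the linear relations in `𝔪 / 𝔪²`
  have hN : ∀ r, ∑ l, ((s27g_cl_jac 𝔉 h).map P) r l •
      (Ideal.Quotient.mk (𝔪 ^ 2) (s27g_cl_Z 𝔉 h P l)) = 0 := by
    intro r
    have e1 : ∀ l, ((s27g_cl_jac 𝔉 h).map P) r l •
        (Ideal.Quotient.mk (𝔪 ^ 2) (s27g_cl_Z 𝔉 h P l)) =
        Ideal.Quotient.mk (𝔪 ^ 2)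
          (algebraMap L _ (P (s27g_cl_jac 𝔉 h r l)) * s27g_cl_Z 𝔉 h P l) := by
      intro l
      rw [Algebra.smul_def, map_mul, Ideal.Quotient.mk_algebraMap]
      rfl
    rw [Finset.sum_congr rfl fun l _ => e1 l, ← map_sum, Ideal.Quotient.eq_zero_iff_mem]
    have e2 : ∑ l, algebraMap L ↥(s27g_clΛ 𝔉 h) (P (s27g_cl_jac 𝔉 h r l)) * s27g_cl_Z 𝔉 h P l =
        ∑ l, s27g_cl_jac 𝔉 h r l * s27g_cl_Z 𝔉 h P l -
          ∑ l, (s27g_cl_jac 𝔉 h r l - algebraMap L _ (P (s27g_cl_jac 𝔉 h r l))) *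
            s27g_cl_Z 𝔉 h P l := by
      rw [← Finset.sum_sub_distrib]
      exact Finset.sum_congr rfl fun l _ => by ring
    rw [e2]
    refine Ideal.sub_mem _ ?_ (Ideal.sum_mem _ fun l _ => ?_)
    · rw [← hker]
      exact s27g_cl_jac_mul_Z_mem 𝔉 h P r
    · rw [pow_two, ← hker]
      exact Ideal.mul_mem_mul (s27g_cl_sub_mem_ker 𝔉 h P _) (s27g_cl_Z_mem_ker 𝔉 h P l)
  obtain ⟨l0, hl0⟩ := s27g_cl_rank_one 𝔉.hn
    (fun l => Ideal.Quotient.mk (𝔪 ^ 2) (s27g_cl_Z 𝔉 h P l)) ((s27g_cl_jac 𝔉 h).map P) hN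
    (rows α) (cols α) hα
  refine ⟨s27g_cl_Z 𝔉 h P l0, hker ▸ s27g_cl_Z_mem_ker 𝔉 h P l0, ?_⟩
  conv_lhs => rw [← hker, s27g_cl_ker_eq_span 𝔉 h P]
  rw [Ideal.span_le]
  rintro _ ⟨l, rfl⟩
  obtain ⟨c, hc⟩ := hl0 l
  have e3 : s27g_cl_Z 𝔉 h P l - algebraMap L _ c * s27g_cl_Z 𝔉 h P l0 ∈ 𝔪 ^ 2 := by
    rw [← Ideal.Quotient.eq_zero_iff_mem, map_sub, map_mul, Ideal.Quotient.mk_algebraMap,
      ← Algebra.smul_def, sub_eq_zero]
    exact hc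
  have e4 : s27g_cl_Z 𝔉 h P l = algebraMap L _ c * s27g_cl_Z 𝔉 h P l0 +
      (s27g_cl_Z 𝔉 h P l - algebraMap L _ c * s27g_cl_Z 𝔉 h P l0) := by ring
  rw [SetLike.mem_coe, e4]
  exact Submodule.add_mem_sup
    (Ideal.mul_mem_left _ _ (Ideal.subset_span (Set.mem_singleton _))) e3

/-- `Λ` is integrally closed. -/
theorem s27g_cl_isIntegrallyClosed (hJ : 𝔉.JacUnit) :
    IsIntegrallyClosed ↥(s27g_clΛ 𝔉 h) :=
  IsIntegrallyClosed.of_localization_maximal fun 𝔪 _ _ => by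
    obtain ⟨z, hz, hle⟩ := s27g_cl_max_le 𝔉 h hJ 𝔪
    exact s27g_cl_localization_closed 𝔪 hz hle

/-- **(GOOD/L7) THE JACOBIAN CRITERION**: a frame with a Jacobian certificate is closed. -/
theorem s27g_isClosed_of_jacUnit (𝔉 : s27g_Frame L E) (h : 𝔉.IsFrame) (hJ : 𝔉.JacUnit) :
    𝔉.IsClosed := by
  intro f hf
  haveI := s27g_cl_isFractionRing 𝔉 h
  haveI := s27g_cl_isIntegrallyClosed 𝔉 h hJ
  have hle : Algebra.adjoin L ({𝔉.x} : Set E) ≤ s27g_clΛ 𝔉 h := by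
    rw [Algebra.adjoin_le_iff, Set.singleton_subset_iff]
    exact s27g_cl_x_mem 𝔉 h
  -- `f` is integral over `Λ`
  have hf' : IsIntegral ↥(s27g_clΛ 𝔉 h) f := by
    obtain ⟨p, hp, hpf⟩ := hf
    refine ⟨p.map (Subalgebra.inclusion hle : _ →+* _), hp.map _, ?_⟩
    rw [eval₂_map]
    exact hpf
  obtain ⟨y, hy⟩ := IsIntegrallyClosed.algebraMap_eq_of_integral hf'
  rw [← hy]
  exact y.2

end Main

end Fermat.Agent.S27
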