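/-
S27 / (GOOD), cell L5 (helper21), part 1: pole-order calculus at one place `P`.
Prefix `s27g_fr`, namespace `Fermat.Agent.S27`.

`F / K` a function field with a separating generator `x0` over an algebraically closed field `K`
(any characteristic), `P` a place.  `s27g_frReg P f` : `f` has no pole outside `P`.
For a frame `𝔉` whose `x` and `ω_i` are regular outside `P` with pole orders `n` and `ρ_i ≡ i (n)`
at `P` (`s27g_frPole`), the pole order of `∑ a_i(x) ω_i` at `P` is the weighted degree of `a`; if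
moreover the `ρ_i` are the least pole numbers in their classes, every function regular outside `P`
is of this form.
-/
import Mathlib
import Fermat.Agent.S27.Good.Defs

set_option autoImplicit false
set_option linter.unusedSectionVars false
set_option linter.unusedVariables false
set_option linter.style.haveILetI false

namespace Fermat.Agent.S27

open AlgebraicCurve IntermediateField Polynomial WithZero Fermat.Agent.JT3 Fermat.Agent.S24
open scoped Classical

universe u v
variable {K : Type u} {F : Type v} [Field K] [Field F] [Algebra K F]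

/-! ### the order of a sum with a unique term of least order -/

theorem s27g_fr_ord_sum (v : Place K F) {α : Type*} (T : Finset α)
    (G : α → F) {i₀ : α} (hi₀ : i₀ ∈ T) (h0 : G i₀ ≠ 0)
    (h : ∀ i ∈ T, i ≠ i₀ → G i = 0 ∨ v.ord (G i₀) < v.ord (G i)) :
    ∑ i ∈ T, G i ≠ 0 ∧ v.ord (∑ i ∈ T, G i) = v.ord (G i₀) := by
  rw [← Finset.add_sum_erase T G hi₀]
  have hv0 : v.adicValuation (G i₀) ≠ 0 := v.adicValuation_ne_zero h0
  have hlt : v.adicValuation (∑ i ∈ T.erase i₀, G i) < v.adicValuation (G i₀) := by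
    refine Valuation.map_sum_lt _ hv0 fun i hi => ?_
    obtain ⟨hne, hiT⟩ := Finset.mem_erase.mp hi
    rcases eq_or_ne (G i) 0 with h1 | hGi
    · rw [h1, map_zero]
      exact zero_lt_iff.mpr hv0
    · have h1 := (h i hiT hne).resolve_left hGi
      rw [hw_adicValuation_eq_exp v h0, hw_adicValuation_eq_exp v hGi, exp_lt_exp]
      omega
  have heq := Valuation.map_add_eq_of_lt_left v.adicValuation hlt
  have hne : G i₀ + ∑ i ∈ T.erase i₀, G i ≠ 0 := by
    intro hsum
    rw [hsum, map_zero] at heq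
    exact hv0 heq.symm
  refine ⟨hne, ?_⟩
  rw [hw_ord_eq_neg_log, hw_ord_eq_neg_log, heq]

/-! ### the order of a polynomial at a pole -/

theorem s27g_fr_ord_aeval (v : Place K F) {x : F} (hx : v.ord x < 0) {p : K[X]} (hp : p ≠ 0) :
    aeval x p ≠ 0 ∧ v.ord (aeval x p) = (p.natDegree : ℤ) * v.ord x := by
  have hx0 : x ≠ 0 := by
    rintro rfl
    simp at hx
  have hz : 0 < v.ord x⁻¹ := by
    rw [v.ord_inv]
    omega
  have hq : p.reverse.coeff 0 ≠ 0 := by
    rw [coeff_zero_reverse]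
    exact leadingCoeff_ne_zero.mpr hp
  obtain ⟨h1, h2⟩ := rt_ord_aeval_of_coeff_zero_ne v hz hq
  letI : Invertible x := invertibleOfNonzero hx0
  have hdec : aeval x p = aeval x⁻¹ p.reverse * x ^ p.natDegree := by
    have := eval₂_reverse_mul_pow (algebraMap K F) x p
    rw [invOf_eq_inv] at this
    rw [aeval_def, aeval_def]
    exact this.symm
  have hxd : x ^ p.natDegree ≠ 0 := pow_ne_zero _ hx0
  refine ⟨by rw [hdec]; exact mul_ne_zero h1 hxd, ?_⟩
  rw [hdec, v.ord_mul h1 hxd, h2, zero_add, rt_ord_pow]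

/-! ### functions without poles outside `P` -/

/-- `f` has no pole outside `P`. -/
def s27g_frReg (P : Place K F) (f : F) : Prop :=
  ∀ v : Place K F, v ≠ P → f ∈ v.toValuationSubring

namespace s27g_frReg

variable {P : Place K F}

theorem zero : s27g_frReg P (0 : F) := fun v _ => zero_mem _

theorem one : s27g_frReg P (1 : F) := fun v _ => one_mem _

theorem algebraMap (c : K) : s27g_frReg P (algebraMap K F c) := fun v _ => v.algebraMap_mem' c

theorem add {f g : F} (hf : s27g_frReg P f) (hg : s27g_frReg P g) : s27g_frReg P (f + g) :=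
  fun v hv => add_mem (hf v hv) (hg v hv)

theorem sub {f g : F} (hf : s27g_frReg P f) (hg : s27g_frReg P g) : s27g_frReg P (f - g) :=
  fun v hv => sub_mem (hf v hv) (hg v hv)

theorem mul {f g : F} (hf : s27g_frReg P f) (hg : s27g_frReg P g) : s27g_frReg P (f * g) :=
  fun v hv => mul_mem (hf v hv) (hg v hv)

theorem pow {f : F} (hf : s27g_frReg P f) (m : ℕ) : s27g_frReg P (f ^ m) :=
  fun v hv => pow_mem (hf v hv) m

theorem sum {α : Type*} (T : Finset α) {G : α → F} (hG : ∀ i ∈ T, s27g_frReg P (G i)) :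
    s27g_frReg P (∑ i ∈ T, G i) :=
  fun v hv => sum_mem fun i hi => hG i hi v hv

theorem aeval {f : F} (hf : s27g_frReg P f) (p : K[X]) : s27g_frReg P (aeval f p) :=
  fun v hv => rt_aeval_mem v (hf v hv) p

end s27g_frReg

/-! ### elements of the lattice -/

namespace s27g_Frame

variable (𝔉 : s27g_Frame K F)

theorem fr_elt_zero : 𝔉.elt 0 = 0 := by
  unfold s27g_Frame.elt
  simp

theorem fr_elt_add (a b : Fin 𝔉.n → K[X]) : 𝔉.elt (a + b) = 𝔉.elt a + 𝔉.elt b := by
  unfold s27g_Frame.elt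
  rw [← Finset.sum_add_distrib]
  refine Finset.sum_congr rfl fun i _ => ?_
  rw [Pi.add_apply, map_add, add_mul]

theorem fr_elt_single (i : Fin 𝔉.n) (p : K[X]) :
    𝔉.elt (Pi.single i p) = Polynomial.aeval 𝔉.x p * 𝔉.ω i := by
  unfold s27g_Frame.elt
  rw [Finset.sum_eq_single i]
  · rw [Pi.single_eq_same]
  · intro j _ hj
    rw [Pi.single_eq_of_ne hj, map_zero, zero_mul]
  · intro h
    exact absurd (Finset.mem_univ i) h

end s27g_Frame

/-! ### Apéry frames at a place -/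

/-- `𝔉` is an Apéry frame at the place `P`: `x` and the `ω_i` are regular outside `P`, with pole
orders `n` and `ρ_i ≡ i (n)` at `P`. -/
structure s27g_frPole (𝔉 : s27g_Frame K F) (P : Place K F) : Prop where
  x_reg : s27g_frReg P 𝔉.x
  x_ord : P.ord 𝔉.x = -(𝔉.n : ℤ)
  ω_reg : ∀ i, s27g_frReg P (𝔉.ω i)
  ω_ne : ∀ i, 𝔉.ω i ≠ 0
  ω_ord : ∀ i, P.ord (𝔉.ω i) = -(𝔉.ρ i : ℤ)
  ρ_mod : ∀ i, 𝔉.ρ i % 𝔉.n = (i : ℕ)
  ω_zero : 𝔉.ω 𝔉.i0 = 1

/-- the `ρ_i` are the least pole numbers at `P` in their classes mod `n`. -/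
def s27g_frMin (𝔉 : s27g_Frame K F) (P : Place K F) : Prop :=
  ∀ (i : Fin 𝔉.n) (m : ℕ) (f : F), s27g_frReg P f → f ≠ 0 → P.ord f = -(m : ℤ) →
    m % 𝔉.n = (i : ℕ) → 𝔉.ρ i ≤ m

namespace s27g_frPole

variable {𝔉 : s27g_Frame K F} {P : Place K F}

theorem x_ord_neg (h : s27g_frPole 𝔉 P) : P.ord 𝔉.x < 0 := by
  have hn : 0 < 𝔉.n := 𝔉.hn
  rw [h.x_ord]
  omega

theorem x_ne (h : s27g_frPole 𝔉 P) : 𝔉.x ≠ 0 := by
  intro h0
  have := h.x_ord_neg
  rw [h0] at this
  simp at this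

theorem term (h : s27g_frPole 𝔉 P) (i : Fin 𝔉.n) {p : K[X]} (hp : p ≠ 0) :
    Polynomial.aeval 𝔉.x p * 𝔉.ω i ≠ 0 ∧
      P.ord (Polynomial.aeval 𝔉.x p * 𝔉.ω i) = -((𝔉.n * p.natDegree + 𝔉.ρ i : ℕ) : ℤ) := by
  obtain ⟨h1, h2⟩ := s27g_fr_ord_aeval P h.x_ord_neg hp
  refine ⟨mul_ne_zero h1 (h.ω_ne i), ?_⟩
  rw [P.ord_mul h1 (h.ω_ne i), h2, h.x_ord, h.ω_ord]
  push_cast
  ring

theorem reg_elt (h : s27g_frPole 𝔉 P) (a : Fin 𝔉.n → K[X]) : s27g_frReg P (𝔉.elt a) := by
  unfold s27g_Frame.elt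
  exact s27g_frReg.sum _ fun i _ => (h.x_reg.aeval (a i)).mul (h.ω_reg i)

/-- **the pole order of `∑ a_i(x) ω_i` is the weighted degree of `a`.** -/
theorem ord_elt (h : s27g_frPole 𝔉 P) {a : Fin 𝔉.n → K[X]} (ha : a ≠ 0) :
    𝔉.elt a ≠ 0 ∧ P.ord (𝔉.elt a) = -(𝔉.wdeg a : ℤ) := by
  have hn : 0 < 𝔉.n := 𝔉.hn
  set S : Finset (Fin 𝔉.n) := Finset.univ.filter fun i => a i ≠ 0 with hS
  have hSne : S.Nonempty := by
    obtain ⟨i, hi⟩ := Function.ne_iff.mp ha
    exact ⟨i, Finset.mem_filter.mpr ⟨Finset.mem_univ _, hi⟩⟩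
  obtain ⟨i₀, hi₀S, hsup⟩ :=
    Finset.exists_mem_eq_sup S hSne (fun i => 𝔉.n * (a i).natDegree + 𝔉.ρ i)
  have hi₀ : a i₀ ≠ 0 := (Finset.mem_filter.mp hi₀S).2
  have hw : 𝔉.wdeg a = 𝔉.n * (a i₀).natDegree + 𝔉.ρ i₀ := hsup
  have key := s27g_fr_ord_sum P Finset.univ (fun i => Polynomial.aeval 𝔉.x (a i) * 𝔉.ω i)
    (Finset.mem_univ i₀) (h.term i₀ hi₀).1 (by
      intro i _ hne
      by_cases hi : a i = 0
      · left
        rw [hi, map_zero, zero_mul]
      · right
        rw [(h.term i₀ hi₀).2, (h.term i hi).2]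
        have hle : 𝔉.n * (a i).natDegree + 𝔉.ρ i ≤ 𝔉.n * (a i₀).natDegree + 𝔉.ρ i₀ := by
          rw [← hsup]
          exact Finset.le_sup (f := fun i => 𝔉.n * (a i).natDegree + 𝔉.ρ i)
            (Finset.mem_filter.mpr ⟨Finset.mem_univ _, hi⟩)
        have hne' : 𝔉.n * (a i).natDegree + 𝔉.ρ i ≠ 𝔉.n * (a i₀).natDegree + 𝔉.ρ i₀ := by
          intro heq
          apply hne
          have := congrArg (· % 𝔉.n) heq
          simp only [Nat.mul_add_mod] at this
          rw [h.ρ_mod, h.ρ_mod] at this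
          exact Fin.ext this
        omega)
  refine ⟨key.1, ?_⟩
  unfold s27g_Frame.elt
  rw [key.2, (h.term i₀ hi₀).2, hw]

theorem elt_ne_zero (h : s27g_frPole 𝔉 P) {a : Fin 𝔉.n → K[X]} (ha : a ≠ 0) : 𝔉.elt a ≠ 0 :=
  (h.ord_elt ha).1

theorem indep (h : s27g_frPole 𝔉 P) (a : Fin 𝔉.n → K[X]) (ha : 𝔉.elt a = 0) : a = 0 := by
  by_contra hne
  exact h.elt_ne_zero hne ha

theorem elt_injective (h : s27g_frPole 𝔉 P) {a b : Fin 𝔉.n → K[X]} (hab : 𝔉.elt a = 𝔉.elt b) :
    a = b := by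
  have h1 : 𝔉.elt (a + (-1 : K[X]) • b) = 0 := by
    rw [𝔉.fr_elt_add, hab]
    have : 𝔉.elt ((-1 : K[X]) • b) = -𝔉.elt b := by
      unfold s27g_Frame.elt
      rw [← Finset.sum_neg_distrib]
      refine Finset.sum_congr rfl fun i _ => ?_
      rw [Pi.smul_apply, smul_eq_mul, map_mul, map_neg, map_one]
      ring
    rw [this, add_neg_cancel]
  have h2 := h.indep _ h1
  funext i
  have h3 := congrFun h2 i
  rw [Pi.add_apply, Pi.smul_apply, smul_eq_mul, Pi.zero_apply] at h3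
  have : a i - b i = 0 := by rw [← h3]; ring
  exact sub_eq_zero.mp this

end s27g_frPole

/-! ### expansion of functions regular outside `P` -/

section expand

variable [IsAlgClosed K] {x0 : F} (hx0 : rt_IsSepGen K x0)

include hx0

/-- two functions with the same order at `P` agree up to a constant factor and higher order. -/
theorem s27g_fr_reduce (P : Place K F) {f g : F} (hf : f ≠ 0) (hg : g ≠ 0)
    (h : P.ord f = P.ord g) :
    ∃ c : K, f - algebraMap K F c * g = 0 ∨ P.ord f < P.ord (f - algebraMap K F c * g) := by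
  have := hx0.isAlgebraic
  have hu0 : f / g ≠ 0 := div_ne_zero hf hg
  have hu : f / g ∈ P.toValuationSubring := by
    rw [hw_mem_iff_ord_nonneg P hu0, div_eq_mul_inv, P.ord_mul hf (inv_ne_zero hg), P.ord_inv]
    omega
  obtain ⟨c, hc⟩ := hw_exists_const x0 P hu
  refine ⟨c, ?_⟩
  have hfac : f - algebraMap K F c * g = (f / g - algebraMap K F c) * g := by
    field_simp
  rcases hc with hc | hc
  · left
    rw [hfac, hc, sub_self, zero_mul]
  · right
    have hne : f / g - algebraMap K F c ≠ 0 := by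
      intro h0
      rw [h0] at hc
      simp at hc
    rw [hfac, P.ord_mul hne hg, h]
    omega

/-- **every function regular outside `P` lies in the lattice.** -/
theorem s27g_frPole.exists_elt_aux {𝔉 : s27g_Frame K F} {P : Place K F} (h : s27g_frPole 𝔉 P)
    (hmin : s27g_frMin 𝔉 P) :
    ∀ (r : ℕ) (f : F), s27g_frReg P f → (f = 0 ∨ -(r : ℤ) ≤ P.ord f) → ∃ a, f = 𝔉.elt a := by
  intro r
  induction r with
  | zero =>
    intro f hf hord
    have hall : ∀ v : Place K F, f ∈ v.toValuationSubring := by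
      intro v
      by_cases hv : v = P
      · subst hv
        by_cases hf0 : f = 0
        · rw [hf0]
          exact zero_mem _
        · rw [hw_mem_iff_ord_nonneg v hf0]
          simpa using hord.resolve_left hf0
      · exact hf v hv
    obtain ⟨c, rfl⟩ := rt_const_of_forall_mem hx0 f hall
    refine ⟨Pi.single 𝔉.i0 (C c), ?_⟩
    rw [𝔉.fr_elt_single, aeval_C, h.ω_zero, mul_one]
  | succ r ih =>
    intro f hf hord
    by_cases hlow : f = 0 ∨ -(r : ℤ) ≤ P.ord f
    · exact ih f hf hlow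
    · push Not at hlow
      obtain ⟨hf0, hlt⟩ := hlow
      have hordf : P.ord f = -((r + 1 : ℕ) : ℤ) := by
        have := hord.resolve_left hf0
        push_cast at this ⊢
        omega
      have hn : 0 < 𝔉.n := 𝔉.hn
      set i : Fin 𝔉.n := ⟨(r + 1) % 𝔉.n, Nat.mod_lt _ hn⟩ with hi
      have hρle : 𝔉.ρ i ≤ r + 1 := hmin i (r + 1) f hf hf0 hordf rfl
      have hρmod : 𝔉.ρ i % 𝔉.n = (r + 1) % 𝔉.n := h.ρ_mod i
      obtain ⟨d, hd⟩ : ∃ d, r + 1 = 𝔉.n * d + 𝔉.ρ i := by
        have h0 : (r + 1 - 𝔉.ρ i) % 𝔉.n = 0 := Nat.sub_mod_eq_zero_of_mod_eq hρmod.symm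
        obtain ⟨d, hd⟩ := Nat.dvd_of_mod_eq_zero h0
        exact ⟨d, by omega⟩
      have hXd : (X ^ d : K[X]) ≠ 0 := pow_ne_zero _ X_ne_zero
      obtain ⟨hg0, hgord⟩ := h.term i hXd
      rw [natDegree_X_pow, ← hd] at hgord
      set g : F := Polynomial.aeval 𝔉.x (X ^ d : K[X]) * 𝔉.ω i with hg
      obtain ⟨c, hc⟩ := s27g_fr_reduce hx0 P hf0 hg0 (hordf.trans hgord.symm)
      have hgreg : s27g_frReg P g := (h.x_reg.aeval _).mul (h.ω_reg i)
      have hreg' : s27g_frReg P (f - algebraMap K F c * g) :=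
        hf.sub ((s27g_frReg.algebraMap c).mul hgreg)
      have hord' : f - algebraMap K F c * g = 0 ∨ -(r : ℤ) ≤ P.ord (f - algebraMap K F c * g) := by
        rcases hc with hc | hc
        · exact Or.inl hc
        · right
          rw [hordf] at hc
          push_cast at hc
          omega
      obtain ⟨a', ha'⟩ := ih _ hreg' hord'
      refine ⟨a' + Pi.single i (C c * X ^ d), ?_⟩
      rw [𝔉.fr_elt_add, ← ha', 𝔉.fr_elt_single, map_mul, aeval_C, mul_assoc, ← hg]
      ring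

theorem s27g_frPole.exists_elt {𝔉 : s27g_Frame K F} {P : Place K F} (h : s27g_frPole 𝔉 P)
    (hmin : s27g_frMin 𝔉 P) {f : F} (hf : s27g_frReg P f) : ∃ a, f = 𝔉.elt a := by
  refine s27g_frPole.exists_elt_aux hx0 h hmin (-(P.ord f)).toNat f hf ?_
  right
  omega

end expand

end Fermat.Agent.S27
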