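/-
S27 / (GOOD), cell L5 (helper21), part 2: existence of an Apéry frame.
Prefix `s27g_fr`, namespace `Fermat.Agent.S27`.  Export: `s27g_exists_frame`.

`F / K` a function field with a separating generator `x0` over an algebraically closed field `K`
(any characteristic).  Fix a place `P`.  By Riemann's theorem every large `r` is a pole number at
`P`.  Take `x` with pole divisor `n P`, and `ω_i` regular outside `P` of least pole order `ρ_i` in
the class `i` mod `n` (`ω_0 = 1`).  Then `𝔉 = (n, ρ, c, κ, x, ω)` is a frame (`IsFrame`) and its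
lattice is the integral closure of `K[x]` (`IsClosed`).
-/
import Mathlib
import Fermat.Agent.S27.Good.FramePole
import Fermat.Agent.S27.Hens.NonSpecial

set_option autoImplicit false
set_option linter.unusedSectionVars false
set_option linter.unusedVariables false
set_option linter.style.haveILetI false

namespace Fermat.Agent.S27

open AlgebraicCurve IntermediateField Polynomial WithZero Fermat.Agent.JT3 Fermat.Agent.S24
open scoped Classical

universe u v
variable {K : Type u} {F : Type v} [Field K] [Field F] [Algebra K F]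

/-! ### pole numbers -/

/-- `m` is a pole number at `P`. -/
def s27g_frPN (P : Place K F) (m : ℕ) : Prop :=
  ∃ f : F, s27g_frReg P f ∧ f ≠ 0 ∧ P.ord f = -(m : ℤ)

theorem s27g_frPN_zero (P : Place K F) : s27g_frPN P 0 :=
  ⟨1, s27g_frReg.one, one_ne_zero, by simp⟩

section main

variable [IsAlgClosed K] {x0 : F} (hx0 : rt_IsSepGen K x0)

include hx0

/-- **every large integer is a pole number** (Riemann). -/
theorem s27g_fr_exists_PN (P : Place K F) : ∃ r0 : ℕ, 0 < r0 ∧ ∀ r, r0 ≤ r → s27g_frPN P r := by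
  obtain ⟨g, c, hR⟩ := rt_riemann hx0
  refine ⟨(c + 1).toNat + 1, Nat.succ_pos _, fun r hr => ?_⟩
  have hrc : c ≤ (r : ℤ) - 1 := by omega
  set D : Divisor K F := Finsupp.single P (r : ℤ) with hD
  set D' : Divisor K F := Finsupp.single P ((r : ℤ) - 1) with hD'
  have hdD : Divisor.degree D = r := rt_degree_single hx0 P _
  have hdD' : Divisor.degree D' = (r : ℤ) - 1 := rt_degree_single hx0 P _
  have hlD := (hR D).2 (by rw [hdD]; omega)
  have hlD' := (hR D').2 (by rw [hdD']; exact hrc)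
  rw [hdD] at hlD
  rw [hdD'] at hlD'
  have hfin' := (hR D').1
  have hnle : ¬ riemannRochSpace D ≤ riemannRochSpace D' := by
    intro hle
    have := Submodule.finrank_mono hle
    omega
  obtain ⟨f, hfD, hfD'⟩ := SetLike.not_le_iff_exists.mp hnle
  have hf0 : f ≠ 0 := fun h => hfD' (h ▸ zero_mem _)
  have h1 := (rt_mem_L_iff hf0).mp hfD
  have hreg : s27g_frReg P f := by
    intro v hv
    rw [hw_mem_iff_ord_nonneg v hf0]
    have := h1 v
    rw [hD, Finsupp.single_eq_of_ne hv, neg_zero] at this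
    exact this
  refine ⟨f, hreg, hf0, ?_⟩
  have hP := h1 P
  rw [hD, Finsupp.single_eq_same] at hP
  have h2 : ¬ ∀ v : Place K F, -D' v ≤ v.ord f := fun h => hfD' ((rt_mem_L_iff hf0).mpr h)
  have h3 : ¬ (-((r : ℤ) - 1) ≤ P.ord f) := by
    intro h3
    apply h2
    intro v
    by_cases hv : v = P
    · subst hv
      rw [hD', Finsupp.single_eq_same]
      exact h3
    · rw [hD', Finsupp.single_eq_of_ne hv, neg_zero]
      exact (hw_mem_iff_ord_nonneg v hf0).mp (hreg v hv)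
  omega

/-! ### from an Apéry frame at `P` to a frame -/

omit [IsAlgClosed K] hx0 in
theorem s27g_frPole.ρ_i0 {𝔉 : s27g_Frame K F} {P : Place K F} (h : s27g_frPole 𝔉 P) :
    𝔉.ρ 𝔉.i0 = 0 := by
  have h1 := h.ω_ord 𝔉.i0
  rw [h.ω_zero, Place.ord_one] at h1
  omega

omit [IsAlgClosed K] hx0 in
/-- the index carrying a given weight. -/
theorem s27g_frPole.index_eq {𝔉 : s27g_Frame K F} {P : Place K F} (h : s27g_frPole 𝔉 P)
    {i j k : Fin 𝔉.n} {d : ℕ} (heq : 𝔉.n * d + 𝔉.ρ k = 𝔉.ρ i + 𝔉.ρ j) :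
    (k : ℕ) = ((i : ℕ) + (j : ℕ)) % 𝔉.n := by
  have h1 := congrArg (· % 𝔉.n) heq
  simp only [Nat.mul_add_mod] at h1
  rw [h.ρ_mod, Nat.add_mod, h.ρ_mod, h.ρ_mod] at h1
  exact h1

theorem s27g_fr_main {𝔉₀ : s27g_Frame K F} {P : Place K F} (h₀ : s27g_frPole 𝔉₀ P)
    (hmin₀ : s27g_frMin 𝔉₀ P) :
    ∃ 𝔉 : s27g_Frame K F, 𝔉.IsFrame ∧ 𝔉.IsClosed ∧ s27g_frPole 𝔉 P ∧ s27g_frMin 𝔉 P := by
  have hn : 0 < 𝔉₀.n := 𝔉₀.hn
  have hex : ∀ i j : Fin 𝔉₀.n, ∃ a, 𝔉₀.ω i * 𝔉₀.ω j = 𝔉₀.elt a := fun i j =>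
    h₀.exists_elt hx0 hmin₀ ((h₀.ω_reg i).mul (h₀.ω_reg j))
  choose c hc using hex
  let 𝔉 : s27g_Frame K F :=
    { n := 𝔉₀.n
      hn := 𝔉₀.hn
      ρ := 𝔉₀.ρ
      c := c
      κ := fun i j => ⟨((i : ℕ) + (j : ℕ)) % 𝔉₀.n, Nat.mod_lt _ hn⟩
      x := 𝔉₀.x
      ω := 𝔉₀.ω }
  have h : s27g_frPole 𝔉 P :=
    ⟨h₀.x_reg, h₀.x_ord, h₀.ω_reg, h₀.ω_ne, h₀.ω_ord, h₀.ρ_mod, h₀.ω_zero⟩
  have hmin : s27g_frMin 𝔉 P := hmin₀
  have hmul : ∀ i j : Fin 𝔉.n, 𝔉.ω i * 𝔉.ω j = 𝔉.elt (𝔉.c i j) := hc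
  have hxtrans : Transcendental K 𝔉.x :=
    rt_transcendental_of_ord_ne_zero (v := P) (ne_of_lt h.x_ord_neg)
  -- the weight of the structure constants
  have hwd : ∀ i j : Fin 𝔉.n, 𝔉.c i j ≠ 0 ∧ 𝔉.wdeg (𝔉.c i j) = 𝔉.ρ i + 𝔉.ρ j := by
    intro i j
    have hne : 𝔉.c i j ≠ 0 := by
      intro h0
      have := hmul i j
      rw [h0, 𝔉.fr_elt_zero] at this
      exact mul_ne_zero (h.ω_ne i) (h.ω_ne j) this
    refine ⟨hne, ?_⟩
    have h1 := (h.ord_elt hne).2
    rw [← hmul i j, P.ord_mul (h.ω_ne i) (h.ω_ne j), h.ω_ord, h.ω_ord] at h1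
    omega
  have hlead : ∀ i j : Fin 𝔉.n, 𝔉.c i j (𝔉.κ i j) ≠ 0 ∧
      𝔉.n * (𝔉.c i j (𝔉.κ i j)).natDegree + 𝔉.ρ (𝔉.κ i j) = 𝔉.ρ i + 𝔉.ρ j := by
    intro i j
    obtain ⟨hne, hw⟩ := hwd i j
    set S : Finset (Fin 𝔉.n) := Finset.univ.filter fun k => 𝔉.c i j k ≠ 0 with hS
    have hSne : S.Nonempty := by
      obtain ⟨k, hk⟩ := Function.ne_iff.mp hne
      exact ⟨k, Finset.mem_filter.mpr ⟨Finset.mem_univ _, hk⟩⟩
    obtain ⟨k₀, hk₀S, hsup⟩ :=
      Finset.exists_mem_eq_sup S hSne (fun k => 𝔉.n * (𝔉.c i j k).natDegree + 𝔉.ρ k)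
    have hk₀ : 𝔉.c i j k₀ ≠ 0 := (Finset.mem_filter.mp hk₀S).2
    have hw' : 𝔉.n * (𝔉.c i j k₀).natDegree + 𝔉.ρ k₀ = 𝔉.ρ i + 𝔉.ρ j := by
      rw [← hw]
      exact hsup.symm
    have hkκ : k₀ = 𝔉.κ i j := Fin.ext (h.index_eq hw')
    rw [← hkκ]
    exact ⟨hk₀, hw'⟩
  have hlow : ∀ i j k : Fin 𝔉.n, k ≠ 𝔉.κ i j → 𝔉.c i j k ≠ 0 →
      𝔉.n * (𝔉.c i j k).natDegree + 𝔉.ρ k < 𝔉.ρ i + 𝔉.ρ j := by
    intro i j k hk hck
    obtain ⟨hne, hw⟩ := hwd i j
    have hle : 𝔉.n * (𝔉.c i j k).natDegree + 𝔉.ρ k ≤ 𝔉.ρ i + 𝔉.ρ j := by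
      rw [← hw]
      exact Finset.le_sup (f := fun k => 𝔉.n * (𝔉.c i j k).natDegree + 𝔉.ρ k)
        (Finset.mem_filter.mpr ⟨Finset.mem_univ _, hck⟩)
    have hne' : 𝔉.n * (𝔉.c i j k).natDegree + 𝔉.ρ k ≠ 𝔉.ρ i + 𝔉.ρ j := by
      intro heq
      exact hk (Fin.ext (h.index_eq heq))
    omega
  have hgraded : 𝔉.tos27g_Consts.IsGraded :=
    { ρ_zero := h.ρ_i0
      ρ_mod := h.ρ_mod
      one_mul := by
        intro j k
        have h1 : 𝔉.elt (𝔉.c 𝔉.i0 j) = 𝔉.elt (Pi.single j 1) := by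
          rw [← hmul, h.ω_zero, one_mul, 𝔉.fr_elt_single, map_one, one_mul]
        have h2 := h.elt_injective h1
        have h3 := congrFun h2 k
        rw [Pi.single_apply] at h3
        exact h3
      comm := by
        intro i j k
        have h1 : 𝔉.elt (𝔉.c i j) = 𝔉.elt (𝔉.c j i) := by
          rw [← hmul, ← hmul, mul_comm]
        exact congrFun (h.elt_injective h1) k
      lead_ne := fun i j => (hlead i j).1
      lead_deg := fun i j => (hlead i j).2
      low := hlow }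
  have hclosed : 𝔉.IsClosed := by
    intro f hf
    have hreg : s27g_frReg P f := by
      intro v hv
      exact hw_coe_mem_of_mem_integralClosure 𝔉.x v (h.x_reg v hv) ⟨f, hf⟩
    obtain ⟨a, ha⟩ := h.exists_elt hx0 hmin hreg
    exact ⟨a, ha.symm⟩
  refine ⟨𝔉, ?_, hclosed, h, hmin⟩
  refine
    { graded := hgraded
      x_trans := hxtrans
      ω_zero := h.ω_zero
      indep := h.indep
      frac := ?_
      mul := hmul }
  intro f
  have := hx0.isAlgebraic
  have halg1 : Algebra.IsAlgebraic K⟮𝔉.x⟯ F := hw_isAlgebraic_adjoin_of_transcendental x0 hxtrans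
  have halg : Algebra.IsAlgebraic (Algebra.adjoin K ({𝔉.x} : Set F)) F := by
    open scoped IntermediateField.algebraAdjoinAdjoin in
    exact Algebra.IsAlgebraic.trans (Algebra.adjoin K ({𝔉.x} : Set F)) K⟮𝔉.x⟯ F
  obtain ⟨y, hy0, hy⟩ := (halg.isAlgebraic f).exists_integral_multiple
  obtain ⟨g, hg⟩ : ∃ g : K[X], Polynomial.aeval 𝔉.x g = (y : F) := by
    have hy2 : (y : F) ∈ (Polynomial.aeval (R := K) 𝔉.x).range := by
      rw [← Algebra.adjoin_singleton_eq_range_aeval]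
      exact y.2
    exact hy2
  have hg0 : g ≠ 0 := by
    rintro rfl
    rw [map_zero] at hg
    exact hy0 (Subtype.ext hg.symm)
  have hyf : y • f = Polynomial.aeval 𝔉.x g * f := by
    rw [hg]
    rfl
  rw [hyf] at hy
  obtain ⟨a, ha⟩ := hclosed _ hy
  exact ⟨g, a, hg0, ha.symm⟩

/-- an Apéry frame at a prescribed place `P`. -/
theorem s27g_exists_frame_at (P : Place K F) :
    ∃ 𝔉 : s27g_Frame K F, 𝔉.IsFrame ∧ 𝔉.IsClosed ∧ s27g_frPole 𝔉 P ∧ s27g_frMin 𝔉 P := by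
  obtain ⟨n, hn, hPN⟩ := s27g_fr_exists_PN hx0 P
  have hex : ∀ i : Fin n, ∃ m, m % n = (i : ℕ) ∧ s27g_frPN P m := fun i =>
    ⟨n + i, by rw [Nat.add_mod_left, Nat.mod_eq_of_lt i.2], hPN _ (Nat.le_add_right _ _)⟩
  obtain ⟨x, hxreg, hxne, hxord⟩ := hPN n le_rfl
  let ρ : Fin n → ℕ := fun i => Nat.find (hex i)
  have hρ : ∀ i, ρ i % n = (i : ℕ) ∧ s27g_frPN P (ρ i) := fun i => Nat.find_spec (hex i)
  have hρmin : ∀ (i : Fin n) (m : ℕ), m % n = (i : ℕ) → s27g_frPN P m → ρ i ≤ m :=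
    fun i m h1 h2 => Nat.find_min' (hex i) ⟨h1, h2⟩
  choose w hwreg hw0 hword using fun i => (hρ i).2
  let i0 : Fin n := ⟨0, hn⟩
  have hρ0 : ρ i0 = 0 := Nat.le_zero.mp (hρmin i0 0 (Nat.zero_mod n) (s27g_frPN_zero P))
  let 𝔉₀ : s27g_Frame K F :=
    { n := n
      hn := hn
      ρ := ρ
      c := fun _ _ _ => 0
      κ := fun i _ => i
      x := x
      ω := fun i => if i = i0 then 1 else w i }
  have h₀ : s27g_frPole 𝔉₀ P :=
    { x_reg := hxreg
      x_ord := hxord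
      ω_reg := by
        intro i
        show s27g_frReg P (if i = i0 then 1 else w i)
        split_ifs
        · exact s27g_frReg.one
        · exact hwreg i
      ω_ne := by
        intro i
        show (if i = i0 then (1 : F) else w i) ≠ 0
        split_ifs
        · exact one_ne_zero
        · exact hw0 i
      ω_ord := by
        intro i
        show P.ord (if i = i0 then (1 : F) else w i) = -(ρ i : ℤ)
        split_ifs with hi
        · rw [hi, hρ0]
          simp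
        · exact hword i
      ρ_mod := fun i => (hρ i).1
      ω_zero := by
        show (if i0 = i0 then (1 : F) else w i0) = 1
        exact if_pos rfl }
  have hmin₀ : s27g_frMin 𝔉₀ P := fun i m f hf hf0 hord hm => hρmin i m hm ⟨f, hf, hf0, hord⟩
  exact s27g_fr_main hx0 h₀ hmin₀

/-- **(GOOD) / L5: an Apéry frame exists**, and its lattice is the integral closure of `K[x]`. -/
theorem s27g_exists_frame : ∃ 𝔉 : s27g_Frame K F, 𝔉.IsFrame ∧ 𝔉.IsClosed := by
  haveI : Infinite (Place K F) := s27h_infinite_places hx0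
  obtain ⟨P⟩ : Nonempty (Place K F) := inferInstance
  obtain ⟨𝔉, h1, h2, -, -⟩ := s27g_exists_frame_at hx0 P
  exact ⟨𝔉, h1, h2⟩

/-! ### by-products on the characteristic-zero side: the place at infinity of the frame -/

omit [IsAlgClosed K] hx0 in
/-- `P` is the only pole of `x`. -/
theorem s27g_frPole.pole_iff {𝔉 : s27g_Frame K F} {P : Place K F} (h : s27g_frPole 𝔉 P)
    (v : Place K F) : v.ord 𝔉.x < 0 ↔ v = P := by
  constructor
  · intro hv
    by_contra hne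
    have := (hw_mem_iff_ord_nonneg v h.x_ne).mp (h.x_reg v hne)
    omega
  · rintro rfl
    exact h.x_ord_neg

/-- `L(r P) = {elt a : wdeg a ≤ r}`. -/
theorem s27g_frPole.mem_L_iff {𝔉 : s27g_Frame K F} {P : Place K F} (h : s27g_frPole 𝔉 P)
    (hmin : s27g_frMin 𝔉 P) (r : ℕ) (f : F) :
    f ∈ riemannRochSpace (Finsupp.single P (r : ℤ)) ↔
      ∃ a, f = 𝔉.elt a ∧ (a = 0 ∨ 𝔉.wdeg a ≤ r) := by
  constructor
  · intro hf
    by_cases hf0 : f = 0
    · exact ⟨0, by rw [hf0, 𝔉.fr_elt_zero], Or.inl rfl⟩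
    have h1 := (rt_mem_L_iff hf0).mp hf
    have hreg : s27g_frReg P f := by
      intro v hv
      rw [hw_mem_iff_ord_nonneg v hf0]
      have := h1 v
      rw [Finsupp.single_eq_of_ne hv, neg_zero] at this
      exact this
    obtain ⟨a, ha⟩ := h.exists_elt hx0 hmin hreg
    refine ⟨a, ha, ?_⟩
    by_cases ha0 : a = 0
    · exact Or.inl ha0
    right
    have h2 := (h.ord_elt ha0).2
    have h3 := h1 P
    rw [Finsupp.single_eq_same, ha, h2] at h3
    omega
  · rintro ⟨a, rfl, ha⟩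
    by_cases ha0 : a = 0
    · rw [ha0, 𝔉.fr_elt_zero]
      exact zero_mem _
    have hw := ha.resolve_left ha0
    obtain ⟨hne, hord⟩ := h.ord_elt ha0
    rw [rt_mem_L_iff hne]
    intro v
    by_cases hv : v = P
    · subst hv
      rw [Finsupp.single_eq_same, hord]
      omega
    · rw [Finsupp.single_eq_of_ne hv, neg_zero]
      exact (hw_mem_iff_ord_nonneg v hne).mp (h.reg_elt a v hv)

end main

end Fermat.Agent.S27
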