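/-
S27 / (GOOD), cell L2 (helper28): the weighted degree of an Apéry algebra is additive.

`s27g_wdeg_mulCoord`: for graded structure constants `C` and nonzero coordinate vectors `a, b`,
the product `C.mulCoord a b` is nonzero and `wdeg (mulCoord a b) = wdeg a + wdeg b`.
Prefix `s27g_wd`.
-/
import Mathlib
import Fermat.Agent.S27.Good.Defs

set_option autoImplicit false

noncomputable section

namespace Fermat.Agent.S27

open Polynomial
open scoped Classical

variable {L : Type*} [Field L] (C : s27g_Consts L)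

/-- every nonzero coordinate has weight at most `wdeg`. -/
theorem s27g_wd_le_wdeg (a : Fin C.n → L[X]) {i : Fin C.n} (hi : a i ≠ 0) :
    C.n * (a i).natDegree + C.ρ i ≤ C.wdeg a := by
  unfold s27g_Consts.wdeg
  exact Finset.le_sup (f := fun i => C.n * (a i).natDegree + C.ρ i) (by simp [hi])

/-- the weighted degree of a nonzero vector is attained. -/
theorem s27g_wd_exists_top {a : Fin C.n → L[X]} (ha : a ≠ 0) :
    ∃ i, a i ≠ 0 ∧ C.n * (a i).natDegree + C.ρ i = C.wdeg a := by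
  have hne : (Finset.univ.filter fun i => a i ≠ 0).Nonempty := by
    by_contra h
    rw [Finset.not_nonempty_iff_eq_empty] at h
    apply ha
    funext i
    by_contra hi
    have hi' : a i ≠ 0 := fun h0 => hi (by rw [h0]; rfl)
    have hmem : i ∈ (Finset.univ.filter fun i => a i ≠ 0) := by simp [hi']
    rw [h] at hmem
    simp at hmem
  obtain ⟨i, hi, h⟩ :=
    Finset.exists_mem_eq_sup _ hne (fun i => C.n * (a i).natDegree + C.ρ i)
  exact ⟨i, by simpa using hi, h.symm⟩

/-- weights in different classes mod `n` are different. -/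
theorem s27g_wd_inj (h : C.IsGraded) {d d' : ℕ} {i i' : Fin C.n}
    (he : C.n * d + C.ρ i = C.n * d' + C.ρ i') : i = i' := by
  have h1 : (C.n * d + C.ρ i) % C.n = (i : ℕ) := by
    rw [Nat.mul_add_mod, h.ρ_mod]
  have h2 : (C.n * d' + C.ρ i') % C.n = (i' : ℕ) := by
    rw [Nat.mul_add_mod, h.ρ_mod]
  exact Fin.ext (by rw [← h1, he, h2])

/-- the index where the weighted degree is attained is unique. -/
theorem s27g_wd_top_unique (h : C.IsGraded) (a : Fin C.n → L[X]) {i i' : Fin C.n}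
    (hi : C.n * (a i).natDegree + C.ρ i = C.wdeg a)
    (hi' : C.n * (a i').natDegree + C.ρ i' = C.wdeg a) : i = i' :=
  s27g_wd_inj C h (hi.trans hi'.symm)

/-- away from the top index the weight is strictly smaller. -/
theorem s27g_wd_lt_wdeg (h : C.IsGraded) (a : Fin C.n → L[X]) {i₀ i : Fin C.n}
    (hi₀ : C.n * (a i₀).natDegree + C.ρ i₀ = C.wdeg a) (hi : a i ≠ 0) (hne : i ≠ i₀) :
    C.n * (a i).natDegree + C.ρ i < C.wdeg a := by
  refine lt_of_le_of_ne (s27g_wd_le_wdeg C a hi) fun he => hne ?_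
  exact s27g_wd_top_unique C h a he hi₀

/-- the weight of a structure constant. -/
theorem s27g_wd_c_le (h : C.IsGraded) (i j k : Fin C.n) (hc : C.c i j k ≠ 0) :
    C.n * (C.c i j k).natDegree + C.ρ k ≤ C.ρ i + C.ρ j := by
  by_cases hk : k = C.κ i j
  · subst hk
    exact (h.lead_deg i j).le
  · exact (h.low i j k hk hc).le

/-- the weight of one term of a product. -/
theorem s27g_wd_term_le (h : C.IsGraded) (a b : Fin C.n → L[X]) (i j k : Fin C.n)
    (hT : a i * b j * C.c i j k ≠ 0) :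
    C.n * (a i * b j * C.c i j k).natDegree + C.ρ k ≤
      (C.n * (a i).natDegree + C.ρ i) + (C.n * (b j).natDegree + C.ρ j) := by
  have hai : a i ≠ 0 := fun h0 => hT (by rw [h0, zero_mul, zero_mul])
  have hbj : b j ≠ 0 := fun h0 => hT (by rw [h0, mul_zero, zero_mul])
  have hc : C.c i j k ≠ 0 := fun h0 => hT (by rw [h0, mul_zero])
  rw [natDegree_mul (mul_ne_zero hai hbj) hc, natDegree_mul hai hbj]
  have h1 := s27g_wd_c_le C h i j k hc
  have h2 : C.n * ((a i).natDegree + (b j).natDegree + (C.c i j k).natDegree) =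
      C.n * (a i).natDegree + C.n * (b j).natDegree + C.n * (C.c i j k).natDegree := by ring
  omega

/-- the weight of the leading term of a product. -/
theorem s27g_wd_term_top (h : C.IsGraded) (a b : Fin C.n → L[X]) (i j : Fin C.n)
    (hai : a i ≠ 0) (hbj : b j ≠ 0) :
    C.n * (a i * b j * C.c i j (C.κ i j)).natDegree + C.ρ (C.κ i j) =
      (C.n * (a i).natDegree + C.ρ i) + (C.n * (b j).natDegree + C.ρ j) := by
  have hc : C.c i j (C.κ i j) ≠ 0 := h.lead_ne i j
  rw [natDegree_mul (mul_ne_zero hai hbj) hc, natDegree_mul hai hbj]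
  have h1 := h.lead_deg i j
  have h2 : C.n * ((a i).natDegree + (b j).natDegree + (C.c i j (C.κ i j)).natDegree) =
      C.n * (a i).natDegree + C.n * (b j).natDegree +
        C.n * (C.c i j (C.κ i j)).natDegree := by ring
  omega

/-- `mulCoord` as a sum over pairs. -/
theorem s27g_wd_mulCoord_eq (a b : Fin C.n → L[X]) (k : Fin C.n) :
    C.mulCoord a b k = ∑ p : Fin C.n × Fin C.n, a p.1 * b p.2 * C.c p.1 p.2 k := by
  unfold s27g_Consts.mulCoord
  rw [Fintype.sum_prod_type]

/-- upper bound: every nonzero coordinate of a product has weight at most `wdeg a + wdeg b`. -/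
theorem s27g_wd_mulCoord_le (h : C.IsGraded) (a b : Fin C.n → L[X]) (k : Fin C.n)
    (hk : C.mulCoord a b k ≠ 0) :
    C.n * (C.mulCoord a b k).natDegree + C.ρ k ≤ C.wdeg a + C.wdeg b := by
  rw [s27g_wd_mulCoord_eq] at hk ⊢
  have hcoef : (∑ p : Fin C.n × Fin C.n, a p.1 * b p.2 * C.c p.1 p.2 k).coeff
      (∑ p : Fin C.n × Fin C.n, a p.1 * b p.2 * C.c p.1 p.2 k).natDegree ≠ 0 := by
    rw [coeff_natDegree]
    exact leadingCoeff_ne_zero.2 hk
  rw [finsetSum_coeff] at hcoef
  obtain ⟨p, -, hp⟩ := Finset.exists_ne_zero_of_sum_ne_zero hcoef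
  have hT : a p.1 * b p.2 * C.c p.1 p.2 k ≠ 0 := fun h0 => hp (by rw [h0, coeff_zero])
  have hle := le_natDegree_of_ne_zero hp
  have h1 := s27g_wd_term_le C h a b p.1 p.2 k hT
  have hai : a p.1 ≠ 0 := fun h0 => hT (by rw [h0, zero_mul, zero_mul])
  have hbj : b p.2 ≠ 0 := fun h0 => hT (by rw [h0, mul_zero, zero_mul])
  have h2 := s27g_wd_le_wdeg C a hai
  have h3 := s27g_wd_le_wdeg C b hbj
  have h4 := Nat.mul_le_mul_left C.n hle
  omega

/-- lower bound: the coordinate `κ i₀ j₀` of a product, `i₀, j₀` the top indices, has its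
top-degree coefficient equal to the product of the three leading coefficients. -/
theorem s27g_wd_mulCoord_top (h : C.IsGraded) (a b : Fin C.n → L[X]) {i₀ j₀ : Fin C.n}
    (hai : a i₀ ≠ 0) (hbj : b j₀ ≠ 0)
    (hi₀ : C.n * (a i₀).natDegree + C.ρ i₀ = C.wdeg a)
    (hj₀ : C.n * (b j₀).natDegree + C.ρ j₀ = C.wdeg b) :
    (C.mulCoord a b (C.κ i₀ j₀)).coeff (a i₀ * b j₀ * C.c i₀ j₀ (C.κ i₀ j₀)).natDegree =
      (a i₀ * b j₀ * C.c i₀ j₀ (C.κ i₀ j₀)).leadingCoeff := by
  rw [s27g_wd_mulCoord_eq, finsetSum_coeff]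
  rw [Finset.sum_eq_single (i₀, j₀)]
  · rfl
  · intro p _ hp
    by_cases hT : a p.1 * b p.2 * C.c p.1 p.2 (C.κ i₀ j₀) = 0
    · rw [hT, coeff_zero]
    · apply coeff_eq_zero_of_natDegree_lt
      have h1 := s27g_wd_term_le C h a b p.1 p.2 (C.κ i₀ j₀) hT
      have h0 := s27g_wd_term_top C h a b i₀ j₀ hai hbj
      have hai' : a p.1 ≠ 0 := fun h0 => hT (by rw [h0, zero_mul, zero_mul])
      have hbj' : b p.2 ≠ 0 := fun h0 => hT (by rw [h0, mul_zero, zero_mul])
      have h2 := s27g_wd_le_wdeg C a hai'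
      have h3 := s27g_wd_le_wdeg C b hbj'
      have hlt : (C.n * (a p.1).natDegree + C.ρ p.1) + (C.n * (b p.2).natDegree + C.ρ p.2) <
          C.wdeg a + C.wdeg b := by
        by_cases h1' : p.1 = i₀
        · have h2' : p.2 ≠ j₀ := fun h2' => hp (Prod.ext h1' h2')
          have := s27g_wd_lt_wdeg C h b hj₀ hbj' h2'
          omega
        · have := s27g_wd_lt_wdeg C h a hi₀ hai' h1'
          omega
      have hmul : C.n * (a p.1 * b p.2 * C.c p.1 p.2 (C.κ i₀ j₀)).natDegree <
          C.n * (a i₀ * b j₀ * C.c i₀ j₀ (C.κ i₀ j₀)).natDegree := by omega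
      exact lt_of_mul_lt_mul_left hmul (Nat.zero_le _)
  · intro hnot
    exact absurd (Finset.mem_univ _) hnot

/-- **(GOOD) L2**: the weighted degree is additive; in particular the Apéry algebra with graded
structure constants has no zero divisors. -/
theorem s27g_wdeg_mulCoord (h : C.IsGraded) {a b : Fin C.n → L[X]} (ha : a ≠ 0) (hb : b ≠ 0) :
    C.mulCoord a b ≠ 0 ∧ C.wdeg (C.mulCoord a b) = C.wdeg a + C.wdeg b := by
  obtain ⟨i₀, hai, hi₀⟩ := s27g_wd_exists_top C ha
  obtain ⟨j₀, hbj, hj₀⟩ := s27g_wd_exists_top C hb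
  have htop := s27g_wd_mulCoord_top C h a b hai hbj hi₀ hj₀
  have hT : a i₀ * b j₀ * C.c i₀ j₀ (C.κ i₀ j₀) ≠ 0 :=
    mul_ne_zero (mul_ne_zero hai hbj) (h.lead_ne i₀ j₀)
  have hcoef : (C.mulCoord a b (C.κ i₀ j₀)).coeff
      (a i₀ * b j₀ * C.c i₀ j₀ (C.κ i₀ j₀)).natDegree ≠ 0 := by
    rw [htop]
    exact leadingCoeff_ne_zero.2 hT
  have hk : C.mulCoord a b (C.κ i₀ j₀) ≠ 0 := fun h0 => hcoef (by rw [h0, coeff_zero])
  have hne : C.mulCoord a b ≠ 0 := fun h0 => hk (by rw [h0]; rfl)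
  refine ⟨hne, le_antisymm ?_ ?_⟩
  · unfold s27g_Consts.wdeg
    apply Finset.sup_le
    intro k hk'
    have hk'' : C.mulCoord a b k ≠ 0 := by simpa using hk'
    have := s27g_wd_mulCoord_le C h a b k hk''
    unfold s27g_Consts.wdeg at this
    exact this
  · have h1 := s27g_wd_le_wdeg C (C.mulCoord a b) hk
    have h2 := le_natDegree_of_ne_zero hcoef
    have h3 := s27g_wd_term_top C h a b i₀ j₀ hai hbj
    have h4 := Nat.mul_le_mul_left C.n h2
    omega

end Fermat.Agent.S27
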