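/-
S27 / (GOOD), cells L8 and L8′′ (helper23).  Prefix `s27g_inf`.

For a frame `𝔉` of `E / L` (`Good/Defs.lean`):

* `s27g_finrank_eq`  (L8′′): `ω` is a basis of `E` over `L(x)`: `E / L(x)` is finite of degree `n`;
* `s27g_inf_isVal`   : `f ↦ n · deg g − wdeg a` (`g(x) f = elt a`) is an integer-valued valuation of
  `E / L`, given the additivity of the weighted degree (cell L2);
* `s27g_exists_place_infty_of` (L8, with L2 as a hypothesis), `s27g_exists_place_infty` (L8): the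
  place at infinity `P`: the unique pole of `x`, with `ord_P (elt a) = − wdeg a`.
-/
import Mathlib
import Fermat.Agent.S27.Good.Defs
import Fermat.Agent.S27.Good.WDeg
import Fermat.Agent.JT3.Gateway.ValPlace

set_option autoImplicit false
set_option linter.unusedSectionVars false
set_option linter.unusedVariables false
set_option linter.style.haveILetI false

noncomputable section

namespace Fermat.Agent.S27

open Polynomial AlgebraicCurve IntermediateField Fermat.Agent.JT3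
open scoped Classical

/-! ### the weighted degree -/

section Consts

variable {L : Type*} [Field L] (C : s27g_Consts L)

theorem s27g_inf_wdeg_zero : C.wdeg 0 = 0 := by
  unfold s27g_Consts.wdeg
  have : (Finset.univ.filter fun i : Fin C.n => (0 : Fin C.n → L[X]) i ≠ 0) = ∅ := by
    ext i; simp
  rw [this, Finset.sup_empty]
  rfl

theorem s27g_inf_le_wdeg {a : Fin C.n → L[X]} {i : Fin C.n} (hi : a i ≠ 0) :
    C.n * (a i).natDegree + C.ρ i ≤ C.wdeg a :=
  Finset.le_sup (f := fun i => C.n * (a i).natDegree + C.ρ i)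
    (Finset.mem_filter.2 ⟨Finset.mem_univ _, hi⟩)

theorem s27g_inf_exists_wdeg {a : Fin C.n → L[X]} (ha : a ≠ 0) :
    ∃ i, a i ≠ 0 ∧ C.wdeg a = C.n * (a i).natDegree + C.ρ i := by
  have hne : (Finset.univ.filter fun i : Fin C.n => a i ≠ 0).Nonempty := by
    by_contra hcon
    rw [Finset.not_nonempty_iff_eq_empty] at hcon
    apply ha
    funext i
    by_contra hi
    have : i ∈ (Finset.univ.filter fun i : Fin C.n => a i ≠ 0) :=
      Finset.mem_filter.2 ⟨Finset.mem_univ _, hi⟩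
    rw [hcon] at this
    exact absurd this (Finset.notMem_empty _)
  obtain ⟨i, hi, he⟩ := Finset.exists_mem_eq_sup _ hne
    (fun i => C.n * (a i).natDegree + C.ρ i)
  exact ⟨i, (Finset.mem_filter.1 hi).2, he⟩

theorem s27g_inf_wdeg_le_iff {a : Fin C.n → L[X]} {m : ℕ} :
    C.wdeg a ≤ m ↔ ∀ i, a i ≠ 0 → C.n * (a i).natDegree + C.ρ i ≤ m := by
  unfold s27g_Consts.wdeg
  rw [Finset.sup_le_iff]
  constructor
  · intro h i hi
    exact h i (Finset.mem_filter.2 ⟨Finset.mem_univ _, hi⟩)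
  · intro h i hi
    exact h i (Finset.mem_filter.1 hi).2

theorem s27g_inf_wdeg_add_le (a b : Fin C.n → L[X]) :
    C.wdeg (a + b) ≤ max (C.wdeg a) (C.wdeg b) := by
  rw [s27g_inf_wdeg_le_iff]
  intro i hi
  rw [Pi.add_apply] at hi ⊢
  by_cases ha : a i = 0
  · rw [ha, zero_add] at hi ⊢
    exact le_max_of_le_right (s27g_inf_le_wdeg C hi)
  by_cases hb : b i = 0
  · rw [hb, add_zero]
    exact le_max_of_le_left (s27g_inf_le_wdeg C ha)
  have h1 := s27g_inf_le_wdeg C ha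
  have h2 := s27g_inf_le_wdeg C hb
  have h3 := Polynomial.natDegree_add_le (a i) (b i)
  rcases le_total (a i).natDegree (b i).natDegree with h4 | h4
  · rw [max_eq_right h4] at h3
    refine le_max_of_le_right (le_trans ?_ h2)
    exact Nat.add_le_add_right (Nat.mul_le_mul_left _ h3) _
  · rw [max_eq_left h4] at h3
    refine le_max_of_le_left (le_trans ?_ h1)
    exact Nat.add_le_add_right (Nat.mul_le_mul_left _ h3) _

theorem s27g_inf_wdeg_neg (a : Fin C.n → L[X]) : C.wdeg (-a) = C.wdeg a := by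
  apply le_antisymm
  · rw [s27g_inf_wdeg_le_iff]
    intro i hi
    rw [Pi.neg_apply] at hi ⊢
    rw [natDegree_neg]
    exact s27g_inf_le_wdeg C (neg_ne_zero.1 hi)
  · rw [s27g_inf_wdeg_le_iff]
    intro i hi
    have := s27g_inf_le_wdeg C (a := -a) (i := i) (by rw [Pi.neg_apply]; exact neg_ne_zero.2 hi)
    rwa [Pi.neg_apply, natDegree_neg] at this

theorem s27g_inf_wdeg_smul {g : L[X]} (hg : g ≠ 0) {a : Fin C.n → L[X]} (ha : a ≠ 0) :
    C.wdeg (g • a) = C.n * g.natDegree + C.wdeg a := by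
  apply le_antisymm
  · rw [s27g_inf_wdeg_le_iff]
    intro i hi
    rw [Pi.smul_apply, smul_eq_mul] at hi ⊢
    have hai : a i ≠ 0 := right_ne_zero_of_mul hi
    rw [natDegree_mul hg hai, mul_add, add_assoc]
    exact Nat.add_le_add_left (s27g_inf_le_wdeg C hai) _
  · obtain ⟨i, hi, he⟩ := s27g_inf_exists_wdeg C ha
    have h1 : (g • a) i ≠ 0 := by
      rw [Pi.smul_apply, smul_eq_mul]; exact mul_ne_zero hg hi
    have h2 := s27g_inf_le_wdeg C h1
    rw [Pi.smul_apply, smul_eq_mul, natDegree_mul hg hi] at h2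
    rw [he]
    calc C.n * g.natDegree + (C.n * (a i).natDegree + C.ρ i)
        = C.n * (g.natDegree + (a i).natDegree) + C.ρ i := by ring
      _ ≤ _ := h2

theorem s27g_inf_smul_ne_zero {g : L[X]} (hg : g ≠ 0) {a : Fin C.n → L[X]} (ha : a ≠ 0) :
    g • a ≠ 0 := by
  intro h
  apply ha
  funext i
  have := congrFun h i
  rw [Pi.smul_apply, smul_eq_mul, Pi.zero_apply] at this
  exact (mul_eq_zero.1 this).resolve_left hg

theorem s27g_inf_wdeg_single (i : Fin C.n) {g : L[X]} (hg : g ≠ 0) :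
    C.wdeg (Pi.single i g) = C.n * g.natDegree + C.ρ i := by
  apply le_antisymm
  · rw [s27g_inf_wdeg_le_iff]
    intro j hj
    by_cases hji : j = i
    · subst hji
      rw [Pi.single_eq_same]
    · rw [Pi.single_eq_of_ne hji] at hj
      exact absurd rfl hj
  · have := s27g_inf_le_wdeg C (a := Pi.single i g) (i := i) (by rw [Pi.single_eq_same]; exact hg)
    rwa [Pi.single_eq_same] at this

end Consts

/-! ### frames -/

section Frame

variable {L E : Type*} [Field L] [Field E] [Algebra L E] (𝔉 : s27g_Frame L E)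

theorem s27g_inf_elt_zero : 𝔉.elt 0 = 0 := by
  unfold s27g_Frame.elt
  simp

theorem s27g_inf_elt_add (a b : Fin 𝔉.n → L[X]) : 𝔉.elt (a + b) = 𝔉.elt a + 𝔉.elt b := by
  unfold s27g_Frame.elt
  rw [← Finset.sum_add_distrib]
  refine Finset.sum_congr rfl fun i _ => ?_
  rw [Pi.add_apply, map_add, add_mul]

theorem s27g_inf_elt_neg (a : Fin 𝔉.n → L[X]) : 𝔉.elt (-a) = -𝔉.elt a := by
  unfold s27g_Frame.elt
  rw [← Finset.sum_neg_distrib]
  refine Finset.sum_congr rfl fun i _ => ?_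
  rw [Pi.neg_apply, map_neg, neg_mul]

theorem s27g_inf_elt_sub (a b : Fin 𝔉.n → L[X]) : 𝔉.elt (a - b) = 𝔉.elt a - 𝔉.elt b := by
  rw [sub_eq_add_neg, s27g_inf_elt_add, s27g_inf_elt_neg, sub_eq_add_neg]

theorem s27g_inf_elt_smul (g : L[X]) (a : Fin 𝔉.n → L[X]) :
    𝔉.elt (g • a) = aeval 𝔉.x g * 𝔉.elt a := by
  unfold s27g_Frame.elt
  rw [Finset.mul_sum]
  refine Finset.sum_congr rfl fun i _ => ?_
  rw [Pi.smul_apply, smul_eq_mul, map_mul, mul_assoc]

theorem s27g_inf_elt_single (i : Fin 𝔉.n) (g : L[X]) :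
    𝔉.elt (Pi.single i g) = aeval 𝔉.x g * 𝔉.ω i := by
  unfold s27g_Frame.elt
  rw [Finset.sum_eq_single i]
  · rw [Pi.single_eq_same]
  · intro j _ hj
    rw [Pi.single_eq_of_ne hj, map_zero, zero_mul]
  · intro hi
    exact absurd (Finset.mem_univ i) hi

variable {𝔉} (h : 𝔉.IsFrame)

include h

theorem s27g_inf_elt_inj {a b : Fin 𝔉.n → L[X]} (hab : 𝔉.elt a = 𝔉.elt b) : a = b := by
  have := h.indep (a - b) (by rw [s27g_inf_elt_sub, hab, sub_self])
  exact sub_eq_zero.1 this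

theorem s27g_inf_elt_ne_zero {a : Fin 𝔉.n → L[X]} (ha : a ≠ 0) : 𝔉.elt a ≠ 0 :=
  fun h0 => ha (h.indep a h0)

theorem s27g_inf_elt_single_zero (g : L[X]) :
    𝔉.elt (Pi.single 𝔉.i0 g) = aeval 𝔉.x g := by
  rw [s27g_inf_elt_single, h.ω_zero, mul_one]

theorem s27g_inf_aeval_ne_zero {g : L[X]} (hg : g ≠ 0) : aeval 𝔉.x g ≠ 0 := by
  intro h0
  exact h.x_trans ⟨g, hg, h0⟩

theorem s27g_inf_elt_mul (a b : Fin 𝔉.n → L[X]) :
    𝔉.elt a * 𝔉.elt b = 𝔉.elt (𝔉.mulCoord a b) := by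
  unfold s27g_Frame.elt s27g_Consts.mulCoord
  rw [Finset.sum_mul_sum]
  have h1 : ∀ i j : Fin 𝔉.n, aeval 𝔉.x (a i) * 𝔉.ω i * (aeval 𝔉.x (b j) * 𝔉.ω j) =
      ∑ k, aeval 𝔉.x (a i * b j * 𝔉.c i j k) * 𝔉.ω k := by
    intro i j
    have : aeval 𝔉.x (a i) * 𝔉.ω i * (aeval 𝔉.x (b j) * 𝔉.ω j) =
        aeval 𝔉.x (a i) * aeval 𝔉.x (b j) * (𝔉.ω i * 𝔉.ω j) := by ring
    rw [this, h.mul i j, Finset.mul_sum]
    refine Finset.sum_congr rfl fun k _ => ?_
    rw [map_mul, map_mul]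
    ring
  simp_rw [h1, map_sum, Finset.sum_mul]
  symm
  rw [Finset.sum_comm]
  refine Finset.sum_congr rfl fun i _ => ?_
  rw [Finset.sum_comm]

/-! ### L8′′: the degree of `E / L(x)` -/

/-- **L8′′**: `ω` is a basis of `E / L(x)`. -/
theorem s27g_finrank_eq :
    FiniteDimensional L⟮𝔉.x⟯ E ∧ Module.finrank L⟮𝔉.x⟯ E = 𝔉.n := by
  have hli : LinearIndependent L⟮𝔉.x⟯ 𝔉.ω := by
    rw [Fintype.linearIndependent_iff]
    intro c hc i
    have hfr : ∀ j, ∃ r s : L[X], s ≠ 0 ∧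
        ((c j : L⟮𝔉.x⟯) : E) = aeval 𝔉.x r / aeval 𝔉.x s := by
      intro j
      obtain ⟨r, s, hrs⟩ := (IntermediateField.mem_adjoin_simple_iff L _).1 (c j).2
      by_cases hs : s = 0
      · refine ⟨0, 1, one_ne_zero, ?_⟩
        rw [hrs, hs]; simp
      · exact ⟨r, s, hs, hrs⟩
    choose r s hs hrs using hfr
    -- common denominator
    set S : L[X] := ∏ j, s j with hS
    have hS0 : S ≠ 0 := Finset.prod_ne_zero_iff.2 fun j _ => hs j
    set a : Fin 𝔉.n → L[X] := fun j => r j * ∏ k ∈ Finset.univ.erase j, s k with ha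
    have hSa : ∀ j, aeval 𝔉.x S * ((c j : L⟮𝔉.x⟯) : E) = aeval 𝔉.x (a j) := by
      intro j
      have h1 : S = s j * ∏ k ∈ Finset.univ.erase j, s k :=
        (Finset.mul_prod_erase Finset.univ s (Finset.mem_univ j)).symm
      have h2 : aeval 𝔉.x (s j) ≠ 0 := s27g_inf_aeval_ne_zero h (hs j)
      rw [hrs j, h1, ha, map_mul, map_mul]
      field_simp
    have h0 : 𝔉.elt a = 0 := by
      have h1 : aeval 𝔉.x S * ∑ j, c j • 𝔉.ω j = 0 := by rw [hc, mul_zero]
      rw [Finset.mul_sum] at h1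
      rw [← h1]
      unfold s27g_Frame.elt
      refine Finset.sum_congr rfl fun j _ => ?_
      rw [← hSa j, IntermediateField.smul_def, smul_eq_mul, mul_assoc]
    have ha0 := h.indep a h0
    have hai : a i = 0 := congrFun ha0 i
    have hri : r i = 0 := by
      rw [ha] at hai
      have hp : (∏ k ∈ Finset.univ.erase i, s k) ≠ 0 := Finset.prod_ne_zero_iff.2 fun j _ => hs j
      exact (mul_eq_zero.1 hai).resolve_right hp
    apply Subtype.ext
    rw [hrs i, hri, map_zero, zero_div]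
    rfl
  have hsp : ⊤ ≤ Submodule.span L⟮𝔉.x⟯ (Set.range 𝔉.ω) := by
    intro f _
    obtain ⟨g, a, hg, hga⟩ := h.frac f
    have hgx : aeval 𝔉.x g ≠ 0 := s27g_inf_aeval_ne_zero h hg
    have hf : f = ∑ i, (⟨aeval 𝔉.x (a i) / aeval 𝔉.x g,
        (IntermediateField.mem_adjoin_simple_iff L _).2 ⟨a i, g, rfl⟩⟩ : L⟮𝔉.x⟯) • 𝔉.ω i := by
      have h1 : f = (aeval 𝔉.x g)⁻¹ * 𝔉.elt a := by
        rw [← hga, ← mul_assoc, inv_mul_cancel₀ hgx, one_mul]
      rw [h1]
      unfold s27g_Frame.elt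
      rw [Finset.mul_sum]
      refine Finset.sum_congr rfl fun i _ => ?_
      rw [IntermediateField.smul_def, smul_eq_mul]
      show _ = aeval 𝔉.x (a i) / aeval 𝔉.x g * 𝔉.ω i
      field_simp
    rw [hf]
    exact Submodule.sum_mem _ fun i _ =>
      Submodule.smul_mem _ _ (Submodule.subset_span ⟨i, rfl⟩)
  let b : Module.Basis (Fin 𝔉.n) L⟮𝔉.x⟯ E := Module.Basis.mk hli hsp
  refine ⟨Module.Finite.of_basis b, ?_⟩
  rw [Module.finrank_eq_card_basis b, Fintype.card_fin]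

/-! ### the order at infinity -/

/-- the order at infinity of `f`: `n · deg g − wdeg a` for `g(x) f = elt a`. -/
def s27g_inf_ord (f : E) : ℤ :=
  (𝔉.n : ℤ) * ((Classical.choose (h.frac f)).natDegree : ℤ) -
    (𝔉.wdeg (Classical.choose (Classical.choose_spec (h.frac f))) : ℤ)

theorem s27g_inf_coord_ne_zero {f : E} (hf : f ≠ 0) {g : L[X]} {a : Fin 𝔉.n → L[X]}
    (hg : g ≠ 0) (hga : aeval 𝔉.x g * f = 𝔉.elt a) : a ≠ 0 := by
  rintro rfl
  rw [s27g_inf_elt_zero] at hga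
  exact (mul_ne_zero (s27g_inf_aeval_ne_zero h hg) hf) hga

/-- the order at infinity does not depend on the representation. -/
theorem s27g_inf_ord_eq {f : E} (hf : f ≠ 0) {g : L[X]} {a : Fin 𝔉.n → L[X]}
    (hg : g ≠ 0) (hga : aeval 𝔉.x g * f = 𝔉.elt a) :
    s27g_inf_ord h f = (𝔉.n : ℤ) * (g.natDegree : ℤ) - (𝔉.wdeg a : ℤ) := by
  obtain ⟨hg₀, h₀⟩ := Classical.choose_spec (Classical.choose_spec (h.frac f))
  set g₀ := Classical.choose (h.frac f) with hg₀def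
  set a₀ := Classical.choose (Classical.choose_spec (h.frac f)) with ha₀def
  have ha : a ≠ 0 := s27g_inf_coord_ne_zero h hf hg hga
  have ha₀ : a₀ ≠ 0 := s27g_inf_coord_ne_zero h hf hg₀ h₀
  have e1 : g • a₀ = g₀ • a := by
    apply s27g_inf_elt_inj h
    rw [s27g_inf_elt_smul, s27g_inf_elt_smul, ← h₀, ← hga]
    ring
  have e2 := congrArg 𝔉.wdeg e1
  rw [s27g_inf_wdeg_smul _ hg ha₀, s27g_inf_wdeg_smul _ hg₀ ha] at e2
  show (𝔉.n : ℤ) * (g₀.natDegree : ℤ) - (𝔉.wdeg a₀ : ℤ) = _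
  have e3 : ((𝔉.n * g.natDegree + 𝔉.wdeg a₀ : ℕ) : ℤ) = ((𝔉.n * g₀.natDegree + 𝔉.wdeg a : ℕ) : ℤ) :=
    congrArg _ e2
  push_cast at e3
  linarith

theorem s27g_inf_ord_elt {a : Fin 𝔉.n → L[X]} (ha : a ≠ 0) :
    s27g_inf_ord h (𝔉.elt a) = -(𝔉.wdeg a : ℤ) := by
  rw [s27g_inf_ord_eq h (s27g_inf_elt_ne_zero h ha) (g := 1) one_ne_zero (by rw [map_one, one_mul]),
    natDegree_one]
  simp

/-- **the order at infinity is a valuation**, given the additivity of `wdeg` (cell L2). -/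
theorem s27g_inf_isVal
    (hL2 : ∀ a b : Fin 𝔉.n → L[X], a ≠ 0 → b ≠ 0 →
      𝔉.mulCoord a b ≠ 0 ∧ 𝔉.wdeg (𝔉.mulCoord a b) = 𝔉.wdeg a + 𝔉.wdeg b) :
    gw_IsVal L (s27g_inf_ord h) := by
  refine ⟨?_, ?_, ?_⟩
  · intro f f' hf hf'
    obtain ⟨g, a, hg, hga⟩ := h.frac f
    obtain ⟨g', a', hg', hga'⟩ := h.frac f'
    have ha := s27g_inf_coord_ne_zero h hf hg hga
    have ha' := s27g_inf_coord_ne_zero h hf' hg' hga'
    obtain ⟨-, hw⟩ := hL2 a a' ha ha'
    have hmul : aeval 𝔉.x (g * g') * (f * f') = 𝔉.elt (𝔉.mulCoord a a') := by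
      rw [← s27g_inf_elt_mul h, ← hga, ← hga', map_mul]
      ring
    rw [s27g_inf_ord_eq h (mul_ne_zero hf hf') (mul_ne_zero hg hg') hmul,
      s27g_inf_ord_eq h hf hg hga, s27g_inf_ord_eq h hf' hg' hga', hw, natDegree_mul hg hg']
    push_cast
    ring
  · intro f f' hf hf' hff'
    obtain ⟨g, a, hg, hga⟩ := h.frac f
    obtain ⟨g', a', hg', hga'⟩ := h.frac f'
    have ha := s27g_inf_coord_ne_zero h hf hg hga
    have ha' := s27g_inf_coord_ne_zero h hf' hg' hga'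
    have hadd : aeval 𝔉.x (g * g') * (f + f') = 𝔉.elt (g' • a + g • a') := by
      rw [s27g_inf_elt_add, s27g_inf_elt_smul, s27g_inf_elt_smul, ← hga, ← hga', map_mul]
      ring
    rw [s27g_inf_ord_eq h hff' (mul_ne_zero hg hg') hadd,
      s27g_inf_ord_eq h hf hg hga, s27g_inf_ord_eq h hf' hg' hga', natDegree_mul hg hg']
    have h1 := s27g_inf_wdeg_add_le 𝔉.tos27g_Consts (g' • a) (g • a')
    rw [s27g_inf_wdeg_smul _ hg' ha, s27g_inf_wdeg_smul _ hg ha'] at h1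
    have h2 : ((𝔉.wdeg (g' • a + g • a') : ℕ) : ℤ) ≤
        max ((𝔉.n : ℤ) * g'.natDegree + 𝔉.wdeg a) ((𝔉.n : ℤ) * g.natDegree + 𝔉.wdeg a') := by
      have := (Int.ofNat_le.2 h1)
      push_cast at this
      exact this
    push_cast
    rcases le_max_iff.1 h2 with h3 | h3
    · exact min_le_of_left_le (by linarith)
    · exact min_le_of_right_le (by linarith)
  · intro c hc
    have h1 : aeval 𝔉.x (1 : L[X]) * algebraMap L E c = 𝔉.elt (Pi.single 𝔉.i0 (C c)) := by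
      rw [s27g_inf_elt_single_zero h, map_one, one_mul, aeval_C]
    have hc' : algebraMap L E c ≠ 0 := (_root_.map_ne_zero (algebraMap L E)).2 hc
    rw [s27g_inf_ord_eq h hc' one_ne_zero h1, natDegree_one,
      s27g_inf_wdeg_single _ _ (C_ne_zero.2 hc), natDegree_C, h.graded.ρ_zero]
    simp

theorem s27g_inf_ord_x : s27g_inf_ord h 𝔉.x = -(𝔉.n : ℤ) := by
  have h1 : aeval 𝔉.x (1 : L[X]) * 𝔉.x = 𝔉.elt (Pi.single 𝔉.i0 X) := by
    rw [s27g_inf_elt_single_zero h, map_one, one_mul, aeval_X]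
  have hx0 : 𝔉.x ≠ 0 := by
    intro h0
    have := s27g_inf_aeval_ne_zero h (X_ne_zero (R := L))
    rw [aeval_X] at this
    exact this h0
  rw [s27g_inf_ord_eq h hx0 one_ne_zero h1, natDegree_one,
    s27g_inf_wdeg_single _ _ X_ne_zero, natDegree_X, h.graded.ρ_zero]
  simp

theorem s27g_inf_ord_ω (i : Fin 𝔉.n) : s27g_inf_ord h (𝔉.ω i) = -(𝔉.ρ i : ℤ) := by
  have h1 : 𝔉.ω i = 𝔉.elt (Pi.single i 1) := by
    rw [s27g_inf_elt_single, map_one, one_mul]
  have hne : (Pi.single i (1 : L[X]) : Fin 𝔉.n → L[X]) ≠ 0 := by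
    intro h0
    have := congrFun h0 i
    rw [Pi.single_eq_same, Pi.zero_apply] at this
    exact one_ne_zero this
  rw [h1, s27g_inf_ord_elt h hne, s27g_inf_wdeg_single _ _ one_ne_zero, natDegree_one]
  simp

/-! ### L8: the place at infinity -/

/-- the place at infinity, with the normalised order: `ord_P = s27g_inf_ord`. -/
theorem s27g_inf_exists_place
    (hL2 : ∀ a b : Fin 𝔉.n → L[X], a ≠ 0 → b ≠ 0 →
      𝔉.mulCoord a b ≠ 0 ∧ 𝔉.wdeg (𝔉.mulCoord a b) = 𝔉.wdeg a + 𝔉.wdeg b) :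
    ∃ P : Place L E, ∀ f : E, f ≠ 0 → P.ord f = s27g_inf_ord h f := by
  have hv := s27g_inf_isVal h hL2
  have hn0 : (𝔉.n : ℤ) ≠ 0 := by
    have := 𝔉.hn
    exact_mod_cast this.ne'
  have hx0 : 𝔉.x ≠ 0 := by
    intro h0
    have := s27g_inf_aeval_ne_zero h (X_ne_zero (R := L))
    rw [aeval_X] at this
    exact this h0
  have hnt : ∃ f : E, f ≠ 0 ∧ s27g_inf_ord h f ≠ 0 :=
    ⟨𝔉.x, hx0, by rw [s27g_inf_ord_x h]; exact neg_ne_zero.2 hn0⟩
  obtain ⟨P, e, he, hP⟩ := gw_val_eq_ord L hv hnt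
  have hen : e ∣ (𝔉.n : ℤ) := by
    have := hP 𝔉.x hx0
    rw [s27g_inf_ord_x h] at this
    exact (dvd_neg).1 ⟨_, this⟩
  have hω0 : ∀ i, 𝔉.ω i ≠ 0 := by
    intro i
    have hne : (Pi.single i (1 : L[X]) : Fin 𝔉.n → L[X]) ≠ 0 := by
      intro h0
      have := congrFun h0 i
      rw [Pi.single_eq_same, Pi.zero_apply] at this
      exact one_ne_zero this
    have := s27g_inf_elt_ne_zero h hne
    rwa [s27g_inf_elt_single, map_one, one_mul] at this
  have heρ : ∀ i, e ∣ (𝔉.ρ i : ℤ) := by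
    intro i
    have := hP (𝔉.ω i) (hω0 i)
    rw [s27g_inf_ord_ω h] at this
    exact (dvd_neg).1 ⟨_, this⟩
  have he1 : e = 1 := by
    apply Int.eq_one_of_dvd_one he.le
    by_cases hn1 : 𝔉.n = 1
    · rw [hn1] at hen
      exact_mod_cast hen
    · have hn2 : 1 < 𝔉.n := by have := 𝔉.hn; omega
      have hmod := h.graded.ρ_mod ⟨1, hn2⟩
      have hdiv := Nat.div_add_mod (𝔉.ρ ⟨1, hn2⟩) 𝔉.n
      rw [hmod] at hdiv
      have hz : ((𝔉.n : ℤ)) * ((𝔉.ρ ⟨1, hn2⟩ / 𝔉.n : ℕ) : ℤ) + 1 = (𝔉.ρ ⟨1, hn2⟩ : ℤ) := by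
        have := congrArg (fun m : ℕ => (m : ℤ)) hdiv
        push_cast at this
        exact this
      have h1 := heρ ⟨1, hn2⟩
      rw [← hz] at h1
      exact (Int.dvd_add_right (dvd_mul_of_dvd_left hen _)).1 h1
  refine ⟨P, fun f hf => ?_⟩
  rw [hP f hf, he1, one_mul]

/-- **L8** (with L2 as a hypothesis): the place at infinity is the unique pole of `x`, and
`ord_P (elt a) = − wdeg a`. -/
theorem s27g_exists_place_infty_of [IsAlgClosed L] (hsep : rt_IsSepGen L 𝔉.x)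
    (hL2 : ∀ a b : Fin 𝔉.n → L[X], a ≠ 0 → b ≠ 0 →
      𝔉.mulCoord a b ≠ 0 ∧ 𝔉.wdeg (𝔉.mulCoord a b) = 𝔉.wdeg a + 𝔉.wdeg b) :
    ∃ P : Place L E, (∀ v : Place L E, v.ord 𝔉.x < 0 ↔ v = P) ∧
      ∀ a : Fin 𝔉.n → L[X], a ≠ 0 → P.ord (𝔉.elt a) = -(𝔉.wdeg a : ℤ) := by
  obtain ⟨P, hP⟩ := s27g_inf_exists_place h hL2
  have hx0 : 𝔉.x ≠ 0 := by
    intro h0
    have := s27g_inf_aeval_ne_zero h (X_ne_zero (R := L))
    rw [aeval_X] at this
    exact this h0
  have hPx : P.ord 𝔉.x = -(𝔉.n : ℤ) := by rw [hP _ hx0, s27g_inf_ord_x h]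
  have hnpos : (0 : ℤ) < 𝔉.n := by exact_mod_cast 𝔉.hn
  refine ⟨P, fun v => ⟨fun hv => ?_, fun hv => ?_⟩, fun a ha => ?_⟩
  · by_contra hne
    -- the pole divisor of `x` has degree `n`, and `P` already contributes `n`
    have hdeg := rt_degree_poleDiv hsep h.x_trans
    rw [(s27g_finrank_eq h).2] at hdeg
    have hle : Finsupp.single P (𝔉.n : ℤ) + Finsupp.single v (1 : ℤ) ≤ rt_poleDiv hsep 𝔉.x := by
      intro w
      rw [Finsupp.add_apply, rt_poleDiv_apply]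
      by_cases hwP : w = P
      · subst hwP
        rw [Finsupp.single_eq_same, Finsupp.single_eq_of_ne (Ne.symm hne), hPx]
        simp
      · by_cases hwv : w = v
        · subst hwv
          rw [Finsupp.single_eq_of_ne hwP, Finsupp.single_eq_same]
          have : 1 ≤ -w.ord 𝔉.x := by omega
          simp only [zero_add]
          exact le_max_of_le_left this
        · rw [Finsupp.single_eq_of_ne hwP, Finsupp.single_eq_of_ne hwv]
          simp
    have h1 := rt_degree_mono hsep hle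
    rw [map_add, rt_degree_single hsep, rt_degree_single hsep, hdeg] at h1
    omega
  · rw [hv, hPx]; omega
  · rw [hP _ (s27g_inf_elt_ne_zero h ha), s27g_inf_ord_elt h ha]

/-- **L8**: the place at infinity of a frame: the unique pole of `x`, with
`ord_P (elt a) = − wdeg a`. -/
theorem s27g_exists_place_infty [IsAlgClosed L] (hsep : rt_IsSepGen L 𝔉.x) :
    ∃ P : Place L E, (∀ v : Place L E, v.ord 𝔉.x < 0 ↔ v = P) ∧
      ∀ a : Fin 𝔉.n → L[X], a ≠ 0 → P.ord (𝔉.elt a) = -(𝔉.wdeg a : ℤ) :=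
  s27g_exists_place_infty_of h hsep fun a b ha hb =>
    s27g_wdeg_mulCoord 𝔉.tos27g_Consts h.graded ha hb

end Frame

end Fermat.Agent.S27
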