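/-
S27 / (GOOD), cell L8′ (helper23).  Prefix `s27g_infl`.

For an integrally closed frame `𝔉` of `E / L` with its place at infinity `P` (cell L8):

  `f ∈ L(r · P)  ↔  ∃ a, f = elt a ∧ (a = 0 ∨ wdeg a ≤ r)`.

* `s27g_infl_ω_mem`       : `ω_i` is regular at every place where `x` is regular;
* `s27g_infl_elt_mem`     : so is every element of the lattice;
* `s27g_mem_L_infty_iff`  : L8′.
-/
import Mathlib
import Fermat.Agent.S27.Good.Infty

set_option autoImplicit false
set_option linter.unusedSectionVars false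
set_option linter.unusedVariables false
set_option linter.style.haveILetI false

noncomputable section

namespace Fermat.Agent.S27

open Polynomial AlgebraicCurve IntermediateField Fermat.Agent.JT3 Fermat.Agent.S24 WithZero
open scoped Classical

section Frame

variable {L E : Type*} [Field L] [Field E] [Algebra L E] {𝔉 : s27g_Frame L E}

theorem s27g_infl_val_le_one_iff (v : Place L E) (f : E) :
    v.adicValuation f ≤ 1 ↔ f ∈ v.toValuationSubring := by
  rcases eq_or_ne f 0 with rfl | hf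
  · simp
  · rw [hw_adicValuation_eq_exp v hf, hw_mem_iff_ord_nonneg v hf, ← WithZero.exp_zero,
      WithZero.exp_le_exp]
    omega

variable (h : 𝔉.IsFrame)

include h

/-- `ω_i` is regular wherever `x` is. -/
theorem s27g_infl_ω_mem (v : Place L E) (hx : 𝔉.x ∈ v.toValuationSubring) (i : Fin 𝔉.n) :
    𝔉.ω i ∈ v.toValuationSubring := by
  have hc : ∀ q : L[X], v.adicValuation (aeval 𝔉.x q) ≤ 1 := fun q =>
    (s27g_infl_val_le_one_iff v _).2 (rt_aeval_mem v hx q)
  obtain ⟨i₀, -, hmax⟩ := Finset.exists_max_image Finset.univ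
    (fun i => v.adicValuation (𝔉.ω i)) ⟨𝔉.i0, Finset.mem_univ _⟩
  set M := v.adicValuation (𝔉.ω i₀) with hM
  have hM1 : M ≤ 1 := by
    by_contra hlt
    rw [not_le] at hlt
    have h1 : v.adicValuation (𝔉.ω i₀ * 𝔉.ω i₀) ≤ M := by
      rw [h.mul i₀ i₀]
      refine Valuation.map_sum_le _ fun k _ => ?_
      rw [map_mul]
      calc v.adicValuation (aeval 𝔉.x (𝔉.c i₀ i₀ k)) * v.adicValuation (𝔉.ω k)
          ≤ 1 * M := mul_le_mul' (hc _) (hmax k (Finset.mem_univ _))
        _ = M := one_mul _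
    rw [map_mul, ← hM] at h1
    have hM0 : 0 < M := lt_trans zero_lt_one hlt
    have h2 : M * 1 < M * M := by
      rw [mul_lt_mul_iff_right₀ hM0]
      exact hlt
    rw [mul_one] at h2
    exact absurd h1 (not_le.2 h2)
  rw [← s27g_infl_val_le_one_iff]
  exact (hmax i (Finset.mem_univ _)).trans hM1

/-- every element of the lattice is regular wherever `x` is. -/
theorem s27g_infl_elt_mem (v : Place L E) (hx : 𝔉.x ∈ v.toValuationSubring)
    (a : Fin 𝔉.n → L[X]) : 𝔉.elt a ∈ v.toValuationSubring := by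
  unfold s27g_Frame.elt
  exact sum_mem fun i _ => mul_mem (rt_aeval_mem v hx (a i)) (s27g_infl_ω_mem h v hx i)

/-- **L8′**: `L(r P∞) = {elt a : wdeg a ≤ r}` for an integrally closed frame. -/
theorem s27g_mem_L_infty_iff (hc : 𝔉.IsClosed) [IsAlgClosed L] (hsep : rt_IsSepGen L 𝔉.x)
    {P : Place L E}
    (hP : (∀ v : Place L E, v.ord 𝔉.x < 0 ↔ v = P) ∧
      ∀ a : Fin 𝔉.n → L[X], a ≠ 0 → P.ord (𝔉.elt a) = -(𝔉.wdeg a : ℤ))
    (r : ℕ) (f : E) :
    f ∈ riemannRochSpace (Finsupp.single P (r : ℤ)) ↔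
      ∃ a : Fin 𝔉.n → L[X], f = 𝔉.elt a ∧ (a = 0 ∨ 𝔉.wdeg a ≤ r) := by
  have hx0 : 𝔉.x ≠ 0 := by
    intro h0
    have := s27g_inf_aeval_ne_zero h (X_ne_zero (R := L))
    rw [aeval_X] at this
    exact this h0
  have hreg : ∀ v : Place L E, v ≠ P → 𝔉.x ∈ v.toValuationSubring := by
    intro v hv
    rw [hw_mem_iff_ord_nonneg v hx0]
    by_contra hlt
    exact hv ((hP.1 v).1 (not_le.1 hlt))
  have hpole : ∀ v : Place L E, 𝔉.x ∈ v.toValuationSubring → v ≠ P := by
    intro v hv hvP
    rw [hw_mem_iff_ord_nonneg v hx0] at hv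
    have := (hP.1 v).2 hvP
    omega
  constructor
  · intro hf
    rcases eq_or_ne f 0 with rfl | hf0
    · exact ⟨0, (s27g_inf_elt_zero 𝔉).symm, Or.inl rfl⟩
    rw [rt_mem_L_iff hf0] at hf
    have hint : IsIntegral (Algebra.adjoin L ({𝔉.x} : Set E)) f := by
      refine rt_isIntegral_of_forall_mem hsep f fun v hv => ?_
      have hvP := hpole v hv
      have := hf v
      rw [Finsupp.single_eq_of_ne hvP, neg_zero] at this
      exact (hw_mem_iff_ord_nonneg v hf0).2 this
    obtain ⟨a, rfl⟩ := hc f hint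
    have ha : a ≠ 0 := by
      rintro rfl
      exact hf0 (s27g_inf_elt_zero 𝔉)
    refine ⟨a, rfl, Or.inr ?_⟩
    have := hf P
    rw [Finsupp.single_eq_same, hP.2 a ha] at this
    omega
  · rintro ⟨a, rfl, ha⟩
    rcases ha with rfl | ha
    · rw [s27g_inf_elt_zero]; exact zero_mem _
    by_cases ha0 : a = 0
    · rw [ha0, s27g_inf_elt_zero]; exact zero_mem _
    have hf0 := s27g_inf_elt_ne_zero h ha0
    rw [rt_mem_L_iff hf0]
    intro v
    by_cases hvP : v = P
    · subst hvP
      rw [Finsupp.single_eq_same, hP.2 a ha0]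
      omega
    · rw [Finsupp.single_eq_of_ne hvP, neg_zero, ← hw_mem_iff_ord_nonneg v hf0]
      exact s27g_infl_elt_mem h v (hreg v hvP) a

end Frame

end Fermat.Agent.S27
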