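/-
S27 / (GOOD), cell L6 (helper28), abstract part.  Prefix `s27g_jc`.

* `s27g_jc_deriv_dep`: two point derivations at an `L`-point of a Dedekind domain are proportional;
* `s27g_jc_exists_minor`: a matrix with `n` columns whose kernel has dimension `≤ 1` has a
  nonvanishing `(n-1)`-minor.
-/
import Mathlib

set_option autoImplicit false

namespace Fermat.Agent.S27

open Module

section Deriv

variable {L Λ : Type*} [Field L] [CommRing Λ] [IsDedekindDomain Λ] [Algebra L Λ]

omit [IsDedekindDomain Λ] in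
/-- a point derivation kills `1`. -/
theorem s27g_jc_deriv_one (ev : Λ →ₐ[L] L) (D : Λ →ₗ[L] L)
    (hD : ∀ f g, D (f * g) = ev f * D g + ev g * D f) : D 1 = 0 := by
  have h := hD 1 1
  rw [mul_one, map_one ev, one_mul] at h
  have h2 : D 1 + D 1 = D 1 + 0 := by rw [add_zero]; exact h.symm
  exact add_left_cancel h2

omit [IsDedekindDomain Λ] in
/-- a point derivation kills the constants. -/
theorem s27g_jc_deriv_const (ev : Λ →ₐ[L] L) (D : Λ →ₗ[L] L)
    (hD : ∀ f g, D (f * g) = ev f * D g + ev g * D f) (c : L) : D (algebraMap L Λ c) = 0 := by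
  rw [Algebra.algebraMap_eq_smul_one, map_smul, s27g_jc_deriv_one ev D hD, smul_zero]

omit [IsDedekindDomain Λ] in
/-- a point derivation kills the square of the maximal ideal. -/
theorem s27g_jc_deriv_sq (ev : Λ →ₐ[L] L) (D : Λ →ₗ[L] L)
    (hD : ∀ f g, D (f * g) = ev f * D g + ev g * D f) {m : Λ}
    (hm : m ∈ (RingHom.ker (ev : Λ →+* L)) ^ 2) : D m = 0 := by
  rw [pow_two] at hm
  refine Submodule.mul_induction_on hm ?_ ?_
  · intro p hp q hq
    rw [RingHom.mem_ker] at hp hq
    have hp' : ev p = 0 := hp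
    have hq' : ev q = 0 := hq
    rw [hD, hp', hq', zero_mul, zero_mul, add_zero]
  · intro p q hp hq
    rw [map_add, hp, hq, add_zero]

/-- **point derivations at an `L`-point of a Dedekind domain are proportional**: there is a
uniformiser `π` such that every point derivation `D` is determined by `D π`. -/
theorem s27g_jc_deriv_dep (ev : Λ →ₐ[L] L) (hne : RingHom.ker (ev : Λ →+* L) ≠ ⊥) :
    ∃ π : Λ, ∀ f : Λ, ∃ c : L, ∀ D : Λ →ₗ[L] L,
      (∀ f g, D (f * g) = ev f * D g + ev g * D f) → D f = c * D π := by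
  set 𝔪 : Ideal Λ := RingHom.ker (ev : Λ →+* L) with h𝔪
  have hsurj : Function.Surjective (ev : Λ →+* L) := fun c =>
    ⟨algebraMap L Λ c, by simp⟩
  have hmax : 𝔪.IsMaximal := RingHom.ker_isMaximal_of_surjective _ hsurj
  have hprime : 𝔪.IsPrime := hmax.isPrime
  obtain ⟨π, hπ1, hπ2⟩ := Ideal.exists_mem_pow_notMem_pow_succ 𝔪 hne hmax.ne_top 1
  rw [pow_one] at hπ1
  have hI : Ideal.span {π} ⊔ 𝔪 ^ 2 = 𝔪 ^ 1 := by
    apply Ideal.eq_prime_pow_of_succ_lt_of_le hne
    · refine lt_of_le_of_ne le_sup_right fun he => hπ2 ?_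
      rw [he]
      exact Ideal.mem_sup_left (Ideal.mem_span_singleton_self π)
    · rw [pow_one]
      refine sup_le ?_ (Ideal.pow_le_self two_ne_zero)
      rw [Ideal.span_le]
      intro z hz
      rw [Set.mem_singleton_iff] at hz
      rw [hz]
      exact hπ1
  rw [pow_one] at hI
  refine ⟨π, fun f => ?_⟩
  have hf : f - algebraMap L Λ (ev f) ∈ 𝔪 := by
    rw [h𝔪, RingHom.mem_ker]
    show ev (f - algebraMap L Λ (ev f)) = 0
    rw [map_sub, AlgHom.commutes]
    simp
  rw [← hI, Submodule.mem_sup] at hf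
  obtain ⟨y, hy, m, hm, hym⟩ := hf
  obtain ⟨lam, rfl⟩ := Ideal.mem_span_singleton'.1 hy
  refine ⟨ev lam, fun D hD => ?_⟩
  have hfe : f = algebraMap L Λ (ev f) + (lam * π + m) := by
    rw [hym]; ring
  have hπ0 : ev π = 0 := hπ1
  conv_lhs => rw [hfe]
  rw [map_add, map_add, s27g_jc_deriv_const ev D hD, s27g_jc_deriv_sq ev D hD hm, hD, hπ0,
    zero_mul, add_zero, add_zero, zero_add]

end Deriv

section Minor

variable {L : Type*} [Field L]

/-- a matrix with `n` columns whose kernel has dimension at most one has a nonvanishing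
`(n-1)`-minor. -/
theorem s27g_jc_exists_minor {m : Type*} [Fintype m] {n : ℕ} (M : Matrix m (Fin n) L)
    (hker : finrank L (LinearMap.ker M.mulVecLin) ≤ 1) :
    ∃ (rows : Fin (n - 1) → m) (cols : Fin (n - 1) → Fin n),
      (M.submatrix rows cols).det ≠ 0 := by
  classical
  -- the rank is at least `n - 1`
  have hrank : n - 1 ≤ M.rank := by
    have h1 := LinearMap.finrank_range_add_finrank_ker M.mulVecLin
    rw [finrank_pi, Fintype.card_fin] at h1
    have : M.rank = finrank L (LinearMap.range M.mulVecLin) := rfl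
    omega
  -- choose `rank` independent rows
  rw [Matrix.rank_eq_finrank_span_row] at hrank
  obtain ⟨f, hf, -, hfli⟩ := Submodule.exists_fun_fin_finrank_span_eq L (Set.range M.row)
  choose ρ' hρ' using hf
  set ρ : Fin (n - 1) → m := fun i => ρ' (Fin.castLE hrank i) with hρ
  set N : Matrix (Fin (n - 1)) (Fin n) L := M.submatrix ρ id with hN
  have hNrow : LinearIndependent L N.row := by
    have : N.row = f ∘ Fin.castLE hrank := by
      funext i
      show M.row (ρ' (Fin.castLE hrank i)) = _
      rw [hρ']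
      rfl
    rw [this]
    exact hfli.comp _ (Fin.castLE_injective hrank)
  have hNrank : N.rank = n - 1 := by
    rw [hNrow.rank_matrix, Fintype.card_fin]
  -- choose `n - 1` independent columns
  rw [Matrix.rank_eq_finrank_span_cols] at hNrank
  obtain ⟨g, hg, -, hgli⟩ := Submodule.exists_fun_fin_finrank_span_eq L (Set.range N.col)
  choose γ' hγ' using hg
  set γ : Fin (n - 1) → Fin n := fun j => γ' (Fin.cast hNrank.symm j) with hγ
  refine ⟨ρ, γ, ?_⟩
  have hS : (M.submatrix ρ γ) = N.submatrix id γ := rfl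
  rw [hS]
  have hcol : LinearIndependent L (N.submatrix id γ).col := by
    have : (N.submatrix id γ).col = g ∘ Fin.cast hNrank.symm := by
      funext j
      show N.col (γ' (Fin.cast hNrank.symm j)) = _
      rw [hγ']
      rfl
    rw [this]
    exact hgli.comp _ (Fin.cast_injective _)
  have hunit := Matrix.linearIndependent_cols_iff_isUnit.1 hcol
  exact ((Matrix.isUnit_iff_isUnit_det _).1 hunit).ne_zero

end Minor

end Fermat.Agent.S27
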