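/-
S27 / (GOOD), cells L6/L7 support (helper28): the lattice `Λ = ⊕ L[x] ω_i` of a frame as an
`L`-subalgebra of `E`.  Prefix `s27g_jl`.

* `s27g_jl_elt_add/_smul/_single/_mul/_injective`: algebra of `elt`;
* `s27g_jl_Lam 𝔉 h : Subalgebra L E` with carrier `Set.range 𝔉.elt`;
* `s27g_jl_mk`, `s27g_jl_coords`: coordinates;
* `s27g_jl_finiteType`, `s27g_jl_isDedekindDomain` (from `IsClosed`);
* `s27g_jl_exists_point`: maximal ideals of a finite type algebra over an algebraically closed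
  field are `L`-points.
-/
import Mathlib
import Fermat.Agent.S27.Good.Defs

set_option autoImplicit false

noncomputable section

namespace Fermat.Agent.S27

open Polynomial
open scoped Classical

/-- maximal ideals of a finite type algebra over an algebraically closed field are points. -/
theorem s27g_jl_exists_point {L A : Type*} [Field L] [IsAlgClosed L] [CommRing A] [Algebra L A]
    [Algebra.FiniteType L A] (𝔪 : Ideal A) [h𝔪 : 𝔪.IsMaximal] :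
    ∃ ev : A →ₐ[L] L, RingHom.ker (ev : A →+* L) = 𝔪 := by
  letI := Ideal.Quotient.field 𝔪
  have : Module.Finite L (A ⧸ 𝔪) := finite_of_finite_type_of_isJacobsonRing L (A ⧸ 𝔪)
  have : Algebra.IsIntegral L (A ⧸ 𝔪) := Algebra.IsIntegral.of_finite L (A ⧸ 𝔪)
  have hbij := IsAlgClosed.algebraMap_bijective_of_isIntegral (k := L) (K := A ⧸ 𝔪)
  let e : L ≃ₐ[L] (A ⧸ 𝔪) := AlgEquiv.ofBijective (Algebra.ofId L (A ⧸ 𝔪)) hbij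
  refine ⟨(e.symm : (A ⧸ 𝔪) →ₐ[L] L).comp (Ideal.Quotient.mkₐ L 𝔪), ?_⟩
  ext f
  rw [RingHom.mem_ker]
  show e.symm (Ideal.Quotient.mk 𝔪 f) = 0 ↔ f ∈ 𝔪
  rw [map_eq_zero_iff _ e.symm.injective, Ideal.Quotient.eq_zero_iff_mem]

variable {L E : Type*} [Field L] [Field E] [Algebra L E] (𝔉 : s27g_Frame L E)

theorem s27g_jl_elt_zero : 𝔉.elt 0 = 0 := by
  simp [s27g_Frame.elt]

theorem s27g_jl_elt_add (a b : Fin 𝔉.n → L[X]) : 𝔉.elt (a + b) = 𝔉.elt a + 𝔉.elt b := by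
  simp only [s27g_Frame.elt, Pi.add_apply, map_add, add_mul, Finset.sum_add_distrib]

theorem s27g_jl_elt_smul (q : L[X]) (a : Fin 𝔉.n → L[X]) :
    𝔉.elt (q • a) = aeval 𝔉.x q * 𝔉.elt a := by
  simp only [s27g_Frame.elt, Pi.smul_apply, smul_eq_mul, map_mul, Finset.mul_sum, mul_assoc]

theorem s27g_jl_elt_neg (a : Fin 𝔉.n → L[X]) : 𝔉.elt (-a) = -𝔉.elt a := by
  simp only [s27g_Frame.elt, Pi.neg_apply, map_neg, neg_mul, Finset.sum_neg_distrib]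

theorem s27g_jl_elt_sub (a b : Fin 𝔉.n → L[X]) : 𝔉.elt (a - b) = 𝔉.elt a - 𝔉.elt b := by
  rw [sub_eq_add_neg, s27g_jl_elt_add, s27g_jl_elt_neg, ← sub_eq_add_neg]

theorem s27g_jl_elt_csmul (c : L) (a : Fin 𝔉.n → L[X]) : 𝔉.elt (c • a) = c • 𝔉.elt a := by
  have : c • a = (C c : L[X]) • a := by
    funext i
    simp [Polynomial.smul_eq_C_mul]
  rw [this, s27g_jl_elt_smul, aeval_C, Algebra.smul_def]

theorem s27g_jl_elt_single (i : Fin 𝔉.n) (q : L[X]) :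
    𝔉.elt (Pi.single i q) = aeval 𝔉.x q * 𝔉.ω i := by
  unfold s27g_Frame.elt
  rw [Finset.sum_eq_single i]
  · rw [Pi.single_eq_same]
  · intro j _ hj
    rw [Pi.single_eq_of_ne hj, map_zero, zero_mul]
  · intro hi
    exact absurd (Finset.mem_univ i) hi

/-- the multiplication table in coordinates. -/
theorem s27g_jl_elt_mul (h : 𝔉.IsFrame) (a b : Fin 𝔉.n → L[X]) :
    𝔉.elt a * 𝔉.elt b = 𝔉.elt (𝔉.mulCoord a b) := by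
  unfold s27g_Frame.elt s27g_Consts.mulCoord
  rw [Finset.sum_mul_sum]
  have h1 : ∀ i j, aeval 𝔉.x (a i) * 𝔉.ω i * (aeval 𝔉.x (b j) * 𝔉.ω j) =
      ∑ k, aeval 𝔉.x (a i * b j * 𝔉.c i j k) * 𝔉.ω k := by
    intro i j
    have : aeval 𝔉.x (a i) * 𝔉.ω i * (aeval 𝔉.x (b j) * 𝔉.ω j) =
        aeval 𝔉.x (a i) * aeval 𝔉.x (b j) * (𝔉.ω i * 𝔉.ω j) := by ring
    rw [this, h.mul i j, Finset.mul_sum]
    refine Finset.sum_congr rfl fun k _ => ?_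
    rw [map_mul, map_mul]
    ring
  simp_rw [h1, map_sum, Finset.sum_mul]
  rw [show (∑ i, ∑ j, ∑ k, aeval 𝔉.x (a i * b j * 𝔉.c i j k) * 𝔉.ω k) =
      ∑ i, ∑ k, ∑ j, aeval 𝔉.x (a i * b j * 𝔉.c i j k) * 𝔉.ω k from
    Finset.sum_congr rfl fun i _ => Finset.sum_comm]
  rw [Finset.sum_comm]

theorem s27g_jl_elt_injective (h : 𝔉.IsFrame) : Function.Injective 𝔉.elt := by
  intro a b hab
  have : 𝔉.elt (a - b) = 0 := by rw [s27g_jl_elt_sub, hab, sub_self]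
  exact sub_eq_zero.1 (h.indep _ this)

/-- the unit vector. -/
def s27g_jl_one : Fin 𝔉.n → L[X] := Pi.single 𝔉.i0 1

theorem s27g_jl_elt_one (h : 𝔉.IsFrame) : 𝔉.elt (s27g_jl_one 𝔉) = 1 := by
  rw [s27g_jl_one, s27g_jl_elt_single, map_one, one_mul, h.ω_zero]

theorem s27g_jl_elt_C (h : 𝔉.IsFrame) (q : L[X]) :
    𝔉.elt (Pi.single 𝔉.i0 q) = aeval 𝔉.x q := by
  rw [s27g_jl_elt_single, h.ω_zero, mul_one]

/-- the lattice `Λ = ⊕ L[x] ω_i` as a subalgebra. -/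
def s27g_jl_Lam (h : 𝔉.IsFrame) : Subalgebra L E where
  carrier := Set.range 𝔉.elt
  mul_mem' := by
    rintro _ _ ⟨a, rfl⟩ ⟨b, rfl⟩
    exact ⟨_, (s27g_jl_elt_mul 𝔉 h a b).symm⟩
  add_mem' := by
    rintro _ _ ⟨a, rfl⟩ ⟨b, rfl⟩
    exact ⟨_, s27g_jl_elt_add 𝔉 a b⟩
  algebraMap_mem' := fun c =>
    ⟨Pi.single 𝔉.i0 (C c), by rw [s27g_jl_elt_C 𝔉 h, aeval_C]⟩

theorem s27g_jl_mem_Lam (h : 𝔉.IsFrame) {f : E} :
    f ∈ s27g_jl_Lam 𝔉 h ↔ ∃ a, 𝔉.elt a = f := Iff.rfl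

theorem s27g_jl_mem_Lam_iff_lattice (h : 𝔉.IsFrame) {f : E} :
    f ∈ s27g_jl_Lam 𝔉 h ↔ f ∈ 𝔉.lattice := Iff.rfl

/-- the element of `Λ` with given coordinates, as an `L`-linear map. -/
def s27g_jl_mk (h : 𝔉.IsFrame) : (Fin 𝔉.n → L[X]) →ₗ[L] ↥(s27g_jl_Lam 𝔉 h) where
  toFun a := ⟨𝔉.elt a, a, rfl⟩
  map_add' a b := Subtype.ext (s27g_jl_elt_add 𝔉 a b)
  map_smul' c a := Subtype.ext (s27g_jl_elt_csmul 𝔉 c a)

@[simp] theorem s27g_jl_mk_coe (h : 𝔉.IsFrame) (a : Fin 𝔉.n → L[X]) :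
    ((s27g_jl_mk 𝔉 h a : ↥(s27g_jl_Lam 𝔉 h)) : E) = 𝔉.elt a := rfl

theorem s27g_jl_mk_bijective (h : 𝔉.IsFrame) : Function.Bijective (s27g_jl_mk 𝔉 h) :=
  ⟨fun a b hab => s27g_jl_elt_injective 𝔉 h (congrArg Subtype.val hab),
    fun ⟨_, a, ha⟩ => ⟨a, Subtype.ext ha⟩⟩

/-- coordinates on `Λ`. -/
def s27g_jl_coords (h : 𝔉.IsFrame) : ↥(s27g_jl_Lam 𝔉 h) ≃ₗ[L] (Fin 𝔉.n → L[X]) :=
  (LinearEquiv.ofBijective (s27g_jl_mk 𝔉 h) (s27g_jl_mk_bijective 𝔉 h)).symm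

theorem s27g_jl_mk_coords (h : 𝔉.IsFrame) (f : ↥(s27g_jl_Lam 𝔉 h)) :
    s27g_jl_mk 𝔉 h (s27g_jl_coords 𝔉 h f) = f :=
  (LinearEquiv.ofBijective (s27g_jl_mk 𝔉 h) (s27g_jl_mk_bijective 𝔉 h)).apply_symm_apply f

theorem s27g_jl_coords_mk (h : 𝔉.IsFrame) (a : Fin 𝔉.n → L[X]) :
    s27g_jl_coords 𝔉 h (s27g_jl_mk 𝔉 h a) = a :=
  (LinearEquiv.ofBijective (s27g_jl_mk 𝔉 h) (s27g_jl_mk_bijective 𝔉 h)).symm_apply_apply a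

theorem s27g_jl_elt_coords (h : 𝔉.IsFrame) (f : ↥(s27g_jl_Lam 𝔉 h)) :
    𝔉.elt (s27g_jl_coords 𝔉 h f) = (f : E) :=
  congrArg Subtype.val (s27g_jl_mk_coords 𝔉 h f)

theorem s27g_jl_mk_mul (h : 𝔉.IsFrame) (a b : Fin 𝔉.n → L[X]) :
    s27g_jl_mk 𝔉 h a * s27g_jl_mk 𝔉 h b = s27g_jl_mk 𝔉 h (𝔉.mulCoord a b) :=
  Subtype.ext (s27g_jl_elt_mul 𝔉 h a b)

theorem s27g_jl_coords_mul (h : 𝔉.IsFrame) (f g : ↥(s27g_jl_Lam 𝔉 h)) :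
    s27g_jl_coords 𝔉 h (f * g) =
      𝔉.mulCoord (s27g_jl_coords 𝔉 h f) (s27g_jl_coords 𝔉 h g) := by
  conv_lhs => rw [← s27g_jl_mk_coords 𝔉 h f, ← s27g_jl_mk_coords 𝔉 h g, s27g_jl_mk_mul,
    s27g_jl_coords_mk]

theorem s27g_jl_mk_one (h : 𝔉.IsFrame) : s27g_jl_mk 𝔉 h (s27g_jl_one 𝔉) = 1 :=
  Subtype.ext (s27g_jl_elt_one 𝔉 h)

/-- `x` as an element of `Λ`. -/
def s27g_jl_x (h : 𝔉.IsFrame) : ↥(s27g_jl_Lam 𝔉 h) := s27g_jl_mk 𝔉 h (Pi.single 𝔉.i0 X)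

theorem s27g_jl_x_coe (h : 𝔉.IsFrame) : ((s27g_jl_x 𝔉 h : ↥(s27g_jl_Lam 𝔉 h)) : E) = 𝔉.x := by
  rw [s27g_jl_x, s27g_jl_mk_coe, s27g_jl_elt_C 𝔉 h, aeval_X]

/-- `ω i` as an element of `Λ`. -/
def s27g_jl_ω (h : 𝔉.IsFrame) (i : Fin 𝔉.n) : ↥(s27g_jl_Lam 𝔉 h) :=
  s27g_jl_mk 𝔉 h (Pi.single i 1)

theorem s27g_jl_ω_coe (h : 𝔉.IsFrame) (i : Fin 𝔉.n) :
    ((s27g_jl_ω 𝔉 h i : ↥(s27g_jl_Lam 𝔉 h)) : E) = 𝔉.ω i := by
  rw [s27g_jl_ω, s27g_jl_mk_coe, s27g_jl_elt_single, map_one, one_mul]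

theorem s27g_jl_aeval_x (h : 𝔉.IsFrame) (q : L[X]) :
    aeval (s27g_jl_x 𝔉 h) q = s27g_jl_mk 𝔉 h (Pi.single 𝔉.i0 q) := by
  apply Subtype.ext
  rw [s27g_jl_mk_coe, s27g_jl_elt_C 𝔉 h]
  have := (aeval_algHom_apply (s27g_jl_Lam 𝔉 h).val (s27g_jl_x 𝔉 h) q).symm
  exact this.trans (by rw [Subalgebra.coe_val, s27g_jl_x_coe])

/-- every element of `Λ` is `∑ a_i(x) ω_i` inside `Λ`. -/
theorem s27g_jl_mk_eq_sum (h : 𝔉.IsFrame) (a : Fin 𝔉.n → L[X]) :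
    s27g_jl_mk 𝔉 h a = ∑ i, aeval (s27g_jl_x 𝔉 h) (a i) * s27g_jl_ω 𝔉 h i := by
  apply Subtype.ext
  rw [s27g_jl_mk_coe, AddSubmonoidClass.coe_finsetSum]
  unfold s27g_Frame.elt
  refine Finset.sum_congr rfl fun i _ => ?_
  rw [MulMemClass.coe_mul, s27g_jl_ω_coe, s27g_jl_aeval_x, s27g_jl_mk_coe, s27g_jl_elt_C 𝔉 h]

end Fermat.Agent.S27
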