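/-
S27 / (GOOD), cells L6/L7 support (helper28): the lattice `Λ` of a closed frame is a Dedekind
domain of finite type over `L`.  Prefix `s27g_jl`.
-/
import Mathlib
import Fermat.Agent.S27.Good.JacLattice

set_option autoImplicit false

noncomputable section

namespace Fermat.Agent.S27

open Polynomial
open scoped Classical

variable {L E : Type*} [Field L] [Field E] [Algebra L E] (𝔉 : s27g_Frame L E) (h : 𝔉.IsFrame)

include h

/-- `Λ` as an `L[X]`-algebra, `X ↦ x`. -/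
@[reducible] def s27g_jl_polyAlgebra : Algebra L[X] ↥(s27g_jl_Lam 𝔉 h) :=
  (aeval (s27g_jl_x 𝔉 h) : L[X] →ₐ[L] ↥(s27g_jl_Lam 𝔉 h)).toRingHom.toAlgebra

theorem s27g_jl_poly_smul_def (q : L[X]) (f : ↥(s27g_jl_Lam 𝔉 h)) :
    letI := s27g_jl_polyAlgebra 𝔉 h
    q • f = aeval (s27g_jl_x 𝔉 h) q * f := rfl

/-- the coordinate map is `L[X]`-linear. -/
def s27g_jl_mkPoly :
    letI := s27g_jl_polyAlgebra 𝔉 h
    (Fin 𝔉.n → L[X]) →ₗ[L[X]] ↥(s27g_jl_Lam 𝔉 h) :=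
  letI := s27g_jl_polyAlgebra 𝔉 h
  { toFun := s27g_jl_mk 𝔉 h
    map_add' := fun a b => map_add _ a b
    map_smul' := fun q a => by
      apply Subtype.ext
      rw [RingHom.id_apply, s27g_jl_poly_smul_def, MulMemClass.coe_mul, s27g_jl_mk_coe,
        s27g_jl_mk_coe, s27g_jl_elt_smul, s27g_jl_aeval_x, s27g_jl_mk_coe, s27g_jl_elt_C 𝔉 h] }

theorem s27g_jl_finite :
    letI := s27g_jl_polyAlgebra 𝔉 h
    Module.Finite L[X] ↥(s27g_jl_Lam 𝔉 h) :=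
  letI := s27g_jl_polyAlgebra 𝔉 h
  Module.Finite.of_surjective (s27g_jl_mkPoly 𝔉 h) (s27g_jl_mk_bijective 𝔉 h).2

theorem s27g_jl_isNoetherianRing : IsNoetherianRing ↥(s27g_jl_Lam 𝔉 h) := by
  letI := s27g_jl_polyAlgebra 𝔉 h
  haveI := s27g_jl_finite 𝔉 h
  exact isNoetherian_of_tower L[X] (inferInstance : IsNoetherian L[X] ↥(s27g_jl_Lam 𝔉 h))

theorem s27g_jl_dimensionLEOne : Ring.DimensionLEOne ↥(s27g_jl_Lam 𝔉 h) := by
  letI := s27g_jl_polyAlgebra 𝔉 h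
  haveI := s27g_jl_finite 𝔉 h
  haveI : Algebra.IsIntegral L[X] ↥(s27g_jl_Lam 𝔉 h) := Algebra.IsIntegral.of_finite _ _
  exact Ring.DimensionLEOne.of_isIntegral L[X] ↥(s27g_jl_Lam 𝔉 h)

theorem s27g_jl_finiteType : Algebra.FiniteType L ↥(s27g_jl_Lam 𝔉 h) := by
  letI := s27g_jl_polyAlgebra 𝔉 h
  haveI := s27g_jl_finite 𝔉 h
  haveI : IsScalarTower L L[X] ↥(s27g_jl_Lam 𝔉 h) :=
    IsScalarTower.of_algebraMap_eq fun c => by
      show algebraMap L ↥(s27g_jl_Lam 𝔉 h) c = aeval (s27g_jl_x 𝔉 h) (algebraMap L L[X] c)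
      rw [Polynomial.algebraMap_apply, Algebra.algebraMap_self_apply, aeval_C]
  exact Algebra.FiniteType.trans (inferInstance : Algebra.FiniteType L L[X]) inferInstance

theorem s27g_jl_aeval_x_ne_zero {q : L[X]} (hq : q ≠ 0) : aeval 𝔉.x q ≠ 0 := fun h0 =>
  hq ((transcendental_iff.1 h.x_trans) q h0)

theorem s27g_jl_isFractionRing : IsFractionRing ↥(s27g_jl_Lam 𝔉 h) E := by
  haveI : FaithfulSMul ↥(s27g_jl_Lam 𝔉 h) E :=
    (faithfulSMul_iff_algebraMap_injective _ _).2 Subtype.val_injective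
  refine IsFractionRing.of_field ↥(s27g_jl_Lam 𝔉 h) E fun z => ?_
  obtain ⟨g, a, hg, hga⟩ := h.frac z
  refine ⟨s27g_jl_mk 𝔉 h a, s27g_jl_mk 𝔉 h (Pi.single 𝔉.i0 g), ?_⟩
  show z = 𝔉.elt a / 𝔉.elt (Pi.single 𝔉.i0 g)
  rw [s27g_jl_elt_C 𝔉 h, ← hga, mul_div_cancel_left₀ _ (s27g_jl_aeval_x_ne_zero 𝔉 h hg)]

/-- integrality over `Λ` implies integrality over `L[x]`. -/
theorem s27g_jl_isIntegral_adjoin {f : E} (hf : IsIntegral ↥(s27g_jl_Lam 𝔉 h) f) :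
    IsIntegral (Algebra.adjoin L ({𝔉.x} : Set E)) f := by
  letI := s27g_jl_polyAlgebra 𝔉 h
  haveI := s27g_jl_finite 𝔉 h
  haveI : Algebra.IsIntegral L[X] ↥(s27g_jl_Lam 𝔉 h) := Algebra.IsIntegral.of_finite _ _
  letI : Algebra L[X] E := (aeval 𝔉.x : L[X] →ₐ[L] E).toRingHom.toAlgebra
  haveI : IsScalarTower L[X] ↥(s27g_jl_Lam 𝔉 h) E :=
    IsScalarTower.of_algebraMap_eq fun q => by
      show aeval 𝔉.x q = ((aeval (s27g_jl_x 𝔉 h) q : ↥(s27g_jl_Lam 𝔉 h)) : E)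
      rw [s27g_jl_aeval_x, s27g_jl_mk_coe, s27g_jl_elt_C 𝔉 h]
  obtain ⟨p, hp, hpf⟩ := isIntegral_trans (R := L[X]) (A := ↥(s27g_jl_Lam 𝔉 h)) f hf
  let x₀ : ↥(Algebra.adjoin L ({𝔉.x} : Set E)) :=
    ⟨𝔉.x, Algebra.subset_adjoin (Set.mem_singleton _)⟩
  let φ : L[X] →ₐ[L] ↥(Algebra.adjoin L ({𝔉.x} : Set E)) := aeval x₀
  refine ⟨p.map (φ : L[X] →+* _), hp.map _, ?_⟩
  rw [Polynomial.eval₂_map]
  have hcomp : (algebraMap ↥(Algebra.adjoin L ({𝔉.x} : Set E)) E).comp (φ : L[X] →+* _) =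
      algebraMap L[X] E := by
    ext q
    · show ((φ (C q) : ↥(Algebra.adjoin L ({𝔉.x} : Set E))) : E) = aeval 𝔉.x (C q)
      rw [aeval_C, aeval_C]
      rfl
    · show ((φ X : ↥(Algebra.adjoin L ({𝔉.x} : Set E))) : E) = aeval 𝔉.x X
      rw [aeval_X, aeval_X]
  rw [hcomp]
  exact hpf

/-- **the lattice of a closed frame is a Dedekind domain.** -/
theorem s27g_jl_isDedekindDomain (hc : 𝔉.IsClosed) : IsDedekindDomain ↥(s27g_jl_Lam 𝔉 h) := by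
  haveI := s27g_jl_isFractionRing 𝔉 h
  refine (isDedekindDomain_iff ↥(s27g_jl_Lam 𝔉 h) E).2 ⟨inferInstance, s27g_jl_isNoetherianRing 𝔉 h,
    s27g_jl_dimensionLEOne 𝔉 h, fun {f} hf => ?_⟩
  obtain ⟨a, ha⟩ := hc f (s27g_jl_isIntegral_adjoin 𝔉 h hf)
  exact ⟨s27g_jl_mk 𝔉 h a, ha⟩

end Fermat.Agent.S27
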