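/-
S27 / (GOOD), cell L6 (helper28): a closed frame over an algebraically closed field has a
Jacobian certificate.  Prefix `s27g_jc`.
-/
import Mathlib
import Fermat.Agent.S27.Good.JacDedekind
import Fermat.Agent.S27.Good.JacAbs

set_option autoImplicit false

noncomputable section

namespace Fermat.Agent.S27

open Polynomial
open scoped Classical

variable {L E : Type*} [Field L] [Field E] [Algebra L E] (𝔉 : s27g_Frame L E)

/-! ### The Jacobian matrix has entries in `Λ` -/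

/-- coordinates of the entries of the Jacobian matrix. -/
def s27g_jc_jacC (r : Fin 𝔉.n × Fin 𝔉.n) (l : Fin 𝔉.n) : Fin 𝔉.n → L[X] :=
  if l = 𝔉.i0 then -(fun k => derivative (𝔉.c r.1 r.2 k))
  else (if l = r.1 then Pi.single r.2 1 else 0) + (if l = r.2 then Pi.single r.1 1 else 0)
    - Pi.single 𝔉.i0 (𝔉.c r.1 r.2 l)

theorem s27g_jc_elt_jacC (h : 𝔉.IsFrame) (r : Fin 𝔉.n × Fin 𝔉.n) (l : Fin 𝔉.n) :
    𝔉.elt (s27g_jc_jacC 𝔉 r l) = 𝔉.jac r l := by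
  unfold s27g_jc_jacC s27g_Frame.jac
  by_cases hl : l = 𝔉.i0
  · rw [if_pos hl, if_pos hl, s27g_jl_elt_neg]
    rfl
  · rw [if_neg hl, if_neg hl, s27g_jl_elt_sub, s27g_jl_elt_add, s27g_jl_elt_C 𝔉 h]
    congr 2
    · by_cases h1 : l = r.1
      · rw [if_pos h1, if_pos h1, s27g_jl_elt_single, map_one, one_mul]
      · rw [if_neg h1, if_neg h1, s27g_jl_elt_zero]
    · by_cases h2 : l = r.2
      · rw [if_pos h2, if_pos h2, s27g_jl_elt_single, map_one, one_mul]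
      · rw [if_neg h2, if_neg h2, s27g_jl_elt_zero]

/-- the Jacobian matrix with entries in `Λ`. -/
def s27g_jc_jacΛ (h : 𝔉.IsFrame) : Matrix (Fin 𝔉.n × Fin 𝔉.n) (Fin 𝔉.n) ↥(s27g_jl_Lam 𝔉 h) :=
  fun r l => s27g_jl_mk 𝔉 h (s27g_jc_jacC 𝔉 r l)

theorem s27g_jc_det_coe (h : 𝔉.IsFrame) {m : ℕ} (rows : Fin m → Fin 𝔉.n × Fin 𝔉.n)
    (cols : Fin m → Fin 𝔉.n) :
    ((((s27g_jc_jacΛ 𝔉 h).submatrix rows cols).det : ↥(s27g_jl_Lam 𝔉 h)) : E) =
      (𝔉.jac.submatrix rows cols).det := by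
  have h1 := RingHom.map_det ((s27g_jl_Lam 𝔉 h).val : ↥(s27g_jl_Lam 𝔉 h) →+* E)
    ((s27g_jc_jacΛ 𝔉 h).submatrix rows cols)
  have h2 : ((s27g_jl_Lam 𝔉 h).val : ↥(s27g_jl_Lam 𝔉 h) →+* E).mapMatrix
      ((s27g_jc_jacΛ 𝔉 h).submatrix rows cols) = 𝔉.jac.submatrix rows cols := by
    ext i j
    show ((s27g_jl_mk 𝔉 h (s27g_jc_jacC 𝔉 (rows i) (cols j)) : ↥(s27g_jl_Lam 𝔉 h)) : E) = _
    rw [s27g_jl_mk_coe, s27g_jc_elt_jacC 𝔉 h]
    rfl
  rw [h2] at h1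
  exact h1

/-! ### Evaluation at a point in coordinates -/

section Point

variable (h : 𝔉.IsFrame) (ev : ↥(s27g_jl_Lam 𝔉 h) →ₐ[L] L)

theorem s27g_jc_ev_mk (a : Fin 𝔉.n → L[X]) :
    ev (s27g_jl_mk 𝔉 h a) =
      ∑ i, (a i).eval (ev (s27g_jl_x 𝔉 h)) * ev (s27g_jl_ω 𝔉 h i) := by
  rw [s27g_jl_mk_eq_sum, map_sum]
  refine Finset.sum_congr rfl fun i _ => ?_
  rw [map_mul, ← aeval_algHom_apply, coe_aeval_eq_eval]

theorem s27g_jc_ev_ω_zero : ev (s27g_jl_ω 𝔉 h 𝔉.i0) = 1 := by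
  have : s27g_jl_ω 𝔉 h 𝔉.i0 = 1 := s27g_jl_mk_one 𝔉 h
  rw [this, map_one]

/-- the table relation at the point. -/
theorem s27g_jc_ev_table (i j : Fin 𝔉.n) :
    ∑ k, (𝔉.c i j k).eval (ev (s27g_jl_x 𝔉 h)) * ev (s27g_jl_ω 𝔉 h k) =
      ev (s27g_jl_ω 𝔉 h i) * ev (s27g_jl_ω 𝔉 h j) := by
  rw [← s27g_jc_ev_mk, ← map_mul]
  congr 1
  apply Subtype.ext
  rw [MulMemClass.coe_mul, s27g_jl_ω_coe, s27g_jl_ω_coe, s27g_jl_mk_coe, h.mul i j]
  rfl

end Point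

/-! ### The point derivation attached to a kernel vector -/

/-- the candidate derivation in coordinates, at the point `(a₀, t)`, in the direction `u`. -/
def s27g_jc_dc (a₀ : L) (t u : Fin 𝔉.n → L) : (Fin 𝔉.n → L[X]) →ₗ[L] L where
  toFun a := ∑ i, ((derivative (a i)).eval a₀ * u 𝔉.i0 * t i +
    (a i).eval a₀ * (if i = 𝔉.i0 then 0 else u i))
  map_add' a b := by
    rw [← Finset.sum_add_distrib]
    refine Finset.sum_congr rfl fun i _ => ?_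
    rw [Pi.add_apply, derivative_add, eval_add, eval_add]
    ring
  map_smul' c a := by
    rw [RingHom.id_apply, smul_eq_mul, Finset.mul_sum]
    refine Finset.sum_congr rfl fun i _ => ?_
    rw [Pi.smul_apply, derivative_smul, eval_smul, eval_smul, smul_eq_mul, smul_eq_mul]
    ring

/-- evaluation in coordinates. -/
def s27g_jc_evc (a₀ : L) (t : Fin 𝔉.n → L) : (Fin 𝔉.n → L[X]) →ₗ[L] L where
  toFun a := ∑ i, (a i).eval a₀ * t i
  map_add' a b := by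
    rw [← Finset.sum_add_distrib]
    refine Finset.sum_congr rfl fun i _ => ?_
    rw [Pi.add_apply, eval_add]
    ring
  map_smul' c a := by
    rw [RingHom.id_apply, smul_eq_mul, Finset.mul_sum]
    refine Finset.sum_congr rfl fun i _ => ?_
    rw [Pi.smul_apply, eval_smul, smul_eq_mul]
    ring

theorem s27g_jc_evc_apply (a₀ : L) (t : Fin 𝔉.n → L) (a : Fin 𝔉.n → L[X]) :
    s27g_jc_evc 𝔉 a₀ t a = ∑ i, (a i).eval a₀ * t i := rfl

theorem s27g_jc_dc_apply (a₀ : L) (t u : Fin 𝔉.n → L) (a : Fin 𝔉.n → L[X]) :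
    s27g_jc_dc 𝔉 a₀ t u a = ∑ i, ((derivative (a i)).eval a₀ * u 𝔉.i0 * t i +
      (a i).eval a₀ * (if i = 𝔉.i0 then 0 else u i)) := rfl

theorem s27g_jc_evc_single (a₀ : L) (t : Fin 𝔉.n → L) (i : Fin 𝔉.n) (q : L[X]) :
    s27g_jc_evc 𝔉 a₀ t (Pi.single i q) = q.eval a₀ * t i := by
  rw [s27g_jc_evc_apply, Finset.sum_eq_single i]
  · rw [Pi.single_eq_same]
  · intro j _ hj
    rw [Pi.single_eq_of_ne hj, eval_zero, zero_mul]
  · intro hi
    exact absurd (Finset.mem_univ i) hi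

theorem s27g_jc_dc_single (a₀ : L) (t u : Fin 𝔉.n → L) (i : Fin 𝔉.n) (q : L[X]) :
    s27g_jc_dc 𝔉 a₀ t u (Pi.single i q) = (derivative q).eval a₀ * u 𝔉.i0 * t i +
      q.eval a₀ * (if i = 𝔉.i0 then 0 else u i) := by
  rw [s27g_jc_dc_apply, Finset.sum_eq_single i]
  · rw [Pi.single_eq_same]
  · intro j _ hj
    rw [Pi.single_eq_of_ne hj, derivative_zero, eval_zero, zero_mul, zero_mul, zero_mul,
      add_zero]
  · intro hi
    exact absurd (Finset.mem_univ i) hi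

theorem s27g_jc_evc_smul (a₀ : L) (t : Fin 𝔉.n → L) (q : L[X]) (a : Fin 𝔉.n → L[X]) :
    s27g_jc_evc 𝔉 a₀ t (q • a) = q.eval a₀ * s27g_jc_evc 𝔉 a₀ t a := by
  rw [s27g_jc_evc_apply, s27g_jc_evc_apply, Finset.mul_sum]
  refine Finset.sum_congr rfl fun i _ => ?_
  rw [Pi.smul_apply, smul_eq_mul, eval_mul]
  ring

/-- the product rule for `dc`. -/
theorem s27g_jc_dc_smul (a₀ : L) (t u : Fin 𝔉.n → L) (q : L[X]) (a : Fin 𝔉.n → L[X]) :
    s27g_jc_dc 𝔉 a₀ t u (q • a) =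
      q.eval a₀ * s27g_jc_dc 𝔉 a₀ t u a +
        (derivative q).eval a₀ * u 𝔉.i0 * s27g_jc_evc 𝔉 a₀ t a := by
  rw [s27g_jc_dc_apply, s27g_jc_dc_apply, s27g_jc_evc_apply]
  rw [Finset.mul_sum, Finset.mul_sum, ← Finset.sum_add_distrib]
  refine Finset.sum_congr rfl fun i _ => ?_
  rw [Pi.smul_apply, smul_eq_mul, derivative_mul, eval_add, eval_mul, eval_mul, eval_mul]
  ring

/-- `mulCoord` as a combination of the rows of the multiplication table. -/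
theorem s27g_jc_mulCoord_eq (a b : Fin 𝔉.n → L[X]) :
    𝔉.mulCoord a b = ∑ i, ∑ j, (a i * b j) • (fun k => 𝔉.c i j k) := by
  funext k
  rw [Finset.sum_apply]
  unfold s27g_Consts.mulCoord
  refine Finset.sum_congr rfl fun i _ => ?_
  rw [Finset.sum_apply]
  refine Finset.sum_congr rfl fun j _ => ?_
  rw [Pi.smul_apply, smul_eq_mul]

/-- **Leibniz rule in coordinates**, given the table relation `(T)` and the kernel
relation `(J)` at the point. -/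
theorem s27g_jc_dc_mulCoord (a₀ : L) (t u : Fin 𝔉.n → L)
    (hT : ∀ i j, s27g_jc_evc 𝔉 a₀ t (fun k => 𝔉.c i j k) = t i * t j)
    (hJ : ∀ i j, s27g_jc_dc 𝔉 a₀ t u (fun k => 𝔉.c i j k) =
      t j * (if i = 𝔉.i0 then 0 else u i) + t i * (if j = 𝔉.i0 then 0 else u j))
    (a b : Fin 𝔉.n → L[X]) :
    s27g_jc_dc 𝔉 a₀ t u (𝔉.mulCoord a b) =
      s27g_jc_evc 𝔉 a₀ t a * s27g_jc_dc 𝔉 a₀ t u b +
        s27g_jc_evc 𝔉 a₀ t b * s27g_jc_dc 𝔉 a₀ t u a := by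
  rw [s27g_jc_mulCoord_eq, map_sum]
  simp_rw [map_sum, s27g_jc_dc_smul, hT, hJ]
  simp only [s27g_jc_dc_apply, s27g_jc_evc_apply]
  rw [Finset.sum_mul_sum, Finset.sum_mul_sum]
  rw [Finset.sum_comm (f := fun j i => (b j).eval a₀ * t j *
    ((derivative (a i)).eval a₀ * u 𝔉.i0 * t i +
      (a i).eval a₀ * (if i = 𝔉.i0 then 0 else u i)))]
  rw [← Finset.sum_add_distrib]
  refine Finset.sum_congr rfl fun i _ => ?_
  rw [← Finset.sum_add_distrib]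
  refine Finset.sum_congr rfl fun j _ => ?_
  rw [derivative_mul, eval_add, eval_mul, eval_mul, eval_mul]
  ring

/-! ### The kernel of the Jacobian at a point -/

section Kernel

variable (h : 𝔉.IsFrame) (ev : ↥(s27g_jl_Lam 𝔉 h) →ₐ[L] L)

theorem s27g_jc_ev_mk' (a : Fin 𝔉.n → L[X]) :
    ev (s27g_jl_mk 𝔉 h a) =
      s27g_jc_evc 𝔉 (ev (s27g_jl_x 𝔉 h)) (fun i => ev (s27g_jl_ω 𝔉 h i)) a :=
  s27g_jc_ev_mk 𝔉 h ev a

omit h ev in
/-- the kernel relation `(J)` in coordinates. -/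
theorem s27g_jc_kernel_rel_aux (a₀ : L) (t u : Fin 𝔉.n → L) (ht0 : t 𝔉.i0 = 1) (i j : Fin 𝔉.n)
    (h0 : ∑ l, s27g_jc_evc 𝔉 a₀ t (s27g_jc_jacC 𝔉 (i, j) l) * u l = 0) :
    s27g_jc_dc 𝔉 a₀ t u (fun k => 𝔉.c i j k) =
      t j * (if i = 𝔉.i0 then 0 else u i) + t i * (if j = 𝔉.i0 then 0 else u j) := by
  -- the entries of the Jacobian at the point
  have hF : ∀ l, s27g_jc_evc 𝔉 a₀ t (s27g_jc_jacC 𝔉 (i, j) l) * u l =
      (if l = 𝔉.i0 then -(∑ k, (derivative (𝔉.c i j k)).eval a₀ * t k) * u 𝔉.i0 else 0) +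
        ((if l = i then t j else 0) + (if l = j then t i else 0) - (𝔉.c i j l).eval a₀) *
          (if l = 𝔉.i0 then 0 else u l) := by
    intro l
    unfold s27g_jc_jacC
    dsimp only
    by_cases hl : l = 𝔉.i0
    · rw [if_pos hl, if_pos hl, if_pos hl, mul_zero, add_zero, map_neg, s27g_jc_evc_apply, hl]
    · rw [if_neg hl, if_neg hl, if_neg hl, zero_add, map_sub, map_add, s27g_jc_evc_single]
      rw [ht0, mul_one]
      congr 3
      · by_cases h1 : l = i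
        · rw [if_pos h1, if_pos h1, s27g_jc_evc_single, eval_one, one_mul]
        · rw [if_neg h1, if_neg h1, map_zero]
      · by_cases h2 : l = j
        · rw [if_pos h2, if_pos h2, s27g_jc_evc_single, eval_one, one_mul]
        · rw [if_neg h2, if_neg h2, map_zero]
  simp_rw [hF] at h0
  rw [Finset.sum_add_distrib, Finset.sum_ite_eq' Finset.univ 𝔉.i0, if_pos (Finset.mem_univ _)]
    at h0
  simp_rw [sub_mul, add_mul, ite_mul, zero_mul] at h0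
  rw [Finset.sum_sub_distrib, Finset.sum_add_distrib, Finset.sum_ite_eq' Finset.univ i,
    Finset.sum_ite_eq' Finset.univ j, if_pos (Finset.mem_univ _), if_pos (Finset.mem_univ _)]
    at h0
  rw [s27g_jc_dc_apply, Finset.sum_add_distrib]
  have h1 : ∑ k, (derivative (𝔉.c i j k)).eval a₀ * u 𝔉.i0 * t k =
      (∑ k, (derivative (𝔉.c i j k)).eval a₀ * t k) * u 𝔉.i0 := by
    rw [Finset.sum_mul]
    refine Finset.sum_congr rfl fun k _ => ?_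
    ring
  rw [h1]
  linear_combination (-1 : L) * h0

/-- the kernel relation `(J)`: a vector killed by the Jacobian at the point gives the values of
the candidate derivation on the rows of the multiplication table. -/
theorem s27g_jc_kernel_rel (u : Fin 𝔉.n → L)
    (hu : ((s27g_jc_jacΛ 𝔉 h).map ev).mulVec u = 0) (i j : Fin 𝔉.n) :
    s27g_jc_dc 𝔉 (ev (s27g_jl_x 𝔉 h)) (fun i => ev (s27g_jl_ω 𝔉 h i)) u (fun k => 𝔉.c i j k) =
      ev (s27g_jl_ω 𝔉 h j) * (if i = 𝔉.i0 then 0 else u i) +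
        ev (s27g_jl_ω 𝔉 h i) * (if j = 𝔉.i0 then 0 else u j) := by
  refine s27g_jc_kernel_rel_aux 𝔉 _ _ u (s27g_jc_ev_ω_zero 𝔉 h ev) i j ?_
  have h0 := congrFun hu (i, j)
  rw [Matrix.mulVec, dotProduct, Pi.zero_apply] at h0
  rw [← h0]
  refine Finset.sum_congr rfl fun l _ => ?_
  rw [Matrix.map_apply]
  show _ = ev (s27g_jl_mk 𝔉 h (s27g_jc_jacC 𝔉 (i, j) l)) * u l
  rw [s27g_jc_ev_mk']

/-- the point derivation attached to a kernel vector. -/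
def s27g_jc_D (u : Fin 𝔉.n → L) : ↥(s27g_jl_Lam 𝔉 h) →ₗ[L] L :=
  (s27g_jc_dc 𝔉 (ev (s27g_jl_x 𝔉 h)) (fun i => ev (s27g_jl_ω 𝔉 h i)) u).comp
    (s27g_jl_coords 𝔉 h : ↥(s27g_jl_Lam 𝔉 h) →ₗ[L] (Fin 𝔉.n → L[X]))

theorem s27g_jc_D_apply (u : Fin 𝔉.n → L) (f : ↥(s27g_jl_Lam 𝔉 h)) :
    s27g_jc_D 𝔉 h ev u f =
      s27g_jc_dc 𝔉 (ev (s27g_jl_x 𝔉 h)) (fun i => ev (s27g_jl_ω 𝔉 h i)) u
        (s27g_jl_coords 𝔉 h f) := rfl

theorem s27g_jc_ev_eq_evc (f : ↥(s27g_jl_Lam 𝔉 h)) :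
    ev f = s27g_jc_evc 𝔉 (ev (s27g_jl_x 𝔉 h)) (fun i => ev (s27g_jl_ω 𝔉 h i))
      (s27g_jl_coords 𝔉 h f) := by
  conv_lhs => rw [← s27g_jl_mk_coords 𝔉 h f]
  exact s27g_jc_ev_mk' 𝔉 h ev _

/-- the Leibniz rule. -/
theorem s27g_jc_D_leibniz (u : Fin 𝔉.n → L)
    (hu : ((s27g_jc_jacΛ 𝔉 h).map ev).mulVec u = 0) (f g : ↥(s27g_jl_Lam 𝔉 h)) :
    s27g_jc_D 𝔉 h ev u (f * g) =
      ev f * s27g_jc_D 𝔉 h ev u g + ev g * s27g_jc_D 𝔉 h ev u f := by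
  rw [s27g_jc_D_apply, s27g_jc_D_apply, s27g_jc_D_apply, s27g_jl_coords_mul,
    s27g_jc_ev_eq_evc 𝔉 h ev f, s27g_jc_ev_eq_evc 𝔉 h ev g]
  refine s27g_jc_dc_mulCoord 𝔉 _ _ u (fun i j => ?_) (s27g_jc_kernel_rel 𝔉 h ev u hu) _ _
  exact s27g_jc_ev_table 𝔉 h ev i j

theorem s27g_jc_D_x (u : Fin 𝔉.n → L) : s27g_jc_D 𝔉 h ev u (s27g_jl_x 𝔉 h) = u 𝔉.i0 := by
  rw [s27g_jc_D_apply, s27g_jl_x, s27g_jl_coords_mk, s27g_jc_dc_single, derivative_X, eval_one,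
    one_mul, if_pos rfl, mul_zero, add_zero]
  show u 𝔉.i0 * ev (s27g_jl_ω 𝔉 h 𝔉.i0) = _
  rw [s27g_jc_ev_ω_zero, mul_one]

theorem s27g_jc_D_ω (u : Fin 𝔉.n → L) {l : Fin 𝔉.n} (hl : l ≠ 𝔉.i0) :
    s27g_jc_D 𝔉 h ev u (s27g_jl_ω 𝔉 h l) = u l := by
  rw [s27g_jc_D_apply, s27g_jl_ω, s27g_jl_coords_mk, s27g_jc_dc_single, derivative_one, eval_zero,
    zero_mul, zero_mul, zero_add, eval_one, one_mul, if_neg hl]

theorem s27g_jc_ker_ne_bot : RingHom.ker (ev : ↥(s27g_jl_Lam 𝔉 h) →+* L) ≠ ⊥ := by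
  intro hbot
  have hz : s27g_jl_x 𝔉 h - algebraMap L _ (ev (s27g_jl_x 𝔉 h)) ∈
      RingHom.ker (ev : ↥(s27g_jl_Lam 𝔉 h) →+* L) := by
    rw [RingHom.mem_ker]
    show ev (s27g_jl_x 𝔉 h - algebraMap L _ (ev (s27g_jl_x 𝔉 h))) = 0
    rw [map_sub, AlgHom.commutes]
    simp
  rw [hbot, Ideal.mem_bot] at hz
  have hz' := congrArg (fun z : ↥(s27g_jl_Lam 𝔉 h) => (z : E)) hz
  simp only [AddSubgroupClass.coe_sub, s27g_jl_x_coe, ZeroMemClass.coe_zero] at hz'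
  have h2 : aeval 𝔉.x (X - C (ev (s27g_jl_x 𝔉 h))) = 0 := by
    rw [map_sub, aeval_X, aeval_C]
    exact hz'
  exact s27g_jl_aeval_x_ne_zero 𝔉 h (X_sub_C_ne_zero _) h2

/-- **the kernel of the Jacobian at a point of a Dedekind lattice has dimension at most one.** -/
theorem s27g_jc_finrank_ker [IsDedekindDomain ↥(s27g_jl_Lam 𝔉 h)] :
    Module.finrank L (LinearMap.ker ((s27g_jc_jacΛ 𝔉 h).map ev).mulVecLin) ≤ 1 := by
  obtain ⟨π, hπ⟩ := s27g_jc_deriv_dep ev (s27g_jc_ker_ne_bot 𝔉 h ev)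
  choose cf hcf using hπ
  set cvec : Fin 𝔉.n → L := fun l =>
    if l = 𝔉.i0 then cf (s27g_jl_x 𝔉 h) else cf (s27g_jl_ω 𝔉 h l) with hcvec
  have hle : LinearMap.ker ((s27g_jc_jacΛ 𝔉 h).map ev).mulVecLin ≤ Submodule.span L {cvec} := by
    intro u hu
    rw [LinearMap.mem_ker, Matrix.mulVecLin_apply] at hu
    rw [Submodule.mem_span_singleton]
    refine ⟨s27g_jc_D 𝔉 h ev u π, ?_⟩
    funext l
    rw [Pi.smul_apply, smul_eq_mul, hcvec]
    by_cases hl : l = 𝔉.i0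
    · simp only [if_pos hl]
      rw [mul_comm, ← hcf _ _ (s27g_jc_D_leibniz 𝔉 h ev u hu), s27g_jc_D_x, hl]
    · simp only [if_neg hl]
      rw [mul_comm, ← hcf _ _ (s27g_jc_D_leibniz 𝔉 h ev u hu), s27g_jc_D_ω 𝔉 h ev u hl]
  calc Module.finrank L (LinearMap.ker ((s27g_jc_jacΛ 𝔉 h).map ev).mulVecLin)
      ≤ Module.finrank L (Submodule.span L {cvec}) := Submodule.finrank_mono hle
    _ ≤ 1 := by
      have := finrank_span_le_card (R := L) ({cvec} : Set (Fin 𝔉.n → L))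
      simpa using this

end Kernel

/-! ### The certificate -/

/-- **(GOOD) L6**: a closed frame over an algebraically closed field has a Jacobian
certificate. -/
theorem s27g_jacUnit_of_isClosed [IsAlgClosed L] (h : 𝔉.IsFrame) (hc : 𝔉.IsClosed) :
    𝔉.JacUnit := by
  have := s27g_jl_isDedekindDomain 𝔉 h hc
  have := s27g_jl_finiteType 𝔉 h
  let ι := (Fin (𝔉.n - 1) → Fin 𝔉.n × Fin 𝔉.n) × (Fin (𝔉.n - 1) → Fin 𝔉.n)
  let v : ι → ↥(s27g_jl_Lam 𝔉 h) := fun α => ((s27g_jc_jacΛ 𝔉 h).submatrix α.1 α.2).det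
  have hI : Ideal.span (Set.range v) = ⊤ := by
    by_contra hne
    obtain ⟨𝔪, h𝔪, hle⟩ := Ideal.exists_le_maximal _ hne
    obtain ⟨ev, hev⟩ := s27g_jl_exists_point (L := L) 𝔪
    have hminor : ∀ (rows : Fin (𝔉.n - 1) → Fin 𝔉.n × Fin 𝔉.n) (cols : Fin (𝔉.n - 1) → Fin 𝔉.n),
        ((((s27g_jc_jacΛ 𝔉 h).map ev)).submatrix rows cols).det = 0 := by
      intro rows cols
      have hm : (((s27g_jc_jacΛ 𝔉 h).map ev)).submatrix rows cols =
          (ev : ↥(s27g_jl_Lam 𝔉 h) →+* L).mapMatrix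
            ((s27g_jc_jacΛ 𝔉 h).submatrix rows cols) := by
        ext a b
        rfl
      rw [hm, ← RingHom.map_det]
      have hmem : v (rows, cols) ∈ 𝔪 := hle (Ideal.subset_span ⟨(rows, cols), rfl⟩)
      rw [← hev, RingHom.mem_ker] at hmem
      exact hmem
    obtain ⟨rows, cols, hdet⟩ :=
      s27g_jc_exists_minor _ (s27g_jc_finrank_ker 𝔉 h ev)
    exact hdet (hminor rows cols)
  have h1 : (1 : ↥(s27g_jl_Lam 𝔉 h)) ∈ Ideal.span (Set.range v) := by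
    rw [hI]
    trivial
  obtain ⟨c, hc1⟩ := (Ideal.mem_span_range_iff_exists_fun).1 h1
  refine ⟨ι, inferInstance, fun α => α.1, fun α => α.2,
    fun α => s27g_jl_coords 𝔉 h (c α), fun _ _ _ => trivial, ?_⟩
  have h2 := congrArg (fun z : ↥(s27g_jl_Lam 𝔉 h) => (z : E)) hc1
  simp only [AddSubmonoidClass.coe_finsetSum, MulMemClass.coe_mul, OneMemClass.coe_one] at h2
  rw [← h2]
  refine Finset.sum_congr rfl fun α _ => ?_
  rw [s27g_jl_elt_coords, s27g_jc_det_coe]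

end Fermat.Agent.S27
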