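/-
S27 / (GOOD), assembly, part 1 (helper13): reduction of polynomials and weighted degrees.
Prefix `s27gm_`.
-/
import Mathlib
import Fermat.Agent.S27.Good.Defs

set_option autoImplicit false
set_option linter.style.haveILetI false

noncomputable section

namespace Fermat.Agent.S27

open Polynomial AlgebraicCurve IsLocalRing IntermediateField Fermat.Agent.JT3
open scoped Classical

variable {K : Type*} [Field K]

theorem s27gm_resElt_of_mem (𝒪 : ValuationSubring K) {a : K} (ha : a ∈ 𝒪) :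
    s27g_resElt 𝒪 a = residue ↥𝒪 ⟨a, ha⟩ := by
  unfold s27g_resElt
  rw [dif_pos ha]

theorem s27gm_resElt_zero (𝒪 : ValuationSubring K) : s27g_resElt 𝒪 (0 : K) = 0 := by
  rw [s27gm_resElt_of_mem 𝒪 (zero_mem 𝒪)]
  exact map_zero (residue ↥𝒪)

theorem s27gm_redPoly_coeff (𝒪 : ValuationSubring K) (q : K[X]) (m : ℕ) :
    (s27g_redPoly 𝒪 q).coeff m = s27g_resElt 𝒪 (q.coeff m) := by
  unfold s27g_redPoly
  rw [finsetSum_coeff]
  simp only [coeff_monomial]
  rw [Finset.sum_ite_eq']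
  split_ifs with h
  · rfl
  · rw [notMem_support_iff.mp h, s27gm_resElt_zero]

theorem s27gm_redPoly_natDegree_le (𝒪 : ValuationSubring K) (q : K[X]) :
    (s27g_redPoly 𝒪 q).natDegree ≤ q.natDegree := by
  rw [natDegree_le_iff_coeff_eq_zero]
  intro m hm
  rw [s27gm_redPoly_coeff, coeff_eq_zero_of_natDegree_lt hm, s27gm_resElt_zero]

theorem s27gm_redPoly_zero (𝒪 : ValuationSubring K) : s27g_redPoly 𝒪 (0 : K[X]) = 0 := by
  ext m
  rw [s27gm_redPoly_coeff, coeff_zero, coeff_zero, s27gm_resElt_zero]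

/-- lifting a polynomial over the residue field, with the same degree. -/
theorem s27gm_exists_lift (𝒪 : ValuationSubring K) (q : (ResidueField ↥𝒪)[X]) :
    ∃ Q : K[X], (∀ m, Q.coeff m ∈ 𝒪) ∧ s27g_redPoly 𝒪 Q = q ∧ Q.natDegree = q.natDegree ∧
      (q = 0 → Q = 0) := by
  by_cases hq : q = 0
  · refine ⟨0, fun m => by rw [coeff_zero]; exact zero_mem 𝒪, ?_, ?_, fun _ => rfl⟩
    · rw [hq, s27gm_redPoly_zero]
    · rw [hq]
      rfl
  have hlift : q ∈ lifts (residue ↥𝒪) :=
    (lifts_iff_coeff_lifts q).mpr fun n => residue_surjective (q.coeff n)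
  obtain ⟨Q₀, hQ₀, hdeg⟩ := exists_natDegree_eq_of_mem_lifts hlift
  refine ⟨Q₀.map 𝒪.subtype, ?_, ?_, ?_, fun h => absurd h hq⟩
  · intro m
    rw [coeff_map]
    exact (Q₀.coeff m).2
  · ext m
    rw [s27gm_redPoly_coeff, coeff_map, ← hQ₀, coeff_map]
    exact s27gm_resElt_of_mem 𝒪 (Q₀.coeff m).2
  · rw [natDegree_map_eq_of_injective (Subtype.val_injective), hdeg]

end Fermat.Agent.S27
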