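/-
S27 / (GOOD), cell L3 (helper24), part 1: coefficientwise reduction of polynomials over a valuation
ring and the REDUCED structure constants.  Prefix `s27g_or`.

`𝒪` a valuation subring of `K`, `R = ↥𝒪`, `k = ResidueField 𝒪`.

* `s27g_or_redPoly_map`   : `s27g_redPoly 𝒪 (p.map 𝒪.subtype) = p.map (residue 𝒪)`;
* `s27g_or_exists_lift`   : a polynomial with coefficients in `𝒪` is `p.map 𝒪.subtype`;
* `s27g_or_redConsts`     : the reduced structure constants (`= (𝔉.red h).tos27g_Consts`);
* `s27g_or_redConsts_isGraded` : they are graded as soon as the constants have coefficients in `𝒪` and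
  the leading structure constants have unit leading coefficients.
-/
import Mathlib
import Fermat.Agent.S27.Good.Defs

set_option autoImplicit false

noncomputable section

namespace Fermat.Agent.S27

open Polynomial IsLocalRing
open scoped Classical

variable {K : Type*} [Field K] (𝒪 : ValuationSubring K)

/-- reduction of an integral polynomial. -/
theorem s27g_or_redPoly_map (p : (↥𝒪)[X]) :
    s27g_redPoly 𝒪 (p.map 𝒪.subtype) = p.map (residue ↥𝒪) := by
  have hinj : Function.Injective 𝒪.subtype := Subtype.val_injective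
  unfold s27g_redPoly
  rw [Polynomial.support_map_of_injective p hinj]
  conv_rhs => rw [p.as_sum_support, Polynomial.map_sum]
  refine Finset.sum_congr rfl fun m _ => ?_
  rw [Polynomial.coeff_map, Polynomial.map_monomial]
  congr 1
  unfold s27g_resElt
  have hmem : (𝒪.subtype (p.coeff m)) ∈ 𝒪 := (p.coeff m).2
  rw [dif_pos hmem]
  rfl

/-- lifting a polynomial with integral coefficients. -/
theorem s27g_or_exists_lift {q : K[X]} (hq : ∀ m, q.coeff m ∈ 𝒪) :
    ∃ p : (↥𝒪)[X], p.map 𝒪.subtype = q := by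
  have : q ∈ Polynomial.lifts 𝒪.subtype := by
    rw [Polynomial.lifts_iff_coeff_lifts]
    intro m
    exact ⟨⟨q.coeff m, hq m⟩, rfl⟩
  exact (Polynomial.mem_lifts q).mp this

theorem s27g_or_map_subtype_injective :
    Function.Injective (Polynomial.map (𝒪.subtype : ↥𝒪 →+* K)) :=
  Polynomial.map_injective _ Subtype.val_injective

/-- the reduction of an integral polynomial is zero iff all its coefficients are non-units. -/
theorem s27g_or_map_residue_eq_zero_iff (p : (↥𝒪)[X]) :
    p.map (residue ↥𝒪) = 0 ↔ ∀ m, ((p.coeff m : ↥𝒪) : K) ∈ 𝒪.nonunits := by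
  rw [Polynomial.ext_iff]
  refine forall_congr' fun m => ?_
  rw [Polynomial.coeff_map, Polynomial.coeff_zero, residue_eq_zero_iff,
    ValuationSubring.coe_mem_nonunits_iff]

/-- a coefficient which is a unit, for an integral polynomial with nonzero reduction. -/
theorem s27g_or_exists_unit_coeff {p : (↥𝒪)[X]} (hp : p.map (residue ↥𝒪) ≠ 0) :
    ∃ m, IsUnit (p.coeff m) := by
  by_contra h
  rw [not_exists] at h
  apply hp
  ext m
  rw [Polynomial.coeff_map, Polynomial.coeff_zero, residue_eq_zero_iff]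
  exact (mem_maximalIdeal _).mpr (h m)

theorem s27g_or_natDegree_redPoly_le (q : K[X]) :
    (s27g_redPoly 𝒪 q).natDegree ≤ q.natDegree := by
  unfold s27g_redPoly
  refine Polynomial.natDegree_sum_le_of_forall_le _ _ fun m hm => ?_
  exact (Polynomial.natDegree_monomial_le _).trans (Polynomial.le_natDegree_of_mem_supp m hm)

theorem s27g_or_redPoly_zero : s27g_redPoly 𝒪 (0 : K[X]) = 0 := by
  unfold s27g_redPoly
  simp

theorem s27g_or_redPoly_one : s27g_redPoly 𝒪 (1 : K[X]) = 1 := by
  have := s27g_or_redPoly_map 𝒪 (1 : (↥𝒪)[X])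
  simpa using this

theorem s27g_or_redPoly_ne_zero {q : K[X]} (h : s27g_redPoly 𝒪 q ≠ 0) : q ≠ 0 := by
  rintro rfl
  exact h (s27g_or_redPoly_zero 𝒪)

/-- the reduction keeps the degree when the leading coefficient is a unit. -/
theorem s27g_or_redPoly_lead {q : K[X]} (hq : ∀ m, q.coeff m ∈ 𝒪) (hq0 : q ≠ 0)
    (hl : q.leadingCoeff⁻¹ ∈ 𝒪) :
    s27g_redPoly 𝒪 q ≠ 0 ∧ (s27g_redPoly 𝒪 q).natDegree = q.natDegree := by
  obtain ⟨p, rfl⟩ := s27g_or_exists_lift 𝒪 hq
  have hinj : Function.Injective 𝒪.subtype := Subtype.val_injective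
  rw [s27g_or_redPoly_map]
  rw [Polynomial.leadingCoeff_map_of_injective hinj] at hl
  rw [Polynomial.natDegree_map_eq_of_injective hinj]
  have hp0 : p ≠ 0 := by
    rintro rfl
    exact hq0 (by simp)
  have hlc0 : p.leadingCoeff ≠ 0 := Polynomial.leadingCoeff_ne_zero.mpr hp0
  have hunit : IsUnit p.leadingCoeff := by
    refine IsUnit.of_mul_eq_one ⟨(𝒪.subtype p.leadingCoeff)⁻¹, hl⟩ (Subtype.ext ?_)
    have h0 : (𝒪.subtype p.leadingCoeff) ≠ 0 := fun h => hlc0 (Subtype.ext h)
    simp only [ValuationSubring.subtype_apply] at h0 ⊢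
    change (p.leadingCoeff : K) * (p.leadingCoeff : K)⁻¹ = 1
    exact mul_inv_cancel₀ h0
  have hres : residue ↥𝒪 p.leadingCoeff ≠ 0 := by
    rw [Ne, residue_eq_zero_iff]
    exact fun h => (mem_maximalIdeal _).mp h hunit
  have hdeg : (p.map (residue ↥𝒪)).natDegree = p.natDegree :=
    Polynomial.natDegree_map_of_leadingCoeff_ne_zero _ hres
  refine ⟨?_, hdeg⟩
  intro h0
  have : (p.map (residue ↥𝒪)).coeff p.natDegree = 0 := by rw [h0]; simp
  rw [Polynomial.coeff_map] at this
  exact hres this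

/-- the reduced structure constants. -/
def s27g_or_redConsts (C : s27g_Consts K) : s27g_Consts (ResidueField ↥𝒪) where
  n := C.n
  hn := C.hn
  ρ := C.ρ
  c := fun i j k => s27g_redPoly 𝒪 (C.c i j k)
  κ := C.κ

/-- **the reduced constants are graded.** -/
theorem s27g_or_redConsts_isGraded (C : s27g_Consts K) (hC : C.IsGraded)
    (hcoef : ∀ i j k m, (C.c i j k).coeff m ∈ 𝒪)
    (hlead : ∀ i j, (C.c i j (C.κ i j)).leadingCoeff⁻¹ ∈ 𝒪) :
    (s27g_or_redConsts 𝒪 C).IsGraded where
  ρ_zero := hC.ρ_zero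
  ρ_mod := hC.ρ_mod
  one_mul := by
    intro (j : Fin C.n) (k : Fin C.n)
    change s27g_redPoly 𝒪 (C.c C.i0 j k) = if k = j then 1 else 0
    rw [hC.one_mul j k]
    split_ifs
    · exact s27g_or_redPoly_one 𝒪
    · exact s27g_or_redPoly_zero 𝒪
  comm := by
    intro (i : Fin C.n) (j : Fin C.n) (k : Fin C.n)
    change s27g_redPoly 𝒪 (C.c i j k) = s27g_redPoly 𝒪 (C.c j i k)
    rw [hC.comm i j k]
  lead_ne := by
    intro (i : Fin C.n) (j : Fin C.n)
    exact (s27g_or_redPoly_lead 𝒪 (hcoef i j _) (hC.lead_ne i j) (hlead i j)).1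
  lead_deg := by
    intro (i : Fin C.n) (j : Fin C.n)
    change C.n * (s27g_redPoly 𝒪 (C.c i j (C.κ i j))).natDegree + C.ρ (C.κ i j) = C.ρ i + C.ρ j
    rw [(s27g_or_redPoly_lead 𝒪 (hcoef i j _) (hC.lead_ne i j) (hlead i j)).2]
    exact hC.lead_deg i j
  low := by
    intro (i : Fin C.n) (j : Fin C.n) (k : Fin C.n) hk hne
    change C.n * (s27g_redPoly 𝒪 (C.c i j k)).natDegree + C.ρ k < C.ρ i + C.ρ j
    have h1 := hC.low i j k hk (s27g_or_redPoly_ne_zero 𝒪 hne)
    have h2 := s27g_or_natDegree_redPoly_le 𝒪 (C.c i j k)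
    calc C.n * (s27g_redPoly 𝒪 (C.c i j k)).natDegree + C.ρ k
        ≤ C.n * (C.c i j k).natDegree + C.ρ k := by gcongr
      _ < _ := h1

end Fermat.Agent.S27
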