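/-
S27 / (GOOD), cell L3 (helper24), part 2: the Gauss valuation ring of an integral frame.
Prefix `s27g_or`.

`𝔉` a frame of `F / K`, integral at the valuation ring `𝒪` of `K`; `R = ↥𝒪`, `k = ResidueField 𝒪`.
`Λ = ⊕ R[x] ω_i` (coordinates `a : Fin n → R[X]`, element `s27g_or_E a`, reduction `s27g_or_bar a`).
`Λ / 𝔪 Λ` is a domain (`s27g_or_dom`, from `s27g_wdeg_mulCoord` for the reduced constants), and
`𝒱 := { E a / E b : bar b ≠ 0 }` is a valuation ring of `F` with `s27g_Ortho 𝔉 𝒪 𝒱`.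

Main results:
* `s27g_or_elt_mul`          : `elt a * elt b = elt (mulCoord a b)` in any frame;
* `s27g_or_exists_primitive` : `a ≠ 0 ⟹ a = c • a₀` with `a₀` integral of nonzero reduction;
* `s27g_exists_ortho`        : **L3**.
-/
import Mathlib
import Fermat.Agent.S27.Good.Defs
import Fermat.Agent.S27.Good.WDeg
import Fermat.Agent.S27.Good.OrthoRed

set_option autoImplicit false

noncomputable section

namespace Fermat.Agent.S27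

open Polynomial IsLocalRing
open scoped Classical

variable {K F : Type*} [Field K] [Field F] [Algebra K F]

/-! ### generic algebra of `elt` -/

section elt

variable (𝔉 : s27g_Frame K F)

theorem s27g_or_elt_zero : 𝔉.elt 0 = 0 := by
  unfold s27g_Frame.elt
  simp

theorem s27g_or_elt_add (a b : Fin 𝔉.n → K[X]) : 𝔉.elt (a + b) = 𝔉.elt a + 𝔉.elt b := by
  unfold s27g_Frame.elt
  rw [← Finset.sum_add_distrib]
  refine Finset.sum_congr rfl fun i _ => ?_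
  rw [Pi.add_apply, map_add, add_mul]

theorem s27g_or_elt_neg (a : Fin 𝔉.n → K[X]) : 𝔉.elt (-a) = -𝔉.elt a := by
  unfold s27g_Frame.elt
  rw [← Finset.sum_neg_distrib]
  refine Finset.sum_congr rfl fun i _ => ?_
  rw [Pi.neg_apply, map_neg, neg_mul]

theorem s27g_or_elt_smul (s : K) (a : Fin 𝔉.n → K[X]) :
    𝔉.elt (fun i => C s * a i) = algebraMap K F s * 𝔉.elt a := by
  unfold s27g_Frame.elt
  rw [Finset.mul_sum]
  refine Finset.sum_congr rfl fun i _ => ?_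
  rw [map_mul, aeval_C, mul_assoc]

theorem s27g_or_elt_single (hω : 𝔉.ω 𝔉.i0 = 1) (g : K[X]) :
    𝔉.elt (Pi.single 𝔉.i0 g) = aeval 𝔉.x g := by
  unfold s27g_Frame.elt
  rw [Finset.sum_eq_single 𝔉.i0]
  · rw [Pi.single_eq_same, hω, mul_one]
  · intro i _ hi
    rw [Pi.single_eq_of_ne hi, map_zero, zero_mul]
  · intro h
    exact absurd (Finset.mem_univ _) h

/-- **multiplication in a frame.** -/
theorem s27g_or_elt_mul
    (hmul : ∀ i j, 𝔉.ω i * 𝔉.ω j = ∑ k, aeval 𝔉.x (𝔉.c i j k) * 𝔉.ω k)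
    (a b : Fin 𝔉.n → K[X]) : 𝔉.elt a * 𝔉.elt b = 𝔉.elt (𝔉.mulCoord a b) := by
  unfold s27g_Frame.elt s27g_Consts.mulCoord
  rw [Finset.sum_mul_sum]
  have key : ∀ i j, (aeval 𝔉.x (a i) * 𝔉.ω i) * (aeval 𝔉.x (b j) * 𝔉.ω j) =
      ∑ k, aeval 𝔉.x (a i * b j * 𝔉.c i j k) * 𝔉.ω k := by
    intro i j
    rw [mul_mul_mul_comm, hmul, Finset.mul_sum]
    refine Finset.sum_congr rfl fun k _ => ?_
    rw [map_mul, map_mul]
    ring
  simp_rw [key, map_sum, Finset.sum_mul]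
  calc ∑ i, ∑ j, ∑ k, aeval 𝔉.x (a i * b j * 𝔉.c i j k) * 𝔉.ω k
      = ∑ i, ∑ k, ∑ j, aeval 𝔉.x (a i * b j * 𝔉.c i j k) * 𝔉.ω k :=
        Finset.sum_congr rfl fun i _ => Finset.sum_comm
    _ = ∑ k, ∑ i, ∑ j, aeval 𝔉.x (a i * b j * 𝔉.c i j k) * 𝔉.ω k := Finset.sum_comm

end elt

/-! ### primitive decomposition -/

/-- **primitive decomposition**: a nonzero coordinate vector is a constant times an integral vector
of nonzero reduction. -/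
theorem s27g_or_exists_primitive (𝒪 : ValuationSubring K) {n : ℕ} (a : Fin n → K[X])
    (ha : a ≠ 0) :
    ∃ c : K, c ≠ 0 ∧ ∃ a₀ : Fin n → (↥𝒪)[X],
      (∀ i, a i = C c * (a₀ i).map 𝒪.subtype) ∧
        (fun i => (a₀ i).map (residue ↥𝒪)) ≠ 0 := by
  set S : Finset (Σ _ : Fin n, ℕ) := Finset.univ.sigma fun i => (a i).support with hS
  have hne : S.Nonempty := by
    by_contra hem
    rw [Finset.not_nonempty_iff_eq_empty] at hem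
    apply ha
    funext i
    rw [Pi.zero_apply, ← Polynomial.support_eq_empty, Finset.eq_empty_iff_forall_notMem]
    intro m hm
    have : (⟨i, m⟩ : Σ _ : Fin n, ℕ) ∈ S := Finset.mem_sigma.mpr ⟨Finset.mem_univ _, hm⟩
    rw [hem] at this
    exact absurd this (Finset.notMem_empty _)
  obtain ⟨p, hpS, hpmax⟩ :=
    Finset.exists_max_image S (fun q => 𝒪.valuation ((a q.1).coeff q.2)) hne
  set c : K := (a p.1).coeff p.2 with hc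
  have hc0 : c ≠ 0 := Polynomial.mem_support_iff.mp (Finset.mem_sigma.mp hpS).2
  have hv0 : 𝒪.valuation c ≠ 0 := (Valuation.ne_zero_iff _).mpr hc0
  have hmem : ∀ i m, c⁻¹ * (a i).coeff m ∈ 𝒪 := by
    intro i m
    by_cases h0 : (a i).coeff m = 0
    · rw [h0, mul_zero]
      exact zero_mem _
    · have hin : (⟨i, m⟩ : Σ _ : Fin n, ℕ) ∈ S :=
        Finset.mem_sigma.mpr ⟨Finset.mem_univ _, Polynomial.mem_support_iff.mpr h0⟩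
      have hle : 𝒪.valuation ((a i).coeff m) ≤ 𝒪.valuation c := hpmax _ hin
      rw [← ValuationSubring.valuation_le_one_iff, map_mul, map_inv₀, mul_comm]
      exact mul_inv_le_one_of_le₀ hle zero_le
  have hlift : ∀ i, ∃ q : (↥𝒪)[X], q.map 𝒪.subtype = C c⁻¹ * a i := by
    intro i
    refine s27g_or_exists_lift 𝒪 fun m => ?_
    rw [Polynomial.coeff_C_mul]
    exact hmem i m
  choose a₀ ha₀ using hlift
  refine ⟨c, hc0, a₀, fun i => ?_, fun hzero => ?_⟩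
  · rw [ha₀ i, ← mul_assoc, ← C_mul, mul_inv_cancel₀ hc0, C_1, one_mul]
  · have h1 : ((a₀ p.1).map (residue ↥𝒪)).coeff p.2 = 0 := by
      have := congrFun hzero p.1
      simp only [Pi.zero_apply] at this
      rw [this, Polynomial.coeff_zero]
    rw [Polynomial.coeff_map] at h1
    have h2 : (a₀ p.1).coeff p.2 = 1 := by
      apply Subtype.ext
      have := congrArg (fun q : K[X] => q.coeff p.2) (ha₀ p.1)
      simp only [Polynomial.coeff_map, Polynomial.coeff_C_mul] at this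
      rw [← hc, inv_mul_cancel₀ hc0] at this
      exact this
    rw [h2, map_one] at h1
    exact one_ne_zero h1

/-! ### integral coordinates -/

section integral

variable (𝒪 : ValuationSubring K) (𝔉 : s27g_Frame K F)

/-- the element `∑ a_i(x) ω_i` of an integral coordinate vector. -/
def s27g_or_E (a : Fin 𝔉.n → (↥𝒪)[X]) : F := 𝔉.elt fun i => (a i).map 𝒪.subtype

/-- the reduction of an integral coordinate vector. -/
def s27g_or_bar (a : Fin 𝔉.n → (↥𝒪)[X]) : Fin 𝔉.n → (ResidueField ↥𝒪)[X] :=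
  fun i => (a i).map (residue ↥𝒪)

/-- the product of integral coordinate vectors, for integral structure constants `c'`. -/
def s27g_or_mulR (c' : Fin 𝔉.n → Fin 𝔉.n → Fin 𝔉.n → (↥𝒪)[X])
    (a b : Fin 𝔉.n → (↥𝒪)[X]) (k : Fin 𝔉.n) : (↥𝒪)[X] :=
  ∑ i, ∑ j, a i * b j * c' i j k

theorem s27g_or_E_zero : s27g_or_E 𝒪 𝔉 0 = 0 := by
  unfold s27g_or_E
  simp only [Pi.zero_apply, Polynomial.map_zero]
  exact s27g_or_elt_zero 𝔉

theorem s27g_or_E_add (a b : Fin 𝔉.n → (↥𝒪)[X]) :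
    s27g_or_E 𝒪 𝔉 (a + b) = s27g_or_E 𝒪 𝔉 a + s27g_or_E 𝒪 𝔉 b := by
  unfold s27g_or_E
  rw [← s27g_or_elt_add]
  congr 1
  funext i
  simp only [Pi.add_apply, Polynomial.map_add]

theorem s27g_or_E_neg (a : Fin 𝔉.n → (↥𝒪)[X]) :
    s27g_or_E 𝒪 𝔉 (-a) = -s27g_or_E 𝒪 𝔉 a := by
  unfold s27g_or_E
  rw [← s27g_or_elt_neg]
  congr 1
  funext i
  simp only [Pi.neg_apply, Polynomial.map_neg]

theorem s27g_or_E_smul (r : ↥𝒪) (a : Fin 𝔉.n → (↥𝒪)[X]) :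
    s27g_or_E 𝒪 𝔉 (fun i => C r * a i) = algebraMap K F (r : K) * s27g_or_E 𝒪 𝔉 a := by
  unfold s27g_or_E
  rw [← s27g_or_elt_smul]
  congr 1
  funext i
  simp only [Polynomial.map_mul, Polynomial.map_C]
  rfl

theorem s27g_or_E_single (hω : 𝔉.ω 𝔉.i0 = 1) (g : (↥𝒪)[X]) :
    s27g_or_E 𝒪 𝔉 (Pi.single 𝔉.i0 g) = aeval 𝔉.x (g.map 𝒪.subtype) := by
  unfold s27g_or_E
  rw [← s27g_or_elt_single 𝔉 hω]
  congr 1
  funext i
  by_cases hi : i = 𝔉.i0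
  · subst hi
    simp only [Pi.single_eq_same]
  · simp only [Pi.single_eq_of_ne hi, Polynomial.map_zero]

theorem s27g_or_E_one (hω : 𝔉.ω 𝔉.i0 = 1) : s27g_or_E 𝒪 𝔉 (Pi.single 𝔉.i0 1) = 1 := by
  rw [s27g_or_E_single 𝒪 𝔉 hω, Polynomial.map_one, map_one]

theorem s27g_or_E_single_C (hω : 𝔉.ω 𝔉.i0 = 1) (r : ↥𝒪) :
    s27g_or_E 𝒪 𝔉 (Pi.single 𝔉.i0 (C r)) = algebraMap K F (r : K) := by
  rw [s27g_or_E_single 𝒪 𝔉 hω, Polynomial.map_C, aeval_C]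
  rfl

theorem s27g_or_E_eq_zero (h : 𝔉.IsFrame) {a : Fin 𝔉.n → (↥𝒪)[X]}
    (ha : s27g_or_E 𝒪 𝔉 a = 0) : a = 0 := by
  have := h.indep _ ha
  funext i
  have hi := congrFun this i
  simp only [Pi.zero_apply] at hi ⊢
  exact s27g_or_map_subtype_injective 𝒪 (by rw [hi, Polynomial.map_zero])

theorem s27g_or_E_injective (h : 𝔉.IsFrame) {a b : Fin 𝔉.n → (↥𝒪)[X]}
    (hab : s27g_or_E 𝒪 𝔉 a = s27g_or_E 𝒪 𝔉 b) : a = b := by
  have h0 : s27g_or_E 𝒪 𝔉 (a + -b) = 0 := by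
    rw [s27g_or_E_add, s27g_or_E_neg, hab, add_neg_cancel]
  have := s27g_or_E_eq_zero 𝒪 𝔉 h h0
  exact add_neg_eq_zero.mp this

variable {𝒪 𝔉} in
theorem s27g_or_E_mul (h : 𝔉.IsFrame) {c' : Fin 𝔉.n → Fin 𝔉.n → Fin 𝔉.n → (↥𝒪)[X]}
    (hc' : ∀ i j k, (c' i j k).map 𝒪.subtype = 𝔉.c i j k) (a b : Fin 𝔉.n → (↥𝒪)[X]) :
    s27g_or_E 𝒪 𝔉 a * s27g_or_E 𝒪 𝔉 b = s27g_or_E 𝒪 𝔉 (s27g_or_mulR 𝒪 𝔉 c' a b) := by
  unfold s27g_or_E
  rw [s27g_or_elt_mul 𝔉 h.mul]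
  congr 1
  funext k
  unfold s27g_Consts.mulCoord s27g_or_mulR
  simp only [Polynomial.map_sum, Polynomial.map_mul, hc']

theorem s27g_or_bar_zero : s27g_or_bar 𝒪 𝔉 0 = 0 := by
  funext i
  simp only [s27g_or_bar, Pi.zero_apply, Polynomial.map_zero]

theorem s27g_or_bar_single_one_ne : s27g_or_bar 𝒪 𝔉 (Pi.single 𝔉.i0 1) ≠ 0 := by
  intro h
  have := congrFun h 𝔉.i0
  simp only [s27g_or_bar, Pi.single_eq_same, Polynomial.map_one, Pi.zero_apply] at this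
  exact one_ne_zero this

theorem s27g_or_bar_smul (r : ↥𝒪) (a : Fin 𝔉.n → (↥𝒪)[X]) :
    s27g_or_bar 𝒪 𝔉 (fun i => C r * a i) = fun i => C (residue ↥𝒪 r) * s27g_or_bar 𝒪 𝔉 a i := by
  funext i
  simp only [s27g_or_bar, Polynomial.map_mul, Polynomial.map_C]

theorem s27g_or_bar_smul_of_nonunit {r : ↥𝒪} (hr : (r : K) ∈ 𝒪.nonunits)
    (a : Fin 𝔉.n → (↥𝒪)[X]) : s27g_or_bar 𝒪 𝔉 (fun i => C r * a i) = 0 := by
  rw [s27g_or_bar_smul]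
  have : residue ↥𝒪 r = 0 := by
    rw [residue_eq_zero_iff]
    exact ValuationSubring.coe_mem_nonunits_iff.mp hr
  funext i
  rw [this, C_0, zero_mul, Pi.zero_apply]

variable {𝒪 𝔉} in
theorem s27g_or_bar_mulR {c' : Fin 𝔉.n → Fin 𝔉.n → Fin 𝔉.n → (↥𝒪)[X]}
    (hc' : ∀ i j k, (c' i j k).map 𝒪.subtype = 𝔉.c i j k) (a b : Fin 𝔉.n → (↥𝒪)[X]) :
    s27g_or_bar 𝒪 𝔉 (s27g_or_mulR 𝒪 𝔉 c' a b) =
      (s27g_or_redConsts 𝒪 𝔉.tos27g_Consts).mulCoord (s27g_or_bar 𝒪 𝔉 a) (s27g_or_bar 𝒪 𝔉 b) := by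
  funext k
  change (∑ i, ∑ j, a i * b j * c' i j k).map (residue ↥𝒪) =
    ∑ i : Fin 𝔉.n, ∑ j : Fin 𝔉.n,
      (a i).map (residue ↥𝒪) * (b j).map (residue ↥𝒪) * s27g_redPoly 𝒪 (𝔉.c i j k)
  simp only [Polynomial.map_sum, Polynomial.map_mul]
  refine Finset.sum_congr rfl fun i _ => Finset.sum_congr rfl fun j _ => ?_
  rw [← hc', s27g_or_redPoly_map]

variable {𝒪 𝔉} in
/-- **`Λ / 𝔪 Λ` is a domain.** -/
theorem s27g_or_dom (h : 𝔉.IsFrame) (hI : 𝔉.IsIntegralAt 𝒪)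
    {c' : Fin 𝔉.n → Fin 𝔉.n → Fin 𝔉.n → (↥𝒪)[X]}
    (hc' : ∀ i j k, (c' i j k).map 𝒪.subtype = 𝔉.c i j k) {a b : Fin 𝔉.n → (↥𝒪)[X]}
    (ha : s27g_or_bar 𝒪 𝔉 a ≠ 0) (hb : s27g_or_bar 𝒪 𝔉 b ≠ 0) :
    s27g_or_bar 𝒪 𝔉 (s27g_or_mulR 𝒪 𝔉 c' a b) ≠ 0 := by
  rw [s27g_or_bar_mulR hc']
  exact (s27g_wdeg_mulCoord (s27g_or_redConsts 𝒪 𝔉.tos27g_Consts)
    (s27g_or_redConsts_isGraded 𝒪 _ h.graded hI.coeff_mem hI.lead_inv_mem) ha hb).1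

variable {𝒪 𝔉} in
theorem s27g_or_bar_mulR_zero_right {c' : Fin 𝔉.n → Fin 𝔉.n → Fin 𝔉.n → (↥𝒪)[X]}
    (hc' : ∀ i j k, (c' i j k).map 𝒪.subtype = 𝔉.c i j k) (a : Fin 𝔉.n → (↥𝒪)[X])
    {b : Fin 𝔉.n → (↥𝒪)[X]} (hb : s27g_or_bar 𝒪 𝔉 b = 0) :
    s27g_or_bar 𝒪 𝔉 (s27g_or_mulR 𝒪 𝔉 c' a b) = 0 := by
  rw [s27g_or_bar_mulR hc', hb]
  funext k
  change ∑ i : Fin 𝔉.n, ∑ j : Fin 𝔉.n,
      s27g_or_bar 𝒪 𝔉 a i * (0 : Fin 𝔉.n → (ResidueField ↥𝒪)[X]) j *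
        s27g_redPoly 𝒪 (𝔉.c i j k) = 0
  simp

end integral

/-! ### the Gauss valuation ring -/

section gauss

variable (𝒪 : ValuationSubring K) (𝔉 : s27g_Frame K F)

/-- the underlying set of the Gauss valuation ring: the fractions `E a / E b` with `b` of nonzero
reduction. -/
def s27g_or_carrier : Set F :=
  {f | ∃ a b : Fin 𝔉.n → (↥𝒪)[X],
    s27g_or_bar 𝒪 𝔉 b ≠ 0 ∧ s27g_or_E 𝒪 𝔉 b * f = s27g_or_E 𝒪 𝔉 a}

variable {𝒪 𝔉}

theorem s27g_or_exists_cR (hI : 𝔉.IsIntegralAt 𝒪) :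
    ∃ c' : Fin 𝔉.n → Fin 𝔉.n → Fin 𝔉.n → (↥𝒪)[X],
      ∀ i j k, (c' i j k).map 𝒪.subtype = 𝔉.c i j k := by
  choose c' hc' using fun i j k => s27g_or_exists_lift 𝒪 (hI.coeff_mem i j k)
  exact ⟨c', hc'⟩

theorem s27g_or_E_ne_zero (h : 𝔉.IsFrame) {b : Fin 𝔉.n → (↥𝒪)[X]}
    (hb : s27g_or_bar 𝒪 𝔉 b ≠ 0) : s27g_or_E 𝒪 𝔉 b ≠ 0 := by
  intro h0
  apply hb
  rw [s27g_or_E_eq_zero 𝒪 𝔉 h h0, s27g_or_bar_zero]

theorem s27g_or_one_mem : (1 : F) ∈ s27g_or_carrier 𝒪 𝔉 :=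
  ⟨Pi.single 𝔉.i0 1, Pi.single 𝔉.i0 1, s27g_or_bar_single_one_ne 𝒪 𝔉, mul_one _⟩

theorem s27g_or_zero_mem : (0 : F) ∈ s27g_or_carrier 𝒪 𝔉 :=
  ⟨0, Pi.single 𝔉.i0 1, s27g_or_bar_single_one_ne 𝒪 𝔉, by rw [mul_zero, s27g_or_E_zero]⟩

theorem s27g_or_mul_mem (h : 𝔉.IsFrame) (hI : 𝔉.IsIntegralAt 𝒪) {f g : F}
    (hf : f ∈ s27g_or_carrier 𝒪 𝔉) (hg : g ∈ s27g_or_carrier 𝒪 𝔉) :
    f * g ∈ s27g_or_carrier 𝒪 𝔉 := by
  obtain ⟨c', hc'⟩ := s27g_or_exists_cR hI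
  obtain ⟨a, b, hb, hab⟩ := hf
  obtain ⟨a', b', hb', hab'⟩ := hg
  refine ⟨s27g_or_mulR 𝒪 𝔉 c' a a', s27g_or_mulR 𝒪 𝔉 c' b b', s27g_or_dom h hI hc' hb hb', ?_⟩
  rw [← s27g_or_E_mul h hc', ← s27g_or_E_mul h hc', ← hab, ← hab']
  ring

theorem s27g_or_add_mem (h : 𝔉.IsFrame) (hI : 𝔉.IsIntegralAt 𝒪) {f g : F}
    (hf : f ∈ s27g_or_carrier 𝒪 𝔉) (hg : g ∈ s27g_or_carrier 𝒪 𝔉) :
    f + g ∈ s27g_or_carrier 𝒪 𝔉 := by
  obtain ⟨c', hc'⟩ := s27g_or_exists_cR hI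
  obtain ⟨a, b, hb, hab⟩ := hf
  obtain ⟨a', b', hb', hab'⟩ := hg
  refine ⟨s27g_or_mulR 𝒪 𝔉 c' b' a + s27g_or_mulR 𝒪 𝔉 c' b a', s27g_or_mulR 𝒪 𝔉 c' b b',
    s27g_or_dom h hI hc' hb hb', ?_⟩
  rw [s27g_or_E_add, ← s27g_or_E_mul h hc', ← s27g_or_E_mul h hc', ← s27g_or_E_mul h hc',
    ← hab, ← hab']
  ring

theorem s27g_or_neg_mem {f : F} (hf : f ∈ s27g_or_carrier 𝒪 𝔉) :
    -f ∈ s27g_or_carrier 𝒪 𝔉 := by
  obtain ⟨a, b, hb, hab⟩ := hf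
  exact ⟨-a, b, hb, by rw [mul_neg, hab, s27g_or_E_neg]⟩

theorem s27g_or_elt_eq_smul (𝔉 : s27g_Frame K F) {a : Fin 𝔉.n → K[X]} {c : K}
    {a₀ : Fin 𝔉.n → (↥𝒪)[X]} (haa₀ : ∀ i, a i = C c * (a₀ i).map 𝒪.subtype) :
    𝔉.elt a = algebraMap K F c * s27g_or_E 𝒪 𝔉 a₀ := by
  rw [show a = fun i => C c * (a₀ i).map 𝒪.subtype from funext haa₀]
  exact s27g_or_elt_smul 𝔉 c _

theorem s27g_or_mem_or_inv_mem (h : 𝔉.IsFrame) (f : F) :
    f ∈ s27g_or_carrier 𝒪 𝔉 ∨ f⁻¹ ∈ s27g_or_carrier 𝒪 𝔉 := by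
  by_cases hf : f = 0
  · left
    rw [hf]
    exact s27g_or_zero_mem
  obtain ⟨g, a, hg, hga⟩ := h.frac f
  have hg' : aeval 𝔉.x g ≠ 0 := fun h0 => hg (transcendental_iff.mp h.x_trans g h0)
  have ha : a ≠ 0 := by
    rintro rfl
    rw [s27g_or_elt_zero] at hga
    exact (mul_ne_zero hg' hf) hga
  have hgs : (Pi.single 𝔉.i0 g : Fin 𝔉.n → K[X]) ≠ 0 := by
    intro h0
    apply hg
    have := congrFun h0 𝔉.i0
    simpa using this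
  obtain ⟨ca, hca, a₀, haa₀, ha₀⟩ := s27g_or_exists_primitive 𝒪 a ha
  obtain ⟨cb, hcb, b₀, hbb₀, hb₀⟩ := s27g_or_exists_primitive 𝒪 (Pi.single 𝔉.i0 g) hgs
  have hEa : 𝔉.elt a = algebraMap K F ca * s27g_or_E 𝒪 𝔉 a₀ := s27g_or_elt_eq_smul 𝔉 haa₀
  have hEb : aeval 𝔉.x g = algebraMap K F cb * s27g_or_E 𝒪 𝔉 b₀ := by
    rw [← s27g_or_elt_single 𝔉 h.ω_zero]
    exact s27g_or_elt_eq_smul 𝔉 hbb₀
  rw [hEa, hEb] at hga
  have hcaF : algebraMap K F ca ≠ 0 := (_root_.map_ne_zero _).mpr hca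
  have hcbF : algebraMap K F cb ≠ 0 := (_root_.map_ne_zero _).mpr hcb
  rcases 𝒪.mem_or_inv_mem (ca / cb) with hmem | hmem
  · left
    refine ⟨fun i => C ⟨ca / cb, hmem⟩ * a₀ i, b₀, hb₀, ?_⟩
    rw [s27g_or_E_smul]
    change s27g_or_E 𝒪 𝔉 b₀ * f = algebraMap K F (ca / cb) * s27g_or_E 𝒪 𝔉 a₀
    rw [map_div₀, div_mul_eq_mul_div, eq_div_iff hcbF, ← hga]
    ring
  · right
    refine ⟨fun i => C ⟨(ca / cb)⁻¹, hmem⟩ * b₀ i, a₀, ha₀, ?_⟩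
    rw [s27g_or_E_smul]
    change s27g_or_E 𝒪 𝔉 a₀ * f⁻¹ = algebraMap K F (ca / cb)⁻¹ * s27g_or_E 𝒪 𝔉 b₀
    rw [inv_div, map_div₀, div_mul_eq_mul_div, eq_div_iff hcaF]
    calc s27g_or_E 𝒪 𝔉 a₀ * f⁻¹ * algebraMap K F ca
        = (algebraMap K F ca * s27g_or_E 𝒪 𝔉 a₀) * f⁻¹ := by ring
      _ = (algebraMap K F cb * s27g_or_E 𝒪 𝔉 b₀ * f) * f⁻¹ := by rw [hga]
      _ = algebraMap K F cb * s27g_or_E 𝒪 𝔉 b₀ := by
        rw [mul_assoc, mul_inv_cancel₀ hf, mul_one]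

/-- **the Gauss valuation ring of an integral frame.** -/
def s27g_or_V (h : 𝔉.IsFrame) (hI : 𝔉.IsIntegralAt 𝒪) : ValuationSubring F where
  carrier := s27g_or_carrier 𝒪 𝔉
  mul_mem' := s27g_or_mul_mem h hI
  one_mem' := s27g_or_one_mem
  add_mem' := s27g_or_add_mem h hI
  zero_mem' := s27g_or_zero_mem
  neg_mem' := s27g_or_neg_mem
  mem_or_inv_mem' := s27g_or_mem_or_inv_mem h

theorem s27g_or_mem_V (h : 𝔉.IsFrame) (hI : 𝔉.IsIntegralAt 𝒪) (f : F) :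
    f ∈ s27g_or_V h hI ↔ ∃ a b : Fin 𝔉.n → (↥𝒪)[X],
      s27g_or_bar 𝒪 𝔉 b ≠ 0 ∧ s27g_or_E 𝒪 𝔉 b * f = s27g_or_E 𝒪 𝔉 a := Iff.rfl

/-- an element of `K` outside `𝒪` has its inverse in the maximal ideal. -/
theorem s27g_or_inv_mem_nonunits {c : K} (hc : c ∉ 𝒪) : c⁻¹ ∈ 𝒪.nonunits := by
  rw [ValuationSubring.mem_nonunits_iff, map_inv₀]
  have h1 : 1 < 𝒪.valuation c := by
    rw [← not_le, ValuationSubring.valuation_le_one_iff]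
    exact hc
  exact inv_lt_one_of_one_lt₀ h1

/-- **(mem)**: `elt a ∈ 𝒱` iff the coefficients of `a` are integral. -/
theorem s27g_or_mem_iff (h : 𝔉.IsFrame) (hI : 𝔉.IsIntegralAt 𝒪) (a : Fin 𝔉.n → K[X]) :
    𝔉.elt a ∈ s27g_or_V h hI ↔ s27g_coeffsIn 𝒪 a := by
  constructor
  · rintro ⟨a', b, hb, hab⟩
    by_cases ha : a = 0
    · subst ha
      intro i m
      simp only [Pi.zero_apply, Polynomial.coeff_zero]
      exact zero_mem _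
    obtain ⟨c', hc'⟩ := s27g_or_exists_cR hI
    obtain ⟨c, hc, a₀, haa₀, ha₀⟩ := s27g_or_exists_primitive 𝒪 a ha
    have hEa : 𝔉.elt a = algebraMap K F c * s27g_or_E 𝒪 𝔉 a₀ := s27g_or_elt_eq_smul 𝔉 haa₀
    by_cases hcO : c ∈ 𝒪
    · intro i m
      rw [haa₀ i, Polynomial.coeff_C_mul, Polynomial.coeff_map]
      exact 𝒪.mul_mem _ _ hcO (Subtype.coe_prop _)
    · exfalso
      have hcinv : c⁻¹ ∈ 𝒪 := (𝒪.mem_or_inv_mem c).resolve_left hcO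
      have hnonunit : ((⟨c⁻¹, hcinv⟩ : ↥𝒪) : K) ∈ 𝒪.nonunits := s27g_or_inv_mem_nonunits hcO
      have hcF : algebraMap K F c ≠ 0 := (_root_.map_ne_zero _).mpr hc
      have h1 : s27g_or_E 𝒪 𝔉 (s27g_or_mulR 𝒪 𝔉 c' b a₀) =
          s27g_or_E 𝒪 𝔉 (fun i => C (⟨c⁻¹, hcinv⟩ : ↥𝒪) * a' i) := by
        rw [← s27g_or_E_mul h hc', s27g_or_E_smul, ← hab, hEa]
        change _ = algebraMap K F c⁻¹ * _
        rw [map_inv₀]
        field_simp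
      have h2 := s27g_or_E_injective 𝒪 𝔉 h h1
      have h3 : s27g_or_bar 𝒪 𝔉 (s27g_or_mulR 𝒪 𝔉 c' b a₀) = 0 := by
        rw [h2]
        exact s27g_or_bar_smul_of_nonunit 𝒪 𝔉 hnonunit a'
      exact s27g_or_dom h hI hc' hb ha₀ h3
  · intro hco
    choose a' ha' using fun i => s27g_or_exists_lift 𝒪 (hco i)
    refine ⟨a', Pi.single 𝔉.i0 1, s27g_or_bar_single_one_ne 𝒪 𝔉, ?_⟩
    rw [s27g_or_E_one 𝒪 𝔉 h.ω_zero, one_mul]
    unfold s27g_or_E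
    congr 1
    funext i
    exact (ha' i).symm

/-- **(max)**: `elt a ∈ 𝔪_𝒱` iff the coefficients of `a` lie in `𝔪_𝒪`. -/
theorem s27g_or_mem_nonunits_iff (h : 𝔉.IsFrame) (hI : 𝔉.IsIntegralAt 𝒪)
    (a : Fin 𝔉.n → K[X]) :
    𝔉.elt a ∈ (s27g_or_V h hI).nonunits ↔ s27g_coeffsInMax 𝒪 a := by
  obtain ⟨c', hc'⟩ := s27g_or_exists_cR hI
  constructor
  · intro hnu
    have hmemV : 𝔉.elt a ∈ s27g_or_V h hI := ValuationSubring.nonunits_subset hnu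
    have hco := (s27g_or_mem_iff h hI a).mp hmemV
    choose a₁ ha₁ using fun i => s27g_or_exists_lift 𝒪 (hco i)
    have hEa : 𝔉.elt a = s27g_or_E 𝒪 𝔉 a₁ := by
      unfold s27g_or_E
      congr 1
      funext i
      exact (ha₁ i).symm
    by_contra hnot
    have hbar : s27g_or_bar 𝒪 𝔉 a₁ ≠ 0 := by
      intro h0
      apply hnot
      intro i m
      have := (s27g_or_map_residue_eq_zero_iff 𝒪 (a₁ i)).mp (congrFun h0 i) m
      rw [← ha₁ i, Polynomial.coeff_map]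
      exact this
    have hne : 𝔉.elt a ≠ 0 := by
      rw [hEa]
      exact s27g_or_E_ne_zero h hbar
    have hinv : (𝔉.elt a)⁻¹ ∈ s27g_or_V h hI :=
      ⟨Pi.single 𝔉.i0 1, a₁, hbar, by
        rw [← hEa, s27g_or_E_one 𝒪 𝔉 h.ω_zero, mul_inv_cancel₀ hne]⟩
    rw [ValuationSubring.mem_nonunits_iff] at hnu
    rw [← ValuationSubring.valuation_le_one_iff, map_inv₀] at hinv
    have hpos : 0 < (s27g_or_V h hI).valuation (𝔉.elt a) :=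
      lt_of_le_of_ne zero_le ((Valuation.ne_zero_iff _).mpr hne).symm
    exact absurd ((inv_le_one₀ hpos).mp hinv) (not_le.mpr hnu)
  · intro hco
    have hco' : s27g_coeffsIn 𝒪 a := fun i m => ValuationSubring.nonunits_subset (hco i m)
    choose a₁ ha₁ using fun i => s27g_or_exists_lift 𝒪 (hco' i)
    have hEa : 𝔉.elt a = s27g_or_E 𝒪 𝔉 a₁ := by
      unfold s27g_or_E
      congr 1
      funext i
      exact (ha₁ i).symm
    have hbar : s27g_or_bar 𝒪 𝔉 a₁ = 0 := by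
      funext i
      refine (s27g_or_map_residue_eq_zero_iff 𝒪 (a₁ i)).mpr fun m => ?_
      have := hco i m
      rw [← ha₁ i, Polynomial.coeff_map] at this
      exact this
    rw [ValuationSubring.mem_nonunits_iff]
    by_contra hnot
    rw [not_lt] at hnot
    have hne : 𝔉.elt a ≠ 0 := by
      intro h0
      rw [h0, map_zero] at hnot
      exact absurd hnot (not_le.mpr zero_lt_one)
    have hinv : (𝔉.elt a)⁻¹ ∈ s27g_or_V h hI := by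
      rw [← ValuationSubring.valuation_le_one_iff, map_inv₀]
      exact inv_le_one_of_one_le₀ hnot
    obtain ⟨a', b, hb, hab⟩ := hinv
    have h1 : s27g_or_E 𝒪 𝔉 b = s27g_or_E 𝒪 𝔉 (s27g_or_mulR 𝒪 𝔉 c' a' a₁) := by
      rw [← s27g_or_E_mul h hc', ← hab, ← hEa, mul_assoc, inv_mul_cancel₀ hne, mul_one]
    have h2 := s27g_or_E_injective 𝒪 𝔉 h h1
    apply hb
    rw [h2]
    exact s27g_or_bar_mulR_zero_right hc' a' hbar

/-- **(lies)**: `𝒱 ∩ K = 𝒪`. -/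
theorem s27g_or_lies (h : 𝔉.IsFrame) (hI : 𝔉.IsIntegralAt 𝒪) :
    s27g_Over 𝒪 (s27g_or_V h hI) := by
  intro c
  have h1 : algebraMap K F c = 𝔉.elt (Pi.single 𝔉.i0 (C c)) := by
    rw [s27g_or_elt_single 𝔉 h.ω_zero, aeval_C]
  rw [h1, s27g_or_mem_iff]
  constructor
  · intro hco
    have := hco 𝔉.i0 0
    simpa using this
  · intro hc i m
    by_cases hi : i = 𝔉.i0
    · subst hi
      rw [Pi.single_eq_same, Polynomial.coeff_C]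
      split_ifs
      · exact hc
      · exact zero_mem _
    · rw [Pi.single_eq_of_ne hi, Polynomial.coeff_zero]
      exact zero_mem _

end gauss

/-- **GOOD / L3**: an integral frame has an orthonormal (Gauss) valuation ring. -/
theorem s27g_exists_ortho (𝔉 : s27g_Frame K F) (h : 𝔉.IsFrame) {𝒪 : ValuationSubring K}
    (hI : 𝔉.IsIntegralAt 𝒪) : ∃ 𝒱 : ValuationSubring F, s27g_Ortho 𝔉 𝒪 𝒱 :=
  ⟨s27g_or_V h hI, s27g_or_lies h hI, s27g_or_mem_iff h hI, s27g_or_mem_nonunits_iff h hI⟩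

end Fermat.Agent.S27
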