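/-
S27 / (GOOD) cell L4b (helper10): for an orthonormal frame `(𝔉, 𝒪, 𝒱)`, reduction modulo `𝒱`
preserves the dimension of every finite-dimensional `K`-subspace of `F`.
A finite-dimensional `W` lies in `⊕_{i, m < N} K x^m ω_i / g(x)` with `g(x)` a unit of `𝒱`;
in these coordinates `𝒱` is `𝒪^ι`, the maximal ideal is `𝔪^ι`, and helper8's `s27l_finrank_red`
(Red/LinRed.lean) applies.  Prefix `s27g_od_` (main statement: `s27g_ortho_dim`).
-/
import Fermat.Agent.S27.Good.OrthoValue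
import Fermat.Agent.S27.Red.LinRed

set_option autoImplicit false

noncomputable section

namespace Fermat.Agent.S27

open Polynomial IsLocalRing Module

variable {K F : Type*} [Field K] [Field F] [Algebra K F]

/-! ### Common denominators -/

theorem s27g_od_exists_denom (𝔉 : s27g_Frame K F) (h : 𝔉.IsFrame) (S : Finset F) :
    ∃ g : K[X], g ≠ 0 ∧ ∀ f ∈ S, ∃ a : Fin 𝔉.n → K[X], aeval 𝔉.x g * f = 𝔉.elt a := by
  classical
  induction S using Finset.induction_on with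
  | empty => exact ⟨1, one_ne_zero, by simp⟩
  | insert f S hfS ih =>
    obtain ⟨g, hg, hS⟩ := ih
    obtain ⟨g1, a1, hg1, h1⟩ := h.frac f
    refine ⟨g * g1, mul_ne_zero hg hg1, ?_⟩
    intro f' hf'
    rcases Finset.mem_insert.1 hf' with rfl | hf'
    · refine ⟨fun i => g * a1 i, ?_⟩
      rw [s27g_ov_elt_polymul, ← h1, map_mul, mul_assoc]
    · obtain ⟨a, ha⟩ := hS f' hf'
      refine ⟨fun i => g1 * a i, ?_⟩
      rw [s27g_ov_elt_polymul, ← ha, map_mul]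
      ring

/-- a common denominator which is a unit of `𝒱`. -/
theorem s27g_od_exists_denom_unit (𝔉 : s27g_Frame K F) (h : 𝔉.IsFrame) {𝒪 : ValuationSubring K}
    {𝒱 : ValuationSubring F} (hO : s27g_Ortho 𝔉 𝒪 𝒱) (S : Finset F) :
    ∃ g : K[X], aeval 𝔉.x g ≠ 0 ∧ aeval 𝔉.x g ∈ 𝒱 ∧ (aeval 𝔉.x g)⁻¹ ∈ 𝒱 ∧
      ∀ f ∈ S, ∃ a : Fin 𝔉.n → K[X], aeval 𝔉.x g * f = 𝔉.elt a := by
  classical
  obtain ⟨g0, hg0, hS⟩ := s27g_od_exists_denom 𝔉 h S
  have hg1 : (Pi.single 𝔉.i0 g0 : Fin 𝔉.n → K[X]) ≠ 0 := by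
    intro h0
    apply hg0
    have := congrFun h0 𝔉.i0
    simpa using this
  obtain ⟨c, hc, h1, h2⟩ := s27g_ov_exists_unit hO _ hg1
  rw [s27g_ov_elt_single_i0 𝔉 h] at h1 h2
  have hev : aeval 𝔉.x (C c * g0) = algebraMap K F c * aeval 𝔉.x g0 := by
    rw [map_mul, aeval_C]
  refine ⟨C c * g0, ?_, ?_, ?_, ?_⟩
  · rw [hev]
    exact mul_ne_zero ((_root_.map_ne_zero _).2 hc) (s27g_ov_aeval_ne_zero 𝔉 h hg0)
  · rw [hev]; exact h1
  · rw [hev]; exact h2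
  · intro f hf
    obtain ⟨a, ha⟩ := hS f hf
    refine ⟨c • a, ?_⟩
    rw [s27g_ov_elt_smul, ← ha, hev, mul_assoc]

/-! ### Coefficient tables -/

section tables

variable {R : Type*} [Semiring R] {n : ℕ} (N : ℕ)

/-- the vector of polynomials with coefficient table `v`. -/
def s27g_od_poly (v : Fin n × Fin N → R) (i : Fin n) : R[X] :=
  ∑ m : Fin N, monomial (m : ℕ) (v (i, m))

theorem s27g_od_poly_coeff (v : Fin n × Fin N → R) (i : Fin n) (m : Fin N) :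
    (s27g_od_poly N v i).coeff m = v (i, m) := by
  classical
  rw [s27g_od_poly, finsetSum_coeff, Finset.sum_eq_single m]
  · rw [coeff_monomial, if_pos rfl]
  · intro m' _ hm'
    rw [coeff_monomial, if_neg]
    exact fun h => hm' (Fin.ext h)
  · intro h
    exact absurd (Finset.mem_univ m) h

theorem s27g_od_poly_coeff_of_le (v : Fin n × Fin N → R) (i : Fin n) (m : ℕ) (hm : N ≤ m) :
    (s27g_od_poly N v i).coeff m = 0 := by
  classical
  rw [s27g_od_poly, finsetSum_coeff]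
  refine Finset.sum_eq_zero fun m' _ => ?_
  rw [coeff_monomial, if_neg]
  have := m'.2
  omega

/-- the coefficient table of a vector of polynomials. -/
def s27g_od_table (a : Fin n → R[X]) : Fin n × Fin N → R := fun p => (a p.1).coeff p.2

theorem s27g_od_poly_table (a : Fin n → R[X]) (ha : ∀ i, (a i).natDegree < N) :
    s27g_od_poly N (s27g_od_table N a) = a := by
  funext i
  ext m
  by_cases hm : m < N
  · exact s27g_od_poly_coeff N _ i ⟨m, hm⟩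
  · rw [s27g_od_poly_coeff_of_le N _ i m (not_lt.1 hm),
      coeff_eq_zero_of_natDegree_lt (lt_of_lt_of_le (ha i) (not_lt.1 hm))]

end tables

theorem s27g_od_coeffsIn_poly (𝒪 : ValuationSubring K) {n : ℕ} (N : ℕ) (v : Fin n × Fin N → K) :
    s27g_coeffsIn 𝒪 (s27g_od_poly N v) ↔ ∀ p, v p ∈ 𝒪 := by
  constructor
  · intro h p
    have := h p.1 p.2
    rwa [s27g_od_poly_coeff] at this
  · intro h i m
    by_cases hm : m < N
    · have := s27g_od_poly_coeff N v i ⟨m, hm⟩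
      rw [this]
      exact h _
    · rw [s27g_od_poly_coeff_of_le N v i m (not_lt.1 hm)]
      exact 𝒪.zero_mem

theorem s27g_od_coeffsInMax_poly (𝒪 : ValuationSubring K) {n : ℕ} (N : ℕ)
    (v : Fin n × Fin N → K) :
    s27g_coeffsInMax 𝒪 (s27g_od_poly N v) ↔ ∀ p, v p ∈ 𝒪.nonunits := by
  constructor
  · intro h p
    have := h p.1 p.2
    rwa [s27g_od_poly_coeff] at this
  · intro h i m
    by_cases hm : m < N
    · have := s27g_od_poly_coeff N v i ⟨m, hm⟩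
      rw [this]
      exact h _
    · rw [s27g_od_poly_coeff_of_le N v i m (not_lt.1 hm)]
      exact 𝒪.nonunits.zero_mem

/-! ### The coordinate map -/

/-- the vectors `x^m ω_i d`. -/
def s27g_od_b (𝔉 : s27g_Frame K F) (N : ℕ) (d : F) (p : Fin 𝔉.n × Fin N) : F :=
  𝔉.x ^ (p.2 : ℕ) * 𝔉.ω p.1 * d

/-- the coordinate map `K^ι → F`, `v ↦ (∑ v_{i,m} x^m ω_i) d`. -/
def s27g_od_T (𝔉 : s27g_Frame K F) (N : ℕ) (d : F) : (Fin 𝔉.n × Fin N → K) →ₗ[K] F :=
  Fintype.linearCombination K (s27g_od_b 𝔉 N d)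

theorem s27g_od_T_apply (𝔉 : s27g_Frame K F) (N : ℕ) (d : F) (v : Fin 𝔉.n × Fin N → K) :
    s27g_od_T 𝔉 N d v = 𝔉.elt (s27g_od_poly N v) * d := by
  rw [s27g_od_T, Fintype.linearCombination_apply, Fintype.sum_prod_type, s27g_Frame.elt,
    Finset.sum_mul]
  refine Finset.sum_congr rfl fun i _ => ?_
  rw [s27g_od_poly, map_sum, Finset.sum_mul, Finset.sum_mul]
  refine Finset.sum_congr rfl fun m _ => ?_
  rw [aeval_monomial, s27g_od_b, Algebra.smul_def]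
  ring

theorem s27g_od_T_injective (𝔉 : s27g_Frame K F) (h : 𝔉.IsFrame) (N : ℕ) {d : F} (hd : d ≠ 0) :
    Function.Injective (s27g_od_T 𝔉 N d) := by
  rw [← LinearMap.ker_eq_bot, Submodule.eq_bot_iff]
  intro v hv
  rw [LinearMap.mem_ker, s27g_od_T_apply] at hv
  have h0 : 𝔉.elt (s27g_od_poly N v) = 0 := by
    rcases mul_eq_zero.1 hv with h0 | h0
    · exact h0
    · exact absurd h0 hd
  have h1 := h.indep _ h0
  funext p
  have := s27g_od_poly_coeff N v p.1 p.2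
  rw [h1] at this
  simpa using this.symm

/-- everything with denominator `g` and numerator of degree `< N` is in the range. -/
theorem s27g_od_mem_range (𝔉 : s27g_Frame K F) (N : ℕ) {g : K[X]} (hg : aeval 𝔉.x g ≠ 0)
    {f : F} {a : Fin 𝔉.n → K[X]} (hfa : aeval 𝔉.x g * f = 𝔉.elt a)
    (ha : ∀ i, (a i).natDegree < N) :
    f ∈ LinearMap.range (s27g_od_T 𝔉 N (aeval 𝔉.x g)⁻¹) := by
  refine ⟨s27g_od_table N a, ?_⟩
  rw [s27g_od_T_apply, s27g_od_poly_table N a ha, ← hfa]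
  field_simp

theorem s27g_od_nonunits_mul {𝒱 : ValuationSubring F} {z u : F} (hz : z ∈ 𝒱.nonunits)
    (hu : u ∈ 𝒱) : z * u ∈ 𝒱.nonunits := by
  obtain ⟨hz1, hz2⟩ := ValuationSubring.mem_nonunits_iff_exists_mem_maximalIdeal.1 hz
  refine ValuationSubring.mem_nonunits_iff_exists_mem_maximalIdeal.2
    ⟨𝒱.mul_mem _ _ hz1 hu, ?_⟩
  exact Ideal.mul_mem_right (⟨u, hu⟩ : ↥𝒱) _ hz2

section integrality

variable {𝔉 : s27g_Frame K F} {𝒪 : ValuationSubring K} {𝒱 : ValuationSubring F}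

theorem s27g_od_T_mem_iff (hO : s27g_Ortho 𝔉 𝒪 𝒱) (N : ℕ) {d : F} (hd0 : d ≠ 0)
    (hd : d ∈ 𝒱) (hd' : d⁻¹ ∈ 𝒱) (v : Fin 𝔉.n × Fin N → K) :
    s27g_od_T 𝔉 N d v ∈ 𝒱 ↔ ∀ p, v p ∈ 𝒪 := by
  rw [s27g_od_T_apply, ← s27g_od_coeffsIn_poly, ← hO.mem]
  constructor
  · intro h
    have := 𝒱.mul_mem _ _ h hd'
    rwa [mul_inv_cancel_right₀ hd0] at this
  · intro h
    exact 𝒱.mul_mem _ _ h hd

theorem s27g_od_T_mem_nonunits_iff (hO : s27g_Ortho 𝔉 𝒪 𝒱) (N : ℕ) {d : F} (hd0 : d ≠ 0)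
    (hd : d ∈ 𝒱) (hd' : d⁻¹ ∈ 𝒱) (v : Fin 𝔉.n × Fin N → K) :
    s27g_od_T 𝔉 N d v ∈ 𝒱.nonunits ↔ ∀ p, v p ∈ 𝒪.nonunits := by
  rw [s27g_od_T_apply, ← s27g_od_coeffsInMax_poly, ← hO.max]
  constructor
  · intro h
    have := s27g_od_nonunits_mul h hd'
    rwa [mul_inv_cancel_right₀ hd0] at this
  · intro h
    exact s27g_od_nonunits_mul h hd

theorem s27g_od_coeffsIn_single (𝒪 : ValuationSubring K) {n : ℕ} (i : Fin n) (q : K[X])
    (hq : ∀ m, q.coeff m ∈ 𝒪) : s27g_coeffsIn 𝒪 (Pi.single i q : Fin n → K[X]) := by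
  classical
  intro j m
  by_cases hj : j = i
  · subst hj
    rw [Pi.single_eq_same]
    exact hq m
  · rw [Pi.single_eq_of_ne hj, coeff_zero]
    exact 𝒪.zero_mem

theorem s27g_od_x_mem (h : 𝔉.IsFrame) (hO : s27g_Ortho 𝔉 𝒪 𝒱) : 𝔉.x ∈ 𝒱 := by
  have h1 := (hO.mem (Pi.single 𝔉.i0 X)).2 (s27g_od_coeffsIn_single 𝒪 _ _ (by
    intro m
    rw [coeff_X]
    split_ifs
    · exact 𝒪.one_mem
    · exact 𝒪.zero_mem))
  rwa [s27g_ov_elt_single_i0 𝔉 h, aeval_X] at h1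

theorem s27g_od_ω_mem (hO : s27g_Ortho 𝔉 𝒪 𝒱) (i : Fin 𝔉.n) : 𝔉.ω i ∈ 𝒱 := by
  have h1 := (hO.mem (Pi.single i 1)).2 (s27g_od_coeffsIn_single 𝒪 _ _ (by
    intro m
    rw [coeff_one]
    split_ifs
    · exact 𝒪.one_mem
    · exact 𝒪.zero_mem))
  rwa [s27g_ov_elt_single, map_one, one_mul] at h1

end integrality

/-! ### The abstract core -/

section core

variable {k : Type*} {Fb : Type*} [Field k] [Field Fb] [Algebra k Fb]
variable {𝔉 : s27g_Frame K F} {𝒪 : ValuationSubring K} {𝒱 : ValuationSubring F}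

/-- the reduced vectors `x̄^m ω̄_i d̄`. -/
def s27g_od_bb (r : ↥𝒱 →+* Fb) (N : ℕ) (xV : ↥𝒱) (ωV : Fin 𝔉.n → ↥𝒱) (dV : ↥𝒱)
    (p : Fin 𝔉.n × Fin N) : Fb :=
  r xV ^ (p.2 : ℕ) * r (ωV p.1) * r dV

/-- the reduced coordinate map. -/
def s27g_od_Tb (r : ↥𝒱 →+* Fb) (N : ℕ) (xV : ↥𝒱) (ωV : Fin 𝔉.n → ↥𝒱) (dV : ↥𝒱) :
    (Fin 𝔉.n × Fin N → k) →ₗ[k] Fb :=
  Fintype.linearCombination k (s27g_od_bb r N xV ωV dV)

/-- compatibility of the two coordinate maps. -/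
theorem s27g_od_compat (hl : s27g_Over 𝒪 𝒱) (r0 : ↥𝒪 →+* k) (r : ↥𝒱 →+* Fb)
    (hcomp : ∀ a : ↥𝒪, r (s27g_incl hl a) = algebraMap k Fb (r0 a))
    (N : ℕ) (xV : ↥𝒱) (ωV : Fin 𝔉.n → ↥𝒱) (dV : ↥𝒱) (hx : (xV : F) = 𝔉.x)
    (hω : ∀ i, (ωV i : F) = 𝔉.ω i) (u : Fin 𝔉.n × Fin N → ↥𝒪) :
    ∃ t : ↥𝒱, (t : F) = s27g_od_T 𝔉 N (dV : F) (s27l_coe 𝒪 u) ∧
      r t = s27g_od_Tb (k := k) r N xV ωV dV (s27l_redv 𝒪 r0 u) := by
  refine ⟨∑ p, s27g_incl hl (u p) * (xV ^ (p.2 : ℕ) * ωV p.1 * dV), ?_, ?_⟩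
  · rw [s27g_od_T, Fintype.linearCombination_apply, AddSubmonoidClass.coe_finsetSum]
    refine Finset.sum_congr rfl fun p _ => ?_
    rw [Algebra.smul_def, s27g_od_b, ← hx, ← hω]
    rfl
  · rw [s27g_od_Tb, Fintype.linearCombination_apply, map_sum]
    refine Finset.sum_congr rfl fun p _ => ?_
    rw [map_mul, hcomp, Algebra.smul_def, s27g_od_bb, map_mul, map_mul, map_pow]
    rfl

/-- **the abstract form of (GOOD) L4b**, for arbitrary residue maps `r0`, `r`. -/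
theorem s27g_od_core (h : 𝔉.IsFrame) (hO : s27g_Ortho 𝔉 𝒪 𝒱)
    (r0 : ↥𝒪 →+* k) (hr0 : Function.Surjective r0) (r : ↥𝒱 →+* Fb)
    (hr : Function.Surjective r)
    (hcomp : ∀ a : ↥𝒪, r (s27g_incl hO.lies a) = algebraMap k Fb (r0 a))
    (W : Submodule K F) (hW : Module.Finite K W) :
    ∃ Wb : Submodule k Fb, (Wb : Set Fb) = {z | ∃ f : ↥𝒱, (f : F) ∈ W ∧ r f = z} ∧
      finrank k Wb = finrank K W := by
  classical
  -- a finite spanning set, a common unit denominator, a degree bound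
  obtain ⟨S, hS⟩ := Module.Finite.iff_fg.1 hW
  obtain ⟨g, hg0, hg1, hg2, hSg⟩ := s27g_od_exists_denom_unit 𝔉 h hO S
  choose! a ha using hSg
  set N : ℕ := (S.sup fun f => Finset.univ.sup fun i => (a f i).natDegree) + 1 with hN
  have hdeg : ∀ f ∈ S, ∀ i, (a f i).natDegree < N := by
    intro f hf i
    have h1 : (a f i).natDegree ≤ Finset.univ.sup fun i => (a f i).natDegree :=
      Finset.le_sup (f := fun i => (a f i).natDegree) (Finset.mem_univ i)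
    have h2 : (Finset.univ.sup fun i => (a f i).natDegree) ≤
        S.sup fun f => Finset.univ.sup fun i => (a f i).natDegree :=
      Finset.le_sup (f := fun f => Finset.univ.sup fun i => (a f i).natDegree) hf
    omega
  set d : F := (aeval 𝔉.x g)⁻¹ with hd
  have hd0 : d ≠ 0 := inv_ne_zero hg0
  have hdV : d ∈ 𝒱 := hg2
  have hdV' : d⁻¹ ∈ 𝒱 := by rw [hd, inv_inv]; exact hg1
  set T := s27g_od_T 𝔉 N d with hT
  have hTinj : Function.Injective T := s27g_od_T_injective 𝔉 h N hd0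
  have hWT : W ≤ LinearMap.range T := by
    rw [← hS, Submodule.span_le]
    intro f hf
    exact s27g_od_mem_range 𝔉 N hg0 (ha f hf) (hdeg f hf)
  -- the coordinates of `W`
  set W' : Submodule K (Fin 𝔉.n × Fin N → K) := W.comap T with hW'
  have hmap : W'.map T = W := Submodule.map_comap_eq_self hWT
  have hrank : finrank K W' = finrank K W := by
    have e := (Submodule.equivMapOfInjective T hTinj W').finrank_eq
    rw [hmap] at e
    exact e
  -- the reduced coordinate map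
  set xV : ↥𝒱 := ⟨𝔉.x, s27g_od_x_mem h hO⟩ with hxV
  set ωV : Fin 𝔉.n → ↥𝒱 := fun i => ⟨𝔉.ω i, s27g_od_ω_mem hO i⟩ with hωV
  set dV : ↥𝒱 := ⟨d, hdV⟩ with hdV2
  set Tb : (Fin 𝔉.n × Fin N → k) →ₗ[k] Fb := s27g_od_Tb r N xV ωV dV with hTb
  have hcompat : ∀ u : Fin 𝔉.n × Fin N → ↥𝒪, ∃ t : ↥𝒱, (t : F) = T (s27l_coe 𝒪 u) ∧
      r t = Tb (s27l_redv 𝒪 r0 u) := fun u =>
    s27g_od_compat hO.lies r0 r hcomp N xV ωV dV rfl (fun _ => rfl) u
  have hTbinj : Function.Injective Tb := by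
    rw [← LinearMap.ker_eq_bot, Submodule.eq_bot_iff]
    intro z hz
    rw [LinearMap.mem_ker] at hz
    choose u hu using fun p => hr0 (z p)
    have hzu : s27l_redv 𝒪 r0 u = z := funext hu
    obtain ⟨t, ht1, ht2⟩ := hcompat u
    rw [hzu, hz] at ht2
    have ht3 : ¬ IsUnit t := (s27l_r0_eq_zero_iff 𝒱 r hr t).1 ht2
    have ht4 : (t : F) ∈ 𝒱.nonunits :=
      ValuationSubring.coe_mem_nonunits_iff.2 ((IsLocalRing.mem_maximalIdeal t).2 ht3)
    rw [ht1] at ht4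
    have ht5 := (s27g_od_T_mem_nonunits_iff hO N hd0 hdV hdV' _).1 ht4
    funext p
    rw [← hu p]
    have h6 : u p ∈ IsLocalRing.maximalIdeal ↥𝒪 :=
      ValuationSubring.coe_mem_nonunits_iff.1 (ht5 p)
    exact (s27l_r0_eq_zero_iff 𝒪 r0 hr0 (u p)).2 ((IsLocalRing.mem_maximalIdeal _).1 h6)
  refine ⟨(s27l_red 𝒪 r0 hr0 W').map Tb, ?_, ?_⟩
  · ext z
    constructor
    · rintro ⟨y, ⟨u, huW, rfl⟩, rfl⟩
      obtain ⟨t, ht1, ht2⟩ := hcompat u
      refine ⟨t, ?_, ht2⟩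
      rw [ht1]
      exact huW
    · rintro ⟨f, hfW, rfl⟩
      obtain ⟨v, hv⟩ := hWT hfW
      have hvO : ∀ p, v p ∈ 𝒪 := by
        refine (s27g_od_T_mem_iff hO N hd0 hdV hdV' v).1 ?_
        rw [hv]
        exact f.2
      set u : Fin 𝔉.n × Fin N → ↥𝒪 := fun p => ⟨v p, hvO p⟩ with hu
      have huv : s27l_coe 𝒪 u = v := rfl
      obtain ⟨t, ht1, ht2⟩ := hcompat u
      have htf : t = f := Subtype.ext (by rw [ht1, huv, hv])
      refine ⟨s27l_redv 𝒪 r0 u, ⟨u, ?_, rfl⟩, ?_⟩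
      · rw [huv]
        show T v ∈ W
        rw [hv]
        exact hfW
      · rw [← htf]
        exact ht2.symm
  · have e := (Submodule.equivMapOfInjective Tb hTbinj (s27l_red 𝒪 r0 hr0 W')).finrank_eq
    rw [← e, s27l_finrank_red 𝒪 r0 hr0 W', hrank]

end core

/-! ### The statement for the residue fields -/

set_option linter.style.haveILetI false in
/-- **(GOOD) L4b**: reduction preserves the dimension of every finite-dimensional space of
functions (the `dim` field of `s27g_Good`). -/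
theorem s27g_ortho_dim (𝔉 : s27g_Frame K F) (h : 𝔉.IsFrame) {𝒪 : ValuationSubring K}
    {𝒱 : ValuationSubring F} (hO : s27g_Ortho 𝔉 𝒪 𝒱) :
    letI := s27g_resAlgebra hO.lies
    ∀ W : Submodule K F, Module.Finite K W →
      ∃ Wb : Submodule (ResidueField ↥𝒪) (ResidueField ↥𝒱), (Wb : Set _) = s27g_red 𝒱 W ∧
        Module.finrank (ResidueField ↥𝒪) Wb = Module.finrank K W := by
  letI := s27g_resAlgebra hO.lies
  intro W hW
  exact s27g_od_core h hO (residue ↥𝒪) (residue_surjective) (residue ↥𝒱)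
    (residue_surjective) (fun _ => rfl) W hW

end Fermat.Agent.S27
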