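/-
S27 / (GOOD) cell L4a (helper10): for an orthonormal frame `(𝔉, 𝒪, 𝒱)` the value group of `𝒱` is
the value group of `𝒪`: every `f ≠ 0` of `F` becomes a unit of `𝒱` after multiplication by a
nonzero constant.  Prefix `s27g_ov_` (main statement: `s27g_ortho_value`).
-/
import Fermat.Agent.S27.Good.Defs

set_option autoImplicit false

noncomputable section

namespace Fermat.Agent.S27

open Polynomial IsLocalRing

variable {K F : Type*} [Field K] [Field F] [Algebra K F]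

/-! ### Linearity of `elt` -/

theorem s27g_ov_elt_zero (𝔉 : s27g_Frame K F) : 𝔉.elt 0 = 0 := by
  simp [s27g_Frame.elt]

theorem s27g_ov_elt_add (𝔉 : s27g_Frame K F) (a b : Fin 𝔉.n → K[X]) :
    𝔉.elt (a + b) = 𝔉.elt a + 𝔉.elt b := by
  simp only [s27g_Frame.elt, Pi.add_apply, map_add, add_mul, Finset.sum_add_distrib]

theorem s27g_ov_elt_polymul (𝔉 : s27g_Frame K F) (q : K[X]) (a : Fin 𝔉.n → K[X]) :
    𝔉.elt (fun i => q * a i) = aeval 𝔉.x q * 𝔉.elt a := by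
  simp only [s27g_Frame.elt, map_mul, Finset.mul_sum, mul_assoc]

theorem s27g_ov_elt_smul (𝔉 : s27g_Frame K F) (c : K) (a : Fin 𝔉.n → K[X]) :
    𝔉.elt (c • a) = algebraMap K F c * 𝔉.elt a := by
  have h : (c • a) = fun i => C c * a i := by
    funext i
    rw [Pi.smul_apply, smul_eq_C_mul]
  rw [h, s27g_ov_elt_polymul, aeval_C]

theorem s27g_ov_elt_single (𝔉 : s27g_Frame K F) (i : Fin 𝔉.n) (q : K[X]) :
    𝔉.elt (Pi.single i q) = aeval 𝔉.x q * 𝔉.ω i := by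
  classical
  rw [s27g_Frame.elt, Finset.sum_eq_single i]
  · rw [Pi.single_eq_same]
  · intro j _ hj
    rw [Pi.single_eq_of_ne hj, map_zero, zero_mul]
  · intro hi
    exact absurd (Finset.mem_univ i) hi

theorem s27g_ov_elt_single_i0 (𝔉 : s27g_Frame K F) (h : 𝔉.IsFrame) (q : K[X]) :
    𝔉.elt (Pi.single 𝔉.i0 q) = aeval 𝔉.x q := by
  rw [s27g_ov_elt_single, h.ω_zero, mul_one]

theorem s27g_ov_aeval_ne_zero (𝔉 : s27g_Frame K F) (h : 𝔉.IsFrame) {q : K[X]} (hq : q ≠ 0) :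
    aeval 𝔉.x q ≠ 0 := fun h0 => h.x_trans ⟨q, hq, h0⟩

/-! ### Pivots -/

/-- A nonzero coordinate vector can be scaled to a primitive one. -/
theorem s27g_ov_exists_pivot (𝒪 : ValuationSubring K) {n : ℕ} (a : Fin n → K[X]) (ha : a ≠ 0) :
    ∃ c : K, c ≠ 0 ∧ s27g_coeffsIn 𝒪 (c • a) ∧ ¬ s27g_coeffsInMax 𝒪 (c • a) := by
  classical
  set S : Finset (Σ _ : Fin n, ℕ) := Finset.univ.sigma fun i => (a i).support with hS
  have hne : S.Nonempty := by
    by_contra hemp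
    apply ha
    funext i
    by_contra hi
    obtain ⟨m, hm⟩ := Polynomial.support_nonempty.2 hi
    exact hemp ⟨⟨i, m⟩, Finset.mem_sigma.2 ⟨Finset.mem_univ i, hm⟩⟩
  obtain ⟨p, hpS, hp⟩ := Finset.exists_max_image S
    (fun p => 𝒪.valuation ((a p.1).coeff p.2)) hne
  have hp0 : (a p.1).coeff p.2 ≠ 0 := by
    have := (Finset.mem_sigma.1 hpS).2
    exact Polynomial.mem_support_iff.1 this
  refine ⟨((a p.1).coeff p.2)⁻¹, inv_ne_zero hp0, ?_, ?_⟩
  · intro i m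
    rw [Pi.smul_apply, coeff_smul, smul_eq_mul]
    by_cases him : (a i).coeff m = 0
    · rw [him, mul_zero]
      exact 𝒪.zero_mem
    · have hmem : (⟨i, m⟩ : Σ _ : Fin n, ℕ) ∈ S :=
        Finset.mem_sigma.2 ⟨Finset.mem_univ i, Polynomial.mem_support_iff.2 him⟩
      have hle := hp ⟨i, m⟩ hmem
      rw [← ValuationSubring.valuation_le_one_iff, map_mul, map_inv₀]
      have hv : 𝒪.valuation ((a p.1).coeff p.2) ≠ 0 := (𝒪.valuation.ne_zero_iff).2 hp0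
      rw [inv_mul_le_iff₀ (zero_lt_iff.2 hv), mul_one]
      exact hle
  · intro hmax
    have := hmax p.1 p.2
    rw [Pi.smul_apply, coeff_smul, smul_eq_mul, inv_mul_cancel₀ hp0,
      ValuationSubring.mem_nonunits_iff, map_one] at this
    exact lt_irrefl _ this

/-! ### Units of `𝒱` -/

/-- an element of `𝒱` which is not a nonunit is a unit. -/
theorem s27g_ov_inv_mem {𝒱 : ValuationSubring F} {z : F} (hz : z ∉ 𝒱.nonunits) : z⁻¹ ∈ 𝒱 := by
  by_contra h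
  exact hz ((ValuationSubring.mem_nonunits_iff_or 𝒱).2 (Or.inr h))

/-- A nonzero element of the lattice becomes a unit of `𝒱` after scaling by a constant. -/
theorem s27g_ov_exists_unit {𝔉 : s27g_Frame K F} {𝒪 : ValuationSubring K}
    {𝒱 : ValuationSubring F} (hO : s27g_Ortho 𝔉 𝒪 𝒱) (a : Fin 𝔉.n → K[X]) (ha : a ≠ 0) :
    ∃ c : K, c ≠ 0 ∧ algebraMap K F c * 𝔉.elt a ∈ 𝒱 ∧ (algebraMap K F c * 𝔉.elt a)⁻¹ ∈ 𝒱 := by
  obtain ⟨c, hc, h1, h2⟩ := s27g_ov_exists_pivot 𝒪 a ha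
  refine ⟨c, hc, ?_, ?_⟩
  · rw [← s27g_ov_elt_smul]
    exact (hO.mem _).2 h1
  · rw [← s27g_ov_elt_smul]
    exact s27g_ov_inv_mem fun h => h2 ((hO.max _).1 h)

/-- **(GOOD) L4a**: `v(F^×) = v(K^×)` for the Gauss valuation ring of a frame. -/
theorem s27g_ortho_value (𝔉 : s27g_Frame K F) (h : 𝔉.IsFrame) {𝒪 : ValuationSubring K}
    {𝒱 : ValuationSubring F} (hO : s27g_Ortho 𝔉 𝒪 𝒱) (f : F) (hf : f ≠ 0) :
    ∃ c : K, c ≠ 0 ∧ algebraMap K F c * f ∈ 𝒱 ∧ (algebraMap K F c * f)⁻¹ ∈ 𝒱 := by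
  classical
  obtain ⟨g, a, hg, hga⟩ := h.frac f
  have hgx : aeval 𝔉.x g ≠ 0 := s27g_ov_aeval_ne_zero 𝔉 h hg
  have ha : a ≠ 0 := by
    intro h0
    rw [h0, s27g_ov_elt_zero] at hga
    exact (mul_ne_zero hgx hf) hga
  have hg1 : (Pi.single 𝔉.i0 g : Fin 𝔉.n → K[X]) ≠ 0 := by
    intro h0
    apply hg
    have := congrFun h0 𝔉.i0
    simpa using this
  obtain ⟨c1, hc1, h11, h12⟩ := s27g_ov_exists_unit hO _ hg1
  obtain ⟨c2, hc2, h21, h22⟩ := s27g_ov_exists_unit hO a ha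
  rw [s27g_ov_elt_single_i0 𝔉 h] at h11 h12
  have hc1' : algebraMap K F c1 ≠ 0 := (_root_.map_ne_zero _).2 hc1
  have hc2' : algebraMap K F c2 ≠ 0 := (_root_.map_ne_zero _).2 hc2
  have key : algebraMap K F (c2 / c1) * f =
      (algebraMap K F c2 * 𝔉.elt a) * (algebraMap K F c1 * aeval 𝔉.x g)⁻¹ := by
    rw [← hga, map_div₀]
    field_simp
  refine ⟨c2 / c1, div_ne_zero hc2 hc1, ?_, ?_⟩
  · rw [key]
    exact 𝒱.mul_mem _ _ h21 h12
  · rw [key, mul_inv, inv_inv, mul_comm]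
    exact 𝒱.mul_mem _ _ h11 h22

end Fermat.Agent.S27
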