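/-
S27 / (GOOD), cell L9a (helper20): **the reduced frame is a frame**.
Auxiliary names `s27g_rf_*`; the cell theorem keeps helper13's name `s27g_red_isFrame`.

`𝔉` a frame of `F / K`, integral at `𝒪`, `𝒱` its Gauss valuation ring (`s27g_Ortho 𝔉 𝒪 𝒱`).  Then
`𝔉.red` (same `n, ρ, κ`, reduced structure constants, `x̄`, `ω̄_i`) is a frame of the residue field
`F̄ = ResidueField 𝒱` over `k = ResidueField 𝒪`:

* `s27g_rf_red_isGraded`   : the weighted-degree conditions survive (leading structure constants are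
                             units of `𝒪`, so their degrees do not drop);
* `s27g_rf_exists_lift`    : every coordinate vector over `k` is the reduction of one over `𝒪`;
* `s27g_rf_red_indep`      : `elt̄ ā = 0 → ā = 0` (orthonormality);
* `s27g_rf_exists_primitive` : every nonzero polynomial has a scalar multiple with coefficients in
                             `𝒪` and one coefficient equal to `1`;
* `s27g_red_isFrame`       : **L9a**.
-/
import Mathlib
import Fermat.Agent.S27.Good.RedFrame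

set_option autoImplicit false
set_option linter.unusedSectionVars false
set_option linter.unusedVariables false
set_option linter.style.haveILetI false

noncomputable section

namespace Fermat.Agent.S27

open Polynomial AlgebraicCurve IsLocalRing IntermediateField Fermat.Agent.JT3
open scoped Classical

section Prim

variable {K : Type*} [Field K] (𝒪 : ValuationSubring K)

/-- a nonzero polynomial has a scalar multiple with coefficients in `𝒪`, one of them `1`. -/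
theorem s27g_rf_exists_primitive {g : K[X]} (hg : g ≠ 0) :
    ∃ c : K, c ≠ 0 ∧ (∀ m, (C c * g).coeff m ∈ 𝒪) ∧ ∃ m0, (C c * g).coeff m0 = 1 := by
  have hne : g.support.Nonempty := nonempty_support_iff.2 hg
  obtain ⟨m0, hm0, hmax⟩ := Finset.exists_max_image g.support
    (fun m => 𝒪.valuation (g.coeff m)) hne
  have h0 : g.coeff m0 ≠ 0 := mem_support_iff.1 hm0
  refine ⟨(g.coeff m0)⁻¹, inv_ne_zero h0, fun m => ?_, m0, ?_⟩
  · rw [coeff_C_mul]
    by_cases hm : m ∈ g.support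
    · rw [← ValuationSubring.valuation_le_one_iff, map_mul, map_inv₀]
      have hv0 : 𝒪.valuation (g.coeff m0) ≠ 0 := (Valuation.ne_zero_iff _).2 h0
      rw [inv_mul_le_iff₀ (zero_lt_iff.2 hv0), mul_one]
      exact hmax m hm
    · rw [notMem_support_iff.1 hm, mul_zero]
      exact zero_mem _
  · rw [coeff_C_mul, inv_mul_cancel₀ h0]

end Prim

section RedIsFrame

variable {K F : Type*} [Field K] [Field F] [Algebra K F]
  (𝔉 : s27g_Frame K F) {𝒪 : ValuationSubring K} {𝒱 : ValuationSubring F}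

/-- `elt (c • a) = c · elt a`. -/
theorem s27g_rf_elt_C_mul (c : K) (a : Fin 𝔉.n → K[X]) :
    𝔉.elt (fun i => C c * a i) = algebraMap K F c * 𝔉.elt a := by
  unfold s27g_Frame.elt
  rw [Finset.mul_sum]
  refine Finset.sum_congr rfl fun i _ => ?_
  rw [map_mul, aeval_C, mul_assoc]

/-- **the reduced structure constants are graded.** -/
theorem s27g_rf_red_isGraded (hF : 𝔉.IsFrame) (hI : 𝔉.IsIntegralAt 𝒪) (h : s27g_Over 𝒪 𝒱) :
    letI := s27g_resAlgebra h
    (𝔉.red h).tos27g_Consts.IsGraded := by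
  letI := s27g_resAlgebra h
  have hg := hF.graded
  have hlead : ∀ i j, (s27g_redPoly 𝒪 (𝔉.c i j (𝔉.κ i j))).natDegree =
      (𝔉.c i j (𝔉.κ i j)).natDegree ∧ s27g_redPoly 𝒪 (𝔉.c i j (𝔉.κ i j)) ≠ 0 := fun i j =>
    s27g_rf_redPoly_natDegree_eq 𝒪 _ (hI.coeff_mem i j _) (hI.lead_inv_mem i j) (hg.lead_ne i j)
  refine ⟨hg.ρ_zero, hg.ρ_mod, fun j k => ?_, fun i j k => ?_, fun i j => (hlead i j).2,
    fun i j => ?_, fun i j k hk hc => ?_⟩
  · show s27g_redPoly 𝒪 (𝔉.c 𝔉.i0 j k) = _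
    have e1 : s27g_redPoly 𝒪 (𝔉.c 𝔉.i0 j k) = if k = j then 1 else 0 := by
      rw [hg.one_mul, apply_ite (s27g_redPoly 𝒪), s27g_rf_redPoly_one, s27g_rf_redPoly_zero]
      rfl
    exact e1
  · show s27g_redPoly 𝒪 (𝔉.c i j k) = s27g_redPoly 𝒪 (𝔉.c j i k)
    rw [hg.comm]
  · show 𝔉.n * (s27g_redPoly 𝒪 (𝔉.c i j (𝔉.κ i j))).natDegree + 𝔉.ρ (𝔉.κ i j) = 𝔉.ρ i + 𝔉.ρ j
    rw [(hlead i j).1]
    exact hg.lead_deg i j
  · have hc' : s27g_redPoly 𝒪 (𝔉.c i j k) ≠ 0 := hc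
    have hc0 : 𝔉.c i j k ≠ 0 := by
      intro h0
      apply hc'
      rw [h0, s27g_rf_redPoly_zero]
    have h1 := hg.low i j k hk hc0
    have h2 := s27g_rf_redPoly_natDegree_le 𝒪 (𝔉.c i j k) (hI.coeff_mem i j k)
    show 𝔉.n * (s27g_redPoly 𝒪 (𝔉.c i j k)).natDegree + 𝔉.ρ k < 𝔉.ρ i + 𝔉.ρ j
    calc 𝔉.n * (s27g_redPoly 𝒪 (𝔉.c i j k)).natDegree + 𝔉.ρ k
        ≤ 𝔉.n * (𝔉.c i j k).natDegree + 𝔉.ρ k := by
          exact Nat.add_le_add_right (Nat.mul_le_mul_left _ h2) _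
      _ < 𝔉.ρ i + 𝔉.ρ j := h1

/-- every coordinate vector over the residue field is a reduction. -/
theorem s27g_rf_exists_lift (n : ℕ) (b : Fin n → (ResidueField ↥𝒪)[X]) :
    ∃ a : Fin n → K[X], s27g_coeffsIn 𝒪 a ∧ ∀ i, s27g_redPoly 𝒪 (a i) = b i := by
  have hs : ∀ i, ∃ q' : (↥𝒪)[X], q'.map (residue ↥𝒪) = b i := fun i =>
    Polynomial.map_surjective (residue ↥𝒪) residue_surjective (b i)
  choose a' ha' using hs
  refine ⟨fun i => (a' i).map 𝒪.subtype, fun i m => s27g_rf_coeff_map_mem 𝒪 (a' i) m, fun i => ?_⟩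
  rw [s27g_rf_redPoly_map, ha']

/-- orthonormality: a coordinate vector over `𝒪` whose reduction is killed by `elt̄` reduces to `0`. -/
theorem s27g_rf_red_indep (hF : 𝔉.IsFrame) (ho : s27g_Ortho 𝔉 𝒪 𝒱)
    (b : Fin 𝔉.n → (ResidueField ↥𝒪)[X]) :
    letI := s27g_resAlgebra ho.lies
    (𝔉.red ho.lies).elt b = 0 → b = 0 := by
  letI := s27g_resAlgebra ho.lies
  intro hb
  obtain ⟨a, ha, hab⟩ := s27g_rf_exists_lift (𝒪 := 𝒪) 𝔉.n b
  have h2 : (fun i => s27g_redPoly 𝒪 (a i)) = b := funext hab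
  have h1 : s27g_resElt 𝒱 (𝔉.elt a) = 0 := by
    have h0 := s27g_resElt_elt 𝔉 hF ho a ha
    exact h0.trans ((congrArg (𝔉.red ho.lies).elt h2).trans hb)
  rw [s27g_rf_resElt_eq_zero_iff 𝒱 (s27g_rf_elt_mem 𝔉 ho ha), ho.max] at h1
  funext i
  rw [← hab i]
  ext m
  rw [s27g_rf_redPoly_coeff, Pi.zero_apply, coeff_zero,
    s27g_rf_resElt_eq_zero_iff 𝒪 (ha i m)]
  exact h1 i m

/-- **L9a: the reduced frame is a frame.** -/
theorem s27g_red_isFrame (hF : 𝔉.IsFrame) (hI : 𝔉.IsIntegralAt 𝒪) (ho : s27g_Ortho 𝔉 𝒪 𝒱) :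
    letI := s27g_resAlgebra ho.lies
    (𝔉.red ho.lies).IsFrame := by
  letI := s27g_resAlgebra ho.lies
  have hx := s27g_rf_x_mem 𝔉 hF ho
  have hω0 : (𝔉.red ho.lies).ω (𝔉.red ho.lies).i0 = 1 := by
    show s27g_resElt 𝒱 (𝔉.ω 𝔉.i0) = 1
    rw [hF.ω_zero, s27g_rf_resElt_one]
  have hind := s27g_rf_red_indep 𝔉 hF ho
  refine ⟨s27g_rf_red_isGraded 𝔉 hF hI ho.lies, ?_, hω0, hind, ?_, ?_⟩
  · -- `x̄` is transcendental
    intro halg
    obtain ⟨q, hq0, hq⟩ := halg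
    have h1 : (𝔉.red ho.lies).elt (fun j => if j = (𝔉.red ho.lies).i0 then q else 0) = 0 := by
      unfold s27g_Frame.elt
      rw [Finset.sum_eq_single (𝔉.red ho.lies).i0]
      · beta_reduce
        rw [if_pos rfl, hω0, mul_one]
        exact hq
      · intro j _ hj
        beta_reduce
        rw [if_neg hj, map_zero, zero_mul]
      · intro hi
        exact absurd (Finset.mem_univ _) hi
    have h2 := congrFun (hind _ h1) (𝔉.red ho.lies).i0
    beta_reduce at h2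
    rw [if_pos rfl] at h2
    exact hq0 h2
  · -- every element is a fraction
    intro fb
    obtain ⟨f, rfl⟩ := residue_surjective fb
    obtain ⟨g, a, hg0, hga⟩ := hF.frac (f : F)
    obtain ⟨c, hc0, hcg, m0, hm0⟩ := s27g_rf_exists_primitive 𝒪 hg0
    have hg1 : aeval 𝔉.x (C c * g) ∈ 𝒱 := s27g_rf_aeval_mem 𝔉 hF ho hcg
    have e1 : aeval 𝔉.x (C c * g) * (f : F) = 𝔉.elt (fun i => C c * a i) := by
      rw [s27g_rf_elt_C_mul, ← hga, map_mul, aeval_C, mul_assoc]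
    have ha1 : s27g_coeffsIn 𝒪 (fun i => C c * a i) := by
      rw [← ho.mem, ← e1]
      exact mul_mem hg1 f.2
    refine ⟨s27g_redPoly 𝒪 (C c * g), fun i => s27g_redPoly 𝒪 (C c * a i), ?_, ?_⟩
    · intro h0
      have := congrArg (fun q => q.coeff m0) h0
      simp only [s27g_rf_redPoly_coeff, coeff_zero] at this
      rw [hm0, s27g_rf_resElt_one] at this
      exact one_ne_zero this
    · rw [← s27g_resElt_elt 𝔉 hF ho _ ha1, ← e1, s27g_rf_resElt_mul 𝒱 hg1 f.2,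
        s27g_rf_res_aeval 𝔉 hF ho hcg, s27g_rf_resElt_coe]
  · -- the multiplication table
    intro i j
    show s27g_resElt 𝒱 (𝔉.ω i) * s27g_resElt 𝒱 (𝔉.ω j) =
      ∑ k, aeval (𝔉.red ho.lies).x (s27g_redPoly 𝒪 (𝔉.c i j k)) * s27g_resElt 𝒱 (𝔉.ω k)
    rw [← s27g_rf_resElt_mul 𝒱 (s27g_rf_ω_mem 𝔉 ho i) (s27g_rf_ω_mem 𝔉 ho j), hF.mul i j,
      s27g_rf_resElt_sum 𝒱 _ _ (fun k _ =>
        mul_mem (s27g_rf_aeval_mem 𝔉 hF ho (hI.coeff_mem i j k)) (s27g_rf_ω_mem 𝔉 ho k))]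
    refine Finset.sum_congr rfl fun k _ => ?_
    rw [s27g_rf_resElt_mul 𝒱 (s27g_rf_aeval_mem 𝔉 hF ho (hI.coeff_mem i j k))
      (s27g_rf_ω_mem 𝔉 ho k), s27g_rf_res_aeval 𝔉 hF ho (hI.coeff_mem i j k)]

end RedIsFrame

end Fermat.Agent.S27
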