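/-
S27 / (GOOD), cells L9d (+ the basic calculus of the coefficientwise reduction) (helper20).
Prefix `s27g_rf_` for the auxiliary names; the cell theorem keeps helper13's name `s27g_resElt_elt`.

`𝔉` a frame of `F / K`, `𝒱 | 𝒪` valuation rings with `s27g_Ortho 𝔉 𝒪 𝒱` (Gauss valuation of the
frame).  Everything with coefficients in `𝒪` lives in `𝒱` and reduces coefficientwise:

* `s27g_rf_lift`          : the lift `K[X] → 𝒪[X]` (coefficients outside `𝒪` are sent to `0`);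
                            `s27g_rf_map_lift` (`map subtype ∘ lift = id` on polynomials over `𝒪`),
                            `s27g_rf_redPoly_eq` (`s27g_redPoly 𝒪 q = (lift q).map (residue 𝒪)`);
* `s27g_rf_x_mem`, `s27g_rf_ω_mem`, `s27g_rf_aeval_mem`, `s27g_rf_elt_mem`;
* `s27g_rf_res_aeval`     : `res (q(x)) = q̄(x̄)`;
* `s27g_resElt_elt`       : **L9d** `res (elt a) = elt̄ (ā)`.
-/
import Mathlib
import Fermat.Agent.S27.Good.Defs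

set_option autoImplicit false
set_option linter.unusedSectionVars false
set_option linter.unusedVariables false
set_option linter.style.haveILetI false

noncomputable section

namespace Fermat.Agent.S27

open Polynomial AlgebraicCurve IsLocalRing IntermediateField Fermat.Agent.JT3
open scoped Classical

/-! ### the residue class map -/

section ResElt

variable {F : Type*} [Field F] (𝒱 : ValuationSubring F)

theorem s27g_rf_resElt_of_mem {f : F} (h : f ∈ 𝒱) :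
    s27g_resElt 𝒱 f = residue ↥𝒱 ⟨f, h⟩ := dif_pos h

theorem s27g_rf_resElt_coe (f : ↥𝒱) : s27g_resElt 𝒱 (f : F) = residue ↥𝒱 f :=
  s27g_rf_resElt_of_mem 𝒱 f.2

@[simp] theorem s27g_rf_resElt_zero : s27g_resElt 𝒱 (0 : F) = 0 := by
  rw [s27g_rf_resElt_of_mem 𝒱 (zero_mem _)]
  exact map_zero _

@[simp] theorem s27g_rf_resElt_one : s27g_resElt 𝒱 (1 : F) = 1 := by
  rw [s27g_rf_resElt_of_mem 𝒱 (one_mem _)]
  exact map_one _

theorem s27g_rf_resElt_add {f g : F} (hf : f ∈ 𝒱) (hg : g ∈ 𝒱) :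
    s27g_resElt 𝒱 (f + g) = s27g_resElt 𝒱 f + s27g_resElt 𝒱 g := by
  rw [s27g_rf_resElt_of_mem 𝒱 hf, s27g_rf_resElt_of_mem 𝒱 hg,
    s27g_rf_resElt_of_mem 𝒱 (add_mem hf hg), ← map_add]
  rfl

theorem s27g_rf_resElt_mul {f g : F} (hf : f ∈ 𝒱) (hg : g ∈ 𝒱) :
    s27g_resElt 𝒱 (f * g) = s27g_resElt 𝒱 f * s27g_resElt 𝒱 g := by
  rw [s27g_rf_resElt_of_mem 𝒱 hf, s27g_rf_resElt_of_mem 𝒱 hg,
    s27g_rf_resElt_of_mem 𝒱 (mul_mem hf hg), ← map_mul]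
  rfl

theorem s27g_rf_resElt_neg {f : F} (hf : f ∈ 𝒱) :
    s27g_resElt 𝒱 (-f) = -s27g_resElt 𝒱 f := by
  rw [s27g_rf_resElt_of_mem 𝒱 hf, s27g_rf_resElt_of_mem 𝒱 (neg_mem hf), ← map_neg]
  rfl

theorem s27g_rf_resElt_sub {f g : F} (hf : f ∈ 𝒱) (hg : g ∈ 𝒱) :
    s27g_resElt 𝒱 (f - g) = s27g_resElt 𝒱 f - s27g_resElt 𝒱 g := by
  rw [sub_eq_add_neg, s27g_rf_resElt_add 𝒱 hf (neg_mem hg), s27g_rf_resElt_neg 𝒱 hg,
    sub_eq_add_neg]

theorem s27g_rf_resElt_sum {ι : Type*} (s : Finset ι) (f : ι → F) (hf : ∀ i ∈ s, f i ∈ 𝒱) :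
    s27g_resElt 𝒱 (∑ i ∈ s, f i) = ∑ i ∈ s, s27g_resElt 𝒱 (f i) := by
  induction s using Finset.induction_on with
  | empty => simp
  | insert i s hi ih =>
    rw [Finset.sum_insert hi, Finset.sum_insert hi,
      s27g_rf_resElt_add 𝒱 (hf i (Finset.mem_insert_self i s))
        (sum_mem fun j hj => hf j (Finset.mem_insert_of_mem hj)),
      ih fun j hj => hf j (Finset.mem_insert_of_mem hj)]

/-- `res f = 0` iff `f` is a non-unit, for `f ∈ 𝒱`. -/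
theorem s27g_rf_resElt_eq_zero_iff {f : F} (hf : f ∈ 𝒱) :
    s27g_resElt 𝒱 f = 0 ↔ f ∈ 𝒱.nonunits := by
  rw [s27g_rf_resElt_of_mem 𝒱 hf, residue_eq_zero_iff]
  exact (ValuationSubring.coe_mem_nonunits_iff (A := 𝒱) (a := ⟨f, hf⟩)).symm

end ResElt

/-! ### the lift `K[X] → 𝒪[X]` and the reduction of polynomials -/

section Lift

variable {K : Type*} [Field K] (𝒪 : ValuationSubring K)

/-- the lift of a polynomial to `𝒪[X]` (coefficients outside `𝒪` are sent to `0`). -/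
def s27g_rf_lift (q : K[X]) : (↥𝒪)[X] :=
  ∑ m ∈ q.support, monomial m (if h : q.coeff m ∈ 𝒪 then (⟨q.coeff m, h⟩ : ↥𝒪) else 0)

theorem s27g_rf_lift_coeff (q : K[X]) (m : ℕ) :
    (s27g_rf_lift 𝒪 q).coeff m = if h : q.coeff m ∈ 𝒪 then (⟨q.coeff m, h⟩ : ↥𝒪) else 0 := by
  unfold s27g_rf_lift
  rw [finsetSum_coeff]
  simp only [coeff_monomial]
  rw [Finset.sum_ite_eq' q.support m]
  by_cases hm : m ∈ q.support
  · rw [if_pos hm]
  · rw [if_neg hm]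
    have h0 : q.coeff m = 0 := notMem_support_iff.1 hm
    rw [dif_pos (by rw [h0]; exact zero_mem _)]
    exact (Subtype.ext h0).symm

theorem s27g_rf_lift_coeff_of_mem (q : K[X]) (m : ℕ) (h : q.coeff m ∈ 𝒪) :
    (s27g_rf_lift 𝒪 q).coeff m = ⟨q.coeff m, h⟩ := by
  rw [s27g_rf_lift_coeff, dif_pos h]

/-- `lift` is a section of `map subtype` on polynomials with coefficients in `𝒪`. -/
theorem s27g_rf_map_lift {q : K[X]} (hq : ∀ m, q.coeff m ∈ 𝒪) :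
    (s27g_rf_lift 𝒪 q).map 𝒪.subtype = q := by
  ext m
  rw [coeff_map, s27g_rf_lift_coeff_of_mem 𝒪 q m (hq m)]
  rfl

theorem s27g_rf_lift_map (q' : (↥𝒪)[X]) : s27g_rf_lift 𝒪 (q'.map 𝒪.subtype) = q' := by
  ext m
  have h : ((q'.map 𝒪.subtype).coeff m) ∈ 𝒪 := by
    rw [coeff_map]
    exact (q'.coeff m).2
  rw [s27g_rf_lift_coeff_of_mem 𝒪 _ m h]
  simp only [coeff_map]
  rfl

theorem s27g_rf_coeff_map_mem (q' : (↥𝒪)[X]) (m : ℕ) : (q'.map 𝒪.subtype).coeff m ∈ 𝒪 := by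
  rw [coeff_map]
  exact (q'.coeff m).2

/-- the coefficients of `s27g_redPoly`. -/
theorem s27g_rf_redPoly_coeff (q : K[X]) (m : ℕ) :
    (s27g_redPoly 𝒪 q).coeff m = s27g_resElt (F := K) 𝒪 (q.coeff m) := by
  unfold s27g_redPoly
  rw [finsetSum_coeff]
  simp only [coeff_monomial]
  rw [Finset.sum_ite_eq' q.support m]
  by_cases hm : m ∈ q.support
  · rw [if_pos hm]
  · rw [if_neg hm]
    have h0 : q.coeff m = 0 := notMem_support_iff.1 hm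
    rw [h0, s27g_rf_resElt_zero]

/-- **`s27g_redPoly` is the coefficientwise reduction of the lift.** -/
theorem s27g_rf_redPoly_eq (q : K[X]) :
    s27g_redPoly 𝒪 q = (s27g_rf_lift 𝒪 q).map (residue ↥𝒪) := by
  ext m
  rw [s27g_rf_redPoly_coeff, coeff_map, s27g_rf_lift_coeff]
  by_cases h : q.coeff m ∈ 𝒪
  · rw [dif_pos h, s27g_rf_resElt_of_mem 𝒪 h]
  · rw [dif_neg h, map_zero]
    unfold s27g_resElt
    rw [dif_neg h]

theorem s27g_rf_redPoly_map (q' : (↥𝒪)[X]) :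
    s27g_redPoly 𝒪 (q'.map 𝒪.subtype) = q'.map (residue ↥𝒪) := by
  rw [s27g_rf_redPoly_eq, s27g_rf_lift_map]

theorem s27g_rf_redPoly_natDegree_le (q : K[X]) (hq : ∀ m, q.coeff m ∈ 𝒪) :
    (s27g_redPoly 𝒪 q).natDegree ≤ q.natDegree := by
  rw [s27g_rf_redPoly_eq]
  refine (natDegree_map_le).trans ?_
  conv_rhs => rw [← s27g_rf_map_lift 𝒪 hq]
  rw [natDegree_map_eq_of_injective (f := 𝒪.subtype) Subtype.val_injective]

/-- the degree is preserved when the leading coefficient is a unit of `𝒪`. -/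
theorem s27g_rf_redPoly_natDegree_eq (q : K[X]) (hq : ∀ m, q.coeff m ∈ 𝒪)
    (hlead : q.leadingCoeff⁻¹ ∈ 𝒪) (hq0 : q ≠ 0) :
    (s27g_redPoly 𝒪 q).natDegree = q.natDegree ∧ s27g_redPoly 𝒪 q ≠ 0 := by
  have hc : (s27g_redPoly 𝒪 q).coeff q.natDegree ≠ 0 := by
    rw [s27g_rf_redPoly_coeff, Ne, s27g_rf_resElt_eq_zero_iff 𝒪 (hq _),
      ValuationSubring.mem_nonunits_iff_or]
    push Not
    exact ⟨leadingCoeff_ne_zero.2 hq0, hlead⟩
  refine ⟨le_antisymm (s27g_rf_redPoly_natDegree_le 𝒪 q hq) (le_natDegree_of_ne_zero hc), ?_⟩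
  intro h0
  rw [h0, coeff_zero] at hc
  exact hc rfl

@[simp] theorem s27g_rf_redPoly_zero : s27g_redPoly 𝒪 (0 : K[X]) = 0 := by
  ext m
  rw [s27g_rf_redPoly_coeff, coeff_zero, coeff_zero, s27g_rf_resElt_zero]

@[simp] theorem s27g_rf_redPoly_one : s27g_redPoly 𝒪 (1 : K[X]) = 1 := by
  ext m
  rw [s27g_rf_redPoly_coeff, coeff_one, coeff_one]
  split_ifs
  · exact s27g_rf_resElt_one 𝒪
  · exact s27g_rf_resElt_zero 𝒪

end Lift

/-! ### the frame inside `𝒱` -/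

section Frame

variable {K F : Type*} [Field K] [Field F] [Algebra K F]
  (𝔉 : s27g_Frame K F) {𝒪 : ValuationSubring K} {𝒱 : ValuationSubring F}

/-- the compatibility of the residue maps with the inclusion `𝒪 → 𝒱`. -/
theorem s27g_rf_algebraMap_residue (h : s27g_Over 𝒪 𝒱) (a : ↥𝒪) :
    letI := s27g_resAlgebra h
    algebraMap (ResidueField ↥𝒪) (ResidueField ↥𝒱) (residue ↥𝒪 a) =
      residue ↥𝒱 (s27g_incl h a) := by
  haveI := s27g_incl_isLocalHom h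
  exact ResidueField.map_residue (s27g_incl h) a

theorem s27g_rf_residue_comp_incl (h : s27g_Over 𝒪 𝒱) :
    letI := s27g_resAlgebra h
    (residue ↥𝒱).comp (s27g_incl h) =
      (algebraMap (ResidueField ↥𝒪) (ResidueField ↥𝒱)).comp (residue ↥𝒪) := by
  letI := s27g_resAlgebra h
  ext a
  exact (s27g_rf_algebraMap_residue h a).symm

theorem s27g_rf_subtype_comp_incl (h : s27g_Over 𝒪 𝒱) :
    (𝒱.subtype).comp (s27g_incl h) = (algebraMap K F).comp 𝒪.subtype := by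
  ext a
  rfl

/-- the coordinate vector of `ω_i`. -/
def s27g_rf_unitVec (i : Fin 𝔉.n) : Fin 𝔉.n → K[X] := fun j => if j = i then 1 else 0

theorem s27g_rf_elt_unitVec (i : Fin 𝔉.n) : 𝔉.elt (s27g_rf_unitVec 𝔉 i) = 𝔉.ω i := by
  unfold s27g_Frame.elt s27g_rf_unitVec
  rw [Finset.sum_eq_single i]
  · rw [if_pos rfl, map_one, one_mul]
  · intro j _ hj
    rw [if_neg hj, map_zero, zero_mul]
  · intro hi
    exact absurd (Finset.mem_univ i) hi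

/-- the coordinate vector of `q(x)`. -/
def s27g_rf_polyVec (q : K[X]) : Fin 𝔉.n → K[X] := fun j => if j = 𝔉.i0 then q else 0

theorem s27g_rf_elt_polyVec (hF : 𝔉.IsFrame) (q : K[X]) :
    𝔉.elt (s27g_rf_polyVec 𝔉 q) = aeval 𝔉.x q := by
  unfold s27g_Frame.elt s27g_rf_polyVec
  rw [Finset.sum_eq_single 𝔉.i0]
  · rw [if_pos rfl, hF.ω_zero, mul_one]
  · intro j _ hj
    rw [if_neg hj, map_zero, zero_mul]
  · intro hi
    exact absurd (Finset.mem_univ _) hi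

theorem s27g_rf_ω_mem (ho : s27g_Ortho 𝔉 𝒪 𝒱) (i : Fin 𝔉.n) : 𝔉.ω i ∈ 𝒱 := by
  rw [← s27g_rf_elt_unitVec 𝔉 i, ho.mem]
  intro j m
  unfold s27g_rf_unitVec
  split_ifs
  · rw [coeff_one]
    split_ifs
    · exact one_mem _
    · exact zero_mem _
  · rw [coeff_zero]
    exact zero_mem _

theorem s27g_rf_aeval_mem (hF : 𝔉.IsFrame) (ho : s27g_Ortho 𝔉 𝒪 𝒱) {q : K[X]}
    (hq : ∀ m, q.coeff m ∈ 𝒪) : aeval 𝔉.x q ∈ 𝒱 := by
  rw [← s27g_rf_elt_polyVec 𝔉 hF q, ho.mem]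
  intro j m
  unfold s27g_rf_polyVec
  split_ifs
  · exact hq m
  · rw [coeff_zero]
    exact zero_mem _

theorem s27g_rf_x_mem (hF : 𝔉.IsFrame) (ho : s27g_Ortho 𝔉 𝒪 𝒱) : 𝔉.x ∈ 𝒱 := by
  have h := s27g_rf_aeval_mem 𝔉 hF ho (q := X) (fun m => by
    rw [coeff_X]
    split_ifs
    · exact one_mem _
    · exact zero_mem _)
  rwa [aeval_X] at h

theorem s27g_rf_elt_mem (ho : s27g_Ortho 𝔉 𝒪 𝒱) {a : Fin 𝔉.n → K[X]}
    (ha : s27g_coeffsIn 𝒪 a) : 𝔉.elt a ∈ 𝒱 := (ho.mem a).2 ha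

/-- evaluation at `x` of a polynomial over `𝒪`, inside `𝒱`. -/
theorem s27g_rf_coe_eval₂ (h : s27g_Over 𝒪 𝒱) {x : F} (hx : x ∈ 𝒱) (q' : (↥𝒪)[X]) :
    ((eval₂ (s27g_incl h) (⟨x, hx⟩ : ↥𝒱) q' : ↥𝒱) : F) = aeval x (q'.map 𝒪.subtype) := by
  have h1 := hom_eval₂ q' (s27g_incl h) 𝒱.subtype (⟨x, hx⟩ : ↥𝒱)
  rw [s27g_rf_subtype_comp_incl h] at h1
  rw [aeval_def, eval₂_map]
  exact h1

/-- **`res (q(x)) = q̄(x̄)`** for `q` with coefficients in `𝒪`, any `x ∈ 𝒱`. -/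
theorem s27g_rf_res_aeval' (h : s27g_Over 𝒪 𝒱) {x : F} (hx : x ∈ 𝒱) {q : K[X]}
    (hq : ∀ m, q.coeff m ∈ 𝒪) :
    letI := s27g_resAlgebra h
    aeval x q ∈ 𝒱 ∧
      s27g_resElt 𝒱 (aeval x q) = aeval (s27g_resElt 𝒱 x) (s27g_redPoly 𝒪 q) := by
  letI := s27g_resAlgebra h
  have e := s27g_rf_coe_eval₂ h hx (s27g_rf_lift 𝒪 q)
  rw [s27g_rf_map_lift 𝒪 hq] at e
  have hmem : aeval x q ∈ 𝒱 := e ▸ (eval₂ (s27g_incl h) (⟨x, hx⟩ : ↥𝒱) (s27g_rf_lift 𝒪 q)).2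
  refine ⟨hmem, ?_⟩
  have e2 : (⟨aeval x q, hmem⟩ : ↥𝒱) = eval₂ (s27g_incl h) (⟨x, hx⟩ : ↥𝒱) (s27g_rf_lift 𝒪 q) :=
    Subtype.ext e.symm
  rw [s27g_rf_resElt_of_mem 𝒱 hmem, e2, hom_eval₂, s27g_rf_residue_comp_incl h,
    s27g_rf_redPoly_eq, aeval_def, eval₂_map, s27g_rf_resElt_of_mem 𝒱 hx]

theorem s27g_rf_res_aeval (hF : 𝔉.IsFrame) (ho : s27g_Ortho 𝔉 𝒪 𝒱) {q : K[X]}
    (hq : ∀ m, q.coeff m ∈ 𝒪) :
    letI := s27g_resAlgebra ho.lies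
    s27g_resElt 𝒱 (aeval 𝔉.x q) = aeval (𝔉.red ho.lies).x (s27g_redPoly 𝒪 q) :=
  (s27g_rf_res_aeval' ho.lies (s27g_rf_x_mem 𝔉 hF ho) hq).2

/-- **L9d**: the residue class of `elt a` is `elt̄ ā` for `a` with coefficients in `𝒪`. -/
theorem s27g_resElt_elt (hF : 𝔉.IsFrame) (ho : s27g_Ortho 𝔉 𝒪 𝒱) (a : Fin 𝔉.n → K[X])
    (ha : s27g_coeffsIn 𝒪 a) :
    letI := s27g_resAlgebra ho.lies
    s27g_resElt 𝒱 (𝔉.elt a) = (𝔉.red ho.lies).elt (fun i => s27g_redPoly 𝒪 (a i)) := by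
  letI := s27g_resAlgebra ho.lies
  have hx := s27g_rf_x_mem 𝔉 hF ho
  unfold s27g_Frame.elt
  rw [s27g_rf_resElt_sum 𝒱 _ _ (fun i _ =>
    mul_mem (s27g_rf_aeval_mem 𝔉 hF ho (ha i)) (s27g_rf_ω_mem 𝔉 ho i))]
  refine Finset.sum_congr rfl fun i _ => ?_
  rw [s27g_rf_resElt_mul 𝒱 (s27g_rf_aeval_mem 𝔉 hF ho (ha i)) (s27g_rf_ω_mem 𝔉 ho i),
    s27g_rf_res_aeval 𝔉 hF ho (ha i)]
  rfl

end Frame

end Fermat.Agent.S27
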