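/-
S27 / (GOOD), cell L9b (helper20): **the Jacobian certificate survives reduction**.
Auxiliary names `s27g_rf_*`; the cell theorem keeps helper13's name `s27g_red_jacUnit`.

`𝔉` a frame of `F / K`, integral at `𝒪` (structure constants in `𝒪[x]`, Jacobian certificate with
cofactors in `𝒪[x]`), `𝒱` its Gauss valuation ring.  Every entry of the Jacobian matrix lies in `𝒱`
and reduces to the corresponding entry of the Jacobian matrix of the reduced frame (reduction of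
polynomials commutes with the derivative); determinants commute with the ring homomorphisms
`𝒱 → F` and `𝒱 → F̄`; so the reduction of the certificate `∑ h_α · minor_α = 1` is a certificate
for the reduced frame.
-/
import Mathlib
import Fermat.Agent.S27.Good.RedFrame

set_option autoImplicit false
set_option linter.unusedSectionVars false
set_option linter.unusedVariables false
set_option linter.style.haveILetI false

noncomputable section

namespace Fermat.Agent.S27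

open Polynomial AlgebraicCurve IsLocalRing IntermediateField Fermat.Agent.JT3
open scoped Classical

section Deriv

variable {K : Type*} [Field K] (𝒪 : ValuationSubring K)

/-- the derivative of a polynomial with coefficients in `𝒪` has coefficients in `𝒪`. -/
theorem s27g_rf_derivative_coeff_mem {q : K[X]} (hq : ∀ m, q.coeff m ∈ 𝒪) (m : ℕ) :
    (derivative q).coeff m ∈ 𝒪 := by
  rw [coeff_derivative]
  exact mul_mem (hq _) (add_mem (natCast_mem _ m) (one_mem _))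

/-- reduction commutes with the derivative. -/
theorem s27g_rf_redPoly_derivative {q : K[X]} (hq : ∀ m, q.coeff m ∈ 𝒪) :
    s27g_redPoly 𝒪 (derivative q) = derivative (s27g_redPoly 𝒪 q) := by
  have h1 : derivative q = (derivative (s27g_rf_lift 𝒪 q)).map 𝒪.subtype := by
    rw [← derivative_map, s27g_rf_map_lift 𝒪 hq]
  rw [h1, s27g_rf_redPoly_map, ← derivative_map, ← s27g_rf_redPoly_eq]

end Deriv

section Det

variable {F : Type*} [Field F] (𝒱 : ValuationSubring F)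

/-- the determinant of a matrix with entries in `𝒱` lies in `𝒱`, and its residue class is the
determinant of the matrix of residue classes. -/
theorem s27g_rf_det_mem_res {m : Type*} [Fintype m] [DecidableEq m] (M : Matrix m m F)
    (hM : ∀ i j, M i j ∈ 𝒱) :
    M.det ∈ 𝒱 ∧ s27g_resElt 𝒱 M.det = (M.map (s27g_resElt 𝒱)).det := by
  let M' : Matrix m m ↥𝒱 := fun i j => ⟨M i j, hM i j⟩
  have e1 : M = M'.map 𝒱.subtype := by
    ext i j
    rfl
  have e2 : M.det = ((M'.det : ↥𝒱) : F) := by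
    rw [e1]
    exact (RingHom.map_det 𝒱.subtype M').symm
  have e3 : M.map (s27g_resElt 𝒱) = M'.map (residue ↥𝒱) := by
    ext i j
    rw [Matrix.map_apply, Matrix.map_apply]
    exact s27g_rf_resElt_of_mem 𝒱 (hM i j)
  refine ⟨e2 ▸ (M'.det).2, ?_⟩
  rw [e2, s27g_rf_resElt_coe, e3]
  exact RingHom.map_det (residue ↥𝒱) M'

end Det

section RedJac

variable {K F : Type*} [Field K] [Field F] [Algebra K F]
  (𝔉 : s27g_Frame K F) {𝒪 : ValuationSubring K} {𝒱 : ValuationSubring F}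

/-- the entries of the Jacobian matrix lie in `𝒱` and reduce to the entries of the Jacobian matrix
of the reduced frame. -/
theorem s27g_rf_jac_mem_res (hF : 𝔉.IsFrame) (hI : 𝔉.IsIntegralAt 𝒪) (ho : s27g_Ortho 𝔉 𝒪 𝒱)
    (r : Fin 𝔉.n × Fin 𝔉.n) (l : Fin 𝔉.n) :
    letI := s27g_resAlgebra ho.lies
    𝔉.jac r l ∈ 𝒱 ∧ s27g_resElt 𝒱 (𝔉.jac r l) = (𝔉.red ho.lies).jac r l := by
  letI := s27g_resAlgebra ho.lies
  have hω := s27g_rf_ω_mem 𝔉 ho
  have hc : ∀ k, aeval 𝔉.x (𝔉.c r.1 r.2 k) ∈ 𝒱 := fun k =>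
    s27g_rf_aeval_mem 𝔉 hF ho (hI.coeff_mem r.1 r.2 k)
  have hd : ∀ k, aeval 𝔉.x (derivative (𝔉.c r.1 r.2 k)) ∈ 𝒱 := fun k =>
    s27g_rf_aeval_mem 𝔉 hF ho (s27g_rf_derivative_coeff_mem 𝒪 (hI.coeff_mem r.1 r.2 k))
  by_cases h : l = 𝔉.i0
  · have e1 : 𝔉.jac r l = -∑ k, aeval 𝔉.x (derivative (𝔉.c r.1 r.2 k)) * 𝔉.ω k := by
      show (if l = 𝔉.i0 then _ else _) = _
      rw [if_pos h]
    have e2 : (𝔉.red ho.lies).jac r l =
        -∑ k, aeval (𝔉.red ho.lies).x (derivative (s27g_redPoly 𝒪 (𝔉.c r.1 r.2 k))) *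
          s27g_resElt 𝒱 (𝔉.ω k) := by
      show (if l = 𝔉.i0 then _ else _) = _
      rw [if_pos h]
      rfl
    have hmem : ∀ k ∈ (Finset.univ : Finset (Fin 𝔉.n)),
        aeval 𝔉.x (derivative (𝔉.c r.1 r.2 k)) * 𝔉.ω k ∈ 𝒱 := fun k _ => mul_mem (hd k) (hω k)
    refine ⟨?_, ?_⟩
    · rw [e1]
      exact neg_mem (sum_mem hmem)
    · rw [e1, e2, s27g_rf_resElt_neg 𝒱 (sum_mem hmem), s27g_rf_resElt_sum 𝒱 _ _ hmem]
      congr 1
      refine Finset.sum_congr rfl fun k _ => ?_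
      rw [s27g_rf_resElt_mul 𝒱 (hd k) (hω k), s27g_rf_res_aeval 𝔉 hF ho
        (s27g_rf_derivative_coeff_mem 𝒪 (hI.coeff_mem r.1 r.2 k)),
        s27g_rf_redPoly_derivative 𝒪 (hI.coeff_mem r.1 r.2 k)]
  · have e1 : 𝔉.jac r l = (if l = r.1 then 𝔉.ω r.2 else 0) + (if l = r.2 then 𝔉.ω r.1 else 0)
        - aeval 𝔉.x (𝔉.c r.1 r.2 l) := by
      show (if l = 𝔉.i0 then _ else _) = _
      rw [if_neg h]
    have e2 : (𝔉.red ho.lies).jac r l =
        (if l = r.1 then s27g_resElt 𝒱 (𝔉.ω r.2) else 0) +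
          (if l = r.2 then s27g_resElt 𝒱 (𝔉.ω r.1) else 0)
        - aeval (𝔉.red ho.lies).x (s27g_redPoly 𝒪 (𝔉.c r.1 r.2 l)) := by
      show (if l = 𝔉.i0 then _ else _) = _
      rw [if_neg h]
      rfl
    have h1 : (if l = r.1 then 𝔉.ω r.2 else 0) ∈ 𝒱 := by
      split_ifs
      · exact hω _
      · exact zero_mem _
    have h2 : (if l = r.2 then 𝔉.ω r.1 else 0) ∈ 𝒱 := by
      split_ifs
      · exact hω _
      · exact zero_mem _
    refine ⟨?_, ?_⟩
    · rw [e1]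
      exact sub_mem (add_mem h1 h2) (hc l)
    · rw [e1, e2, s27g_rf_resElt_sub 𝒱 (add_mem h1 h2) (hc l), s27g_rf_resElt_add 𝒱 h1 h2,
        s27g_rf_res_aeval 𝔉 hF ho (hI.coeff_mem r.1 r.2 l), apply_ite (s27g_resElt 𝒱),
        apply_ite (s27g_resElt 𝒱), s27g_rf_resElt_zero]

/-- **L9b: the reduced frame has a Jacobian certificate.** -/
theorem s27g_red_jacUnit (hF : 𝔉.IsFrame) (hI : 𝔉.IsIntegralAt 𝒪) (ho : s27g_Ortho 𝔉 𝒪 𝒱) :
    letI := s27g_resAlgebra ho.lies
    (𝔉.red ho.lies).JacUnit := by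
  letI := s27g_resAlgebra ho.lies
  obtain ⟨ι, inst, rows, cols, h, hcoef, hsum⟩ := hI.jac
  refine ⟨ι, inst, rows, cols, fun α i => s27g_redPoly 𝒪 (h α i), fun _ _ _ => Set.mem_univ _, ?_⟩
  have hM : ∀ α i j, (𝔉.jac.submatrix (rows α) (cols α)) i j ∈ 𝒱 := fun α i j =>
    (s27g_rf_jac_mem_res 𝔉 hF hI ho (rows α i) (cols α j)).1
  have hdet := fun α => s27g_rf_det_mem_res 𝒱 (𝔉.jac.submatrix (rows α) (cols α)) (hM α)
  have hmap : ∀ α, (𝔉.jac.submatrix (rows α) (cols α)).map (s27g_resElt 𝒱) =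
      (𝔉.red ho.lies).jac.submatrix (rows α) (cols α) := by
    intro α
    ext i j
    rw [Matrix.map_apply, Matrix.submatrix_apply, Matrix.submatrix_apply]
    exact (s27g_rf_jac_mem_res 𝔉 hF hI ho (rows α i) (cols α j)).2
  have helt : ∀ α, 𝔉.elt (h α) ∈ 𝒱 := fun α => s27g_rf_elt_mem 𝔉 ho (hcoef α)
  have hmem : ∀ α ∈ (Finset.univ : Finset ι),
      𝔉.elt (h α) * (𝔉.jac.submatrix (rows α) (cols α)).det ∈ 𝒱 := fun α _ =>
    mul_mem (helt α) (hdet α).1
  have h1 := congrArg (s27g_resElt 𝒱) hsum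
  rw [s27g_rf_resElt_one, s27g_rf_resElt_sum 𝒱 _ _ hmem] at h1
  rw [← h1]
  refine Finset.sum_congr rfl fun α _ => ?_
  rw [s27g_rf_resElt_mul 𝒱 (helt α) (hdet α).1, (hdet α).2, hmap α,
    s27g_resElt_elt 𝔉 hF ho (h α) (hcoef α)]
  rfl

end RedJac

end Fermat.Agent.S27
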