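/-
S27 / (GOOD), cell [L1a] (helper13): valuation rings with residue field integral over `ℤ`
(Chevalley's extension theorem with control of the residue field, Atiyah–Macdonald 5.21):
every local subring of a field whose residue field is integral over `ℤ` is dominated by a
valuation ring with the same property.  Prefix `s27g_`.
-/
import Mathlib

set_option autoImplicit false
set_option linter.style.haveILetI false

noncomputable section

namespace Fermat.Agent.S27

open IsLocalRing Algebra Polynomial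

variable {K : Type*} [Field K]

def s27g_ResInt (B : LocalSubring K) : Prop :=
  Algebra.IsIntegral ℤ (ResidueField ↥B.toSubring)

theorem s27g_isIntegral_int_map {A B : Type*} [CommRing A] [CommRing B] (f : A →+* B) {a : A}
    (ha : IsIntegral ℤ a) : IsIntegral ℤ (f a) := by
  obtain ⟨q, hq, hq0⟩ := ha
  refine ⟨q, hq, ?_⟩
  have : eval₂ (algebraMap ℤ B) (f a) q = f (eval₂ (algebraMap ℤ A) a q) := by
    rw [Polynomial.hom_eval₂]
    congr 1
    exact RingHom.ext_int _ _
  rw [this, hq0, map_zero]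

theorem s27g_isIntegral_int_of_surjective {A B : Type*} [CommRing A] [CommRing B] (f : A →+* B)
    (hf : Function.Surjective f) (hA : Algebra.IsIntegral ℤ A) : Algebra.IsIntegral ℤ B := by
  constructor
  intro b
  obtain ⟨a, rfl⟩ := hf b
  exact s27g_isIntegral_int_map f (hA.isIntegral a)

theorem s27g_isIntegral_int_of_adjoin {k E : Type*} [Field k] [Field E] (ψ : k →+* E) (y : E)
    (hk : Algebra.IsIntegral ℤ k)
    (hgen : ∀ e : E, ∃ q : k[X], e = eval₂ ψ y q) : Algebra.IsIntegral ℤ E := by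
  letI : Algebra k E := ψ.toAlgebra
  have hsurj : Function.Surjective (aeval y : k[X] →ₐ[k] E) := by
    intro e
    obtain ⟨q, rfl⟩ := hgen e
    exact ⟨q, rfl⟩
  haveI : Algebra.FiniteType k E := Algebra.FiniteType.of_surjective _ hsurj
  haveI : Module.Finite k E := finite_of_finite_type_of_isJacobsonRing k E
  haveI : Algebra.IsIntegral k E := Algebra.IsIntegral.of_finite k E
  exact Algebra.IsIntegral.trans (R := ℤ) k (B := E)

theorem s27g_resInt_ofPrime_aux {B : LocalSubring K} (hB : s27g_ResInt B) (y : K)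
    (S : Subalgebra B.toSubring K) (hy : y ∈ S)
    (hgen : ∀ s ∈ S, ∃ q : B.toSubring[X], aeval y q = s)
    (M : Ideal S.toSubring) [hM : M.IsMaximal]
    (hle : (maximalIdeal B.toSubring).map (algebraMap B.toSubring S) ≤ M) :
    B ≤ LocalSubring.ofPrime S.toSubring M ∧
      s27g_ResInt (LocalSubring.ofPrime S.toSubring M) := by
  have hBS : B.toSubring ≤ S.toSubring := fun r hr ↦ algebraMap_mem S ⟨r, hr⟩
  constructor
  · refine ⟨hBS.trans (LocalSubring.le_ofPrime ..), ((local_hom_TFAE _).out 2 0).mp ?_⟩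
    conv_rhs => rw [← IsLocalization.AtPrime.map_eq_maximalIdeal M]
    refine .trans ?_ (Ideal.map_mono hle)
    rw [Ideal.map_map]; rfl
  · -- the residue field is `S / M`
    unfold s27g_ResInt
    letI : Field (S.toSubring ⧸ M) := Ideal.Quotient.field M
    have e := IsLocalization.AtPrime.equivQuotMaximalIdeal M
      (LocalSubring.ofPrime S.toSubring M).toSubring
    refine s27g_isIntegral_int_of_surjective e.toRingHom e.surjective ?_
    -- the map from the residue field of `B`
    let φ : B.toSubring →+* S.toSubring ⧸ M :=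
      (Ideal.Quotient.mk M).comp (Subring.inclusion hBS)
    have hφ : ∀ a ∈ maximalIdeal B.toSubring, φ a = 0 := by
      intro a ha
      rw [RingHom.comp_apply, Ideal.Quotient.eq_zero_iff_mem]
      exact hle (Ideal.mem_map_of_mem _ ha)
    let ψ : ResidueField B.toSubring →+* S.toSubring ⧸ M :=
      Ideal.Quotient.lift (maximalIdeal B.toSubring) φ hφ
    let yb : S.toSubring ⧸ M := Ideal.Quotient.mk M ⟨y, hy⟩
    refine s27g_isIntegral_int_of_adjoin ψ yb hB ?_
    intro e'
    obtain ⟨⟨s, hs⟩, rfl⟩ := Ideal.Quotient.mk_surjective e'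
    obtain ⟨q, hq⟩ := hgen s hs
    refine ⟨q.map (residue B.toSubring), ?_⟩
    rw [eval₂_map]
    have h1 : ψ.comp (residue B.toSubring) = φ := by
      ext a
      rfl
    rw [h1]
    have h2 : (⟨s, hs⟩ : S.toSubring) =
        eval₂ (Subring.inclusion hBS) ⟨y, hy⟩ q := by
      apply Subtype.ext
      have : (S.toSubring.subtype) (eval₂ (Subring.inclusion hBS)
          (⟨y, hy⟩ : S.toSubring) q) = aeval y q := by
        rw [Polynomial.hom_eval₂]
        rfl
      exact hq.symm.trans this.symm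
    rw [h2, Polynomial.hom_eval₂]

theorem s27g_resInt_ofPrime {B : LocalSubring K} (hB : s27g_ResInt B) (y : K)
    (M : Ideal (B.toSubring[y]).toSubring) [hM : M.IsMaximal]
    (hle : (maximalIdeal B.toSubring).map (algebraMap B.toSubring (B.toSubring[y])) ≤ M) :
    B ≤ LocalSubring.ofPrime (B.toSubring[y]).toSubring M ∧
      s27g_ResInt (LocalSubring.ofPrime (B.toSubring[y]).toSubring M) := by
  refine s27g_resInt_ofPrime_aux hB y _ (self_mem_adjoin_singleton _ _) ?_ M hle
  intro s hs
  have hs' : s ∈ (aeval y : B.toSubring[X] →ₐ[B.toSubring] K).range := by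
    rw [← Algebra.adjoin_singleton_eq_range_aeval]
    exact hs
  exact hs'

/-- domination preserves `s27g_ResInt` downwards along residue fields: an element of the larger
residue field coming from the smaller ring is integral. -/
theorem s27g_resInt_residue_of_le {A U : LocalSubring K} (hAU : A ≤ U) (hA : s27g_ResInt A)
    (a : K) (ha : a ∈ A.toSubring) :
    IsIntegral ℤ (residue U.toSubring ⟨a, hAU.1 ha⟩) := by
  obtain ⟨hle, hloc⟩ := hAU
  have h1 : residue U.toSubring ⟨a, hle ha⟩ =
      ResidueField.map (Subring.inclusion hle) (residue A.toSubring ⟨a, ha⟩) := by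
    rw [ResidueField.map_residue]
    rfl
  rw [h1]
  exact s27g_isIntegral_int_map _ (hA.isIntegral _)

/-- chains have upper bounds. -/
theorem s27g_resInt_chain (c : Set (LocalSubring K)) (hc : ∀ B ∈ c, s27g_ResInt B)
    (H : IsChain (· ≤ ·) c) (y : LocalSubring K) (hy : y ∈ c) :
    ∃ ub : LocalSubring K, s27g_ResInt ub ∧ ∀ z ∈ c, z ≤ ub := by
  have inst : Nonempty c := ⟨⟨y, hy⟩⟩
  have hdir := H.directed.mono_comp _ LocalSubring.toSubring_mono
  have hloc : IsLocalRing ↥(⨆ i : c, i.1.toSubring) := by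
    constructor
    intro ⟨a, ha⟩ ⟨b, hb⟩ e
    obtain ⟨A, haA : a ∈ A.1.toSubring⟩ := (Subring.mem_iSup_of_directed hdir).mp ha
    obtain ⟨B, hbB : b ∈ B.1.toSubring⟩ := (Subring.mem_iSup_of_directed hdir).mp hb
    obtain ⟨C, hCA, hCB⟩ := hdir A B
    refine (C.1.2.2 (a := ⟨a, hCA haA⟩) (b := ⟨b, hCB hbB⟩) (Subtype.ext congr(($e).1))).imp ?_ ?_
    · exact fun h ↦ h.map (Subring.inclusion (le_iSup (fun i : c ↦ i.1.toSubring) C))
    · exact fun h ↦ h.map (Subring.inclusion (le_iSup (fun i : c ↦ i.1.toSubring) C))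
  let U : LocalSubring K := @LocalSubring.mk _ _ (⨆ i : c, i.1.toSubring) hloc
  have hub : ∀ A ∈ c, A ≤ U := by
    intro A hA
    refine ⟨le_iSup (fun i : c ↦ i.1.toSubring) ⟨A, hA⟩, ⟨?_⟩⟩
    rintro ⟨a, haA⟩ h
    obtain ⟨⟨b, hb⟩, e⟩ := isUnit_iff_exists_inv.mp h
    obtain ⟨B, hbB : b ∈ B.1.toSubring⟩ := (Subring.mem_iSup_of_directed hdir).mp hb
    obtain ⟨C, hCA, hCB⟩ := H.directed ⟨A, hA⟩ B
    apply hCA.2.1
    exact isUnit_iff_exists_inv.mpr ⟨⟨b, hCB.1 hbB⟩, Subtype.ext congr(($e).1)⟩
  refine ⟨U, ?_, hub⟩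
  constructor
  intro z
  obtain ⟨⟨a, ha⟩, rfl⟩ := residue_surjective z
  obtain ⟨A, haA : a ∈ A.1.toSubring⟩ := (Subring.mem_iSup_of_directed hdir).mp ha
  exact s27g_resInt_residue_of_le (hub A.1 A.2) (hc A.1 A.2) a haA

theorem s27g_mem_of_maximal_of_map_ne_top {B : LocalSubring K} (hB : Maximal s27g_ResInt B)
    (y : K)
    (h : (maximalIdeal B.toSubring).map (algebraMap B.toSubring (B.toSubring[y])) ≠ ⊤) :
    y ∈ B.toSubring := by
  obtain ⟨M, hM, hle⟩ := Ideal.exists_le_maximal _ h
  obtain ⟨h1, h2⟩ := s27g_resInt_ofPrime hB.prop y M hle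
  have h3 := hB.le_of_ge h2 h1
  have h4 : LocalSubring.ofPrime (B.toSubring[y]).toSubring M = B := le_antisymm h3 h1
  have h5 : y ∈ (LocalSubring.ofPrime (B.toSubring[y]).toSubring M).toSubring :=
    LocalSubring.le_ofPrime _ _ (self_mem_adjoin_singleton _ _)
  rwa [h4] at h5

theorem s27g_exists_valuationSubring_of_maximal {B : LocalSubring K}
    (hB : Maximal s27g_ResInt B) : ∃ V : ValuationSubring K, V.toLocalSubring = B := by
  suffices ∀ x ∉ B.toSubring, x⁻¹ ∈ B.toSubring from
    ⟨⟨B.toSubring, fun x ↦ or_iff_not_imp_left.mpr (this x)⟩, rfl⟩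
  intro x hx
  have hx0 : x ≠ 0 := fun e ↦ hx (e ▸ zero_mem _)
  let := invertibleOfNonzero hx0
  have htop : (maximalIdeal B.toSubring).map (algebraMap _ (B.toSubring[x])) = ⊤ := by
    by_contra h
    exact hx (s27g_mem_of_maximal_of_map_ne_top hB x h)
  have ⟨p, hp, hpx⟩ := exists_aeval_invOf_eq_zero_of_idealMap_adjoin_sup_span_eq_top x _
    (maximalIdeal.isMaximal B.toSubring).ne_top
    (top_unique <| htop.ge.trans le_sup_left)
  have H : IsUnit p.leadingCoeff := of_not_not fun h ↦ by simpa using sub_mem h hp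
  have hint : IsIntegral B.toSubring x⁻¹ :=
    ⟨.C H.unit⁻¹.1 * p, by simp [Polynomial.Monic], by simpa using .inr hpx⟩
  apply s27g_mem_of_maximal_of_map_ne_top hB x⁻¹
  let S := B.toSubring[x⁻¹]
  have : Algebra.IsIntegral B.toSubring S := Algebra.IsIntegral.adjoin (by simpa)
  obtain ⟨Q : Ideal S.toSubring, hQ, e⟩ := Ideal.exists_ideal_over_maximal_of_isIntegral
    (S := S) (maximalIdeal B.toSubring) (le_maximalIdeal (by simp))
  intro htop'
  have h1 : (maximalIdeal B.toSubring).map (algebraMap _ S) ≤ Q :=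
    Ideal.map_le_iff_le_comap.mpr e.ge
  exact hQ.ne_top (top_unique (htop' ▸ h1))

/-- **Chevalley with residue field control**: a local subring whose residue field is integral
over `ℤ` is dominated by a valuation ring whose residue field is integral over `ℤ`. -/
theorem s27g_exists_valuationSubring_resInt (A : LocalSubring K) (hA : s27g_ResInt A) :
    ∃ V : ValuationSubring K, A ≤ V.toLocalSubring ∧ s27g_ResInt V.toLocalSubring := by
  obtain ⟨m, hAm, hm⟩ := zorn_le_nonempty₀ {B : LocalSubring K | s27g_ResInt B}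
    (fun c hc H y hy => s27g_resInt_chain c hc H y hy) A hA
  obtain ⟨V, rfl⟩ := s27g_exists_valuationSubring_of_maximal hm
  exact ⟨V, hAm, hm.prop⟩

end Fermat.Agent.S27
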