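/-
S27 / (GOOD), cell [L1] (helper13): spreading out.  For an algebraically closed field `K` of
characteristic zero, finitely many elements of `K` and finitely many nonzero elements of `K`,
there is a valuation ring `𝒪` of `K` containing the former, in which the latter are units, whose
residue field is algebraically closed, of prime characteristic `p` outside a given finite set, and
algebraic over the prime field.  Prefix `s27g_`.
-/
import Mathlib
import Fermat.Agent.S27.Good.Chev

set_option autoImplicit false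
set_option linter.style.haveILetI false

noncomputable section

namespace Fermat.Agent.S27

open IsLocalRing Algebra Polynomial

variable {K : Type*} [Field K]

/-- the residue field of a valuation ring of an algebraically closed field is algebraically
closed. -/
theorem s27g_isAlgClosed_residueField [IsAlgClosed K] (V : ValuationSubring K) :
    IsAlgClosed (ResidueField ↥V) := by
  apply IsAlgClosed.of_exists_root
  intro p hp hirr
  have hlift : p ∈ lifts (residue ↥V) :=
    (lifts_iff_coeff_lifts p).mpr fun n => residue_surjective (p.coeff n)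
  obtain ⟨q, hq, hdeg, hqm⟩ := lifts_and_natDegree_eq_and_monic hlift hp
  have hpd : p.natDegree ≠ 0 := fun h0 => by
    have := hirr.natDegree_pos
    omega
  have hq0 : (q.map V.subtype).degree ≠ 0 := by
    rw [degree_eq_natDegree (hqm.map V.subtype).ne_zero, (hqm.natDegree_map V.subtype), hdeg]
    exact_mod_cast hpd
  obtain ⟨z, hz⟩ := IsAlgClosed.exists_root (q.map V.subtype) hq0
  -- `z` is integral over `V`, hence in `V`
  have hzint : IsIntegral ↥V z := ⟨q, hqm, by
    rw [IsRoot.def, eval_map] at hz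
    exact hz⟩
  have hzV : z ∈ V := by
    have := (IsIntegrallyClosed.isIntegral_iff (R := ↥V) (K := K)).mp hzint
    obtain ⟨w, hw⟩ := this
    rw [← hw]
    exact w.2
  refine ⟨residue ↥V ⟨z, hzV⟩, ?_⟩
  rw [← hq, eval_map]
  have h0 : eval₂ (residue ↥V) ((residue ↥V) ⟨z, hzV⟩) q =
      residue ↥V (eval₂ (RingHom.id ↥V) (⟨z, hzV⟩ : ↥V) q) := by
    rw [Polynomial.hom_eval₂, RingHom.comp_id]
  rw [h0]
  have : eval₂ (RingHom.id ↥V) (⟨z, hzV⟩ : ↥V) q = 0 := by
    apply Subtype.ext
    have h1 : V.subtype (eval₂ (RingHom.id ↥V) (⟨z, hzV⟩ : ↥V) q) = eval₂ V.subtype z q := by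
      rw [Polynomial.hom_eval₂]
      rfl
    rw [IsRoot.def, eval_map] at hz
    exact h1.trans hz
  rw [this, map_zero]

/-- `ℤ` is a Jacobson ring. -/
theorem s27g_isJacobsonRing_int : IsJacobsonRing ℤ := by
  rw [isJacobsonRing_iff_prime_eq]
  intro P hP
  by_cases hbot : P = ⊥
  · subst hbot
    rw [eq_bot_iff]
    intro n hn
    rw [Ideal.mem_bot]
    by_contra hn0
    obtain ⟨p, hpn, hp⟩ := Nat.exists_infinite_primes (n.natAbs + 1)
    have hmax : (Ideal.span {(p : ℤ)}).IsMaximal :=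
      PrincipalIdealRing.isMaximal_of_irreducible (Nat.prime_iff_prime_int.mp hp).irreducible
    have hmem : n ∈ Ideal.span {(p : ℤ)} := by
      rw [Ideal.jacobson, Ideal.mem_sInf] at hn
      exact hn ⟨bot_le, hmax⟩
    rw [Ideal.mem_span_singleton] at hmem
    have h1 : p ∣ n.natAbs := Int.natCast_dvd.mp hmem
    have h2 : 0 < n.natAbs := Int.natAbs_pos.mpr hn0
    have h3 := Nat.le_of_dvd h2 h1
    omega
  · haveI : P.IsMaximal := hP.isMaximal hbot
    exact Ideal.jacobson_eq_self_of_isMaximal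

/-- a field which is integral over `ℤ` has prime characteristic. -/
theorem s27g_exists_charP_prime (k : Type*) [Field k] (hk : Algebra.IsIntegral ℤ k) :
    ∃ p : ℕ, p.Prime ∧ CharP k p := by
  obtain ⟨p, hp⟩ := CharP.exists k
  rcases CharP.char_is_prime_or_zero k p with h | h
  · exact ⟨p, h, hp⟩
  · exfalso
    subst h
    haveI : CharZero k := CharP.charP_to_charZero k
    exact Int.not_isField (isField_of_isIntegral_of_isField (R := ℤ) (S := k)
      (FaithfulSMul.algebraMap_injective ℤ k) (Field.toIsField k))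

/-- **[L1]** spreading out. -/
theorem s27g_exists_valuationSubring [IsAlgClosed K] [CharZero K] (A B : Finset K)
    (_hB : ∀ b ∈ B, b ≠ 0) (S : Finset ℕ) :
    ∃ (p : ℕ) (𝒪 : ValuationSubring K), p.Prime ∧ p ∉ S ∧ (∀ a ∈ A, a ∈ 𝒪) ∧
      (∀ b ∈ B, b ∈ 𝒪 ∧ b⁻¹ ∈ 𝒪) ∧ CharP (ResidueField ↥𝒪) p ∧ IsAlgClosed (ResidueField ↥𝒪) ∧
      ∀ z : ResidueField ↥𝒪, ∃ q : ℤ[X], q.Monic ∧ aeval z q = 0 := by
  classical
  let G : Finset K := A ∪ B ∪ B.image (·⁻¹) ∪ S.image (fun q : ℕ => ((q : K))⁻¹)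
  let R : Subalgebra ℤ K := Algebra.adjoin ℤ (G : Set K)
  have hft : Algebra.FiniteType ℤ R :=
    (Subalgebra.fg_iff_finiteType R).mp (Subalgebra.fg_adjoin_finset G)
  have hft' : Algebra.FiniteType ℤ ↥R.toSubring := hft
  obtain ⟨𝔪, h𝔪⟩ := Ideal.exists_maximal ↥R.toSubring
  letI := Ideal.Quotient.field 𝔪
  have hft'' : Algebra.FiniteType ℤ (↥R.toSubring ⧸ 𝔪) :=
    Algebra.FiniteType.of_surjective (Ideal.Quotient.mkₐ ℤ 𝔪) (Ideal.Quotient.mkₐ_surjective ℤ 𝔪)
  haveI := s27g_isJacobsonRing_int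
  have hfin : Module.Finite ℤ (↥R.toSubring ⧸ 𝔪) := finite_of_finite_type_of_isJacobsonRing ℤ _
  have hint : Algebra.IsIntegral ℤ (↥R.toSubring ⧸ 𝔪) := Algebra.IsIntegral.of_finite ℤ _
  let A₀ := LocalSubring.ofPrime R.toSubring 𝔪
  have hA₀ : s27g_ResInt A₀ := by
    have e := IsLocalization.AtPrime.equivQuotMaximalIdeal 𝔪 A₀.toSubring
    exact s27g_isIntegral_int_of_surjective e.toRingHom e.surjective hint
  obtain ⟨V, hAV, hV⟩ := s27g_exists_valuationSubring_resInt A₀ hA₀
  have hGV : ∀ a ∈ G, a ∈ V := fun a ha =>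
    hAV.1 (LocalSubring.le_ofPrime _ _ (Algebra.subset_adjoin (Finset.mem_coe.mpr ha)))
  have hVint : Algebra.IsIntegral ℤ (ResidueField ↥V) := hV
  obtain ⟨p, hp, hcp⟩ := s27g_exists_charP_prime (ResidueField ↥V) hVint
  refine ⟨p, V, hp, ?_, ?_, ?_, hcp, s27g_isAlgClosed_residueField V, ?_⟩
  · intro hpS
    have h1 : ((p : K))⁻¹ ∈ V := hGV _ (by
      simp only [G, Finset.mem_union, Finset.mem_image]
      exact Or.inr ⟨p, hpS, rfl⟩)
    have h2 : ((p : K)) ∈ V := natCast_mem V p
    have hp0 : (p : K) ≠ 0 := Nat.cast_ne_zero.mpr hp.ne_zero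
    have hunit : IsUnit (⟨(p : K), h2⟩ : ↥V) :=
      IsUnit.of_mul_eq_one ⟨((p : K))⁻¹, h1⟩ (Subtype.ext (by simp [hp0]))
    have h3 : residue ↥V ⟨(p : K), h2⟩ ≠ 0 := by
      intro h0
      rw [residue_eq_zero_iff] at h0
      exact h0 hunit
    apply h3
    have : (⟨(p : K), h2⟩ : ↥V) = ((p : ℕ) : ↥V) := Subtype.ext (by simp)
    rw [this, map_natCast]
    exact CharP.cast_eq_zero _ p
  · intro a ha
    exact hGV a (by simp only [G, Finset.mem_union]; exact Or.inl (Or.inl (Or.inl ha)))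
  · intro b hb
    refine ⟨hGV b (by simp only [G, Finset.mem_union]; exact Or.inl (Or.inl (Or.inr hb))),
      hGV _ (by
        simp only [G, Finset.mem_union, Finset.mem_image]
        exact Or.inl (Or.inr ⟨b, hb, rfl⟩))⟩
  · intro z
    obtain ⟨q, hq, hq0⟩ := hVint.isIntegral z
    exact ⟨q, hq, hq0⟩

end Fermat.Agent.S27
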