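/-
S27 / (GOOD), assembly (helper13): `s27g_good`.
-/
import Mathlib
import Fermat.Agent.S27.Good.Defs
import Fermat.Agent.S27.Good.MainAux
import Fermat.Agent.S27.Good.Spread
import Fermat.Agent.S27.Good.FrameMain
import Fermat.Agent.S27.Good.Infty
import Fermat.Agent.S27.Good.InftyL
import Fermat.Agent.S27.Good.Closed
import Fermat.Agent.S27.Good.Ortho
import Fermat.Agent.S27.Good.RedIsFrame
import Fermat.Agent.S27.Good.RedJac
import Fermat.Agent.S27.Good.RedSep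
import Fermat.Agent.S27.Good.JacMain
import Fermat.Agent.S27.Good.OrthoValue
import Fermat.Agent.S27.Good.OrthoDim

set_option autoImplicit false
set_option linter.style.haveILetI false

noncomputable section

namespace Fermat.Agent.S27

open Polynomial AlgebraicCurve IsLocalRing IntermediateField Fermat.Agent.JT3
open scoped Classical

variable {K F : Type*} [Field K] [Field F] [Algebra K F]

/-- the finite set of all coefficients of the structure constants. -/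
def s27gm_coeffSet (𝔉 : s27g_Frame K F) : Finset K :=
  (Finset.univ : Finset (Fin 𝔉.n × Fin 𝔉.n × Fin 𝔉.n)).biUnion
    fun t => (𝔉.c t.1 t.2.1 t.2.2).coeffs

theorem s27gm_mem_of_coeffs_subset {𝒪 : ValuationSubring K} {q : K[X]} {A : Finset K}
    (hq : q.coeffs ⊆ A) (hA : ∀ a ∈ A, a ∈ 𝒪) (m : ℕ) : q.coeff m ∈ 𝒪 := by
  by_cases h0 : q.coeff m = 0
  · rw [h0]; exact zero_mem 𝒪
  · exact hA _ (hq (coeff_mem_coeffs h0))

/-- **integrality at a suitable valuation ring.** -/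
theorem s27gm_exists_integralAt [IsAlgClosed K] [CharZero K] (𝔉 : s27g_Frame K F)
    (hF : 𝔉.IsFrame) (hJ : 𝔉.JacUnit) (S : Finset ℕ) :
    ∃ (p : ℕ) (𝒪 : ValuationSubring K), p.Prime ∧ p ∉ S ∧ ¬ p ∣ 𝔉.n ∧ 𝔉.IsIntegralAt 𝒪 ∧
      CharP (ResidueField ↥𝒪) p ∧ IsAlgClosed (ResidueField ↥𝒪) ∧
      ∀ z : ResidueField ↥𝒪, ∃ q : ℤ[X], q.Monic ∧ aeval z q = 0 := by
  obtain ⟨ι, hι, rows, cols, hcert, -, hsum⟩ := hJ
  let A : Finset K := s27gm_coeffSet 𝔉 ∪
    (Finset.univ : Finset (ι × Fin 𝔉.n)).biUnion fun t => (hcert t.1 t.2).coeffs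
  let B : Finset K := (Finset.univ : Finset (Fin 𝔉.n × Fin 𝔉.n)).image
    (fun t => (𝔉.c t.1 t.2 (𝔉.κ t.1 t.2)).leadingCoeff) ∪ {(𝔉.n : K)}
  have hB : ∀ b ∈ B, b ≠ 0 := by
    intro b hb
    rcases Finset.mem_union.mp hb with h | h
    · obtain ⟨t, -, rfl⟩ := Finset.mem_image.mp h
      exact leadingCoeff_ne_zero.mpr (hF.graded.lead_ne t.1 t.2)
    · rw [Finset.mem_singleton.mp h]
      exact Nat.cast_ne_zero.mpr 𝔉.hn.ne'
  obtain ⟨p, 𝒪, hp, hpS, hA𝒪, hB𝒪, hchar, hac, halg⟩ := s27g_exists_valuationSubring A B hB S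
  refine ⟨p, 𝒪, hp, hpS, ?_, ⟨?_, ?_, ?_⟩, hchar, hac, halg⟩
  · -- `p ∤ n`
    intro hdvd
    obtain ⟨hn1, hn2⟩ := hB𝒪 (𝔉.n : K) (Finset.mem_union_right _ (Finset.mem_singleton_self _))
    have hn0 : (𝔉.n : K) ≠ 0 := Nat.cast_ne_zero.mpr 𝔉.hn.ne'
    have hunit : IsUnit (⟨(𝔉.n : K), hn1⟩ : ↥𝒪) :=
      IsUnit.of_mul_eq_one ⟨((𝔉.n : K))⁻¹, hn2⟩ (Subtype.ext (by simp [hn0]))
    have h3 : residue ↥𝒪 ⟨(𝔉.n : K), hn1⟩ ≠ 0 := by
      intro h0
      rw [residue_eq_zero_iff] at h0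
      exact h0 hunit
    apply h3
    have : (⟨(𝔉.n : K), hn1⟩ : ↥𝒪) = ((𝔉.n : ℕ) : ↥𝒪) := Subtype.ext (by simp)
    rw [this, map_natCast]
    exact (CharP.cast_eq_zero_iff _ p _).mpr hdvd
  · intro i j k m
    refine s27gm_mem_of_coeffs_subset (A := A) ?_ hA𝒪 m
    intro z hz
    refine Finset.mem_union_left _ ?_
    exact Finset.mem_biUnion.mpr ⟨(i, j, k), Finset.mem_univ _, hz⟩
  · intro i j
    exact (hB𝒪 _ (Finset.mem_union_left _
      (Finset.mem_image.mpr ⟨(i, j), Finset.mem_univ _, rfl⟩))).2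
  · refine ⟨ι, hι, rows, cols, hcert, ?_, hsum⟩
    intro α i m
    refine s27gm_mem_of_coeffs_subset (A := A) ?_ hA𝒪 m
    intro z hz
    refine Finset.mem_union_right _ ?_
    exact Finset.mem_biUnion.mpr ⟨(α, i), Finset.mem_univ _, hz⟩

/-- **(GOOD) from an orthonormal integral frame.** -/
theorem s27gm_good_of_ortho [IsAlgClosed K] [CharZero K] (𝔉 : s27g_Frame K F) (hF : 𝔉.IsFrame)
    (hC : 𝔉.IsClosed) {𝒪 : ValuationSubring K} {𝒱 : ValuationSubring F}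
    (hI : 𝔉.IsIntegralAt 𝒪) (hO : s27g_Ortho 𝔉 𝒪 𝒱) (p : ℕ) (hp : ¬ p ∣ 𝔉.n)
    (hchar : CharP (ResidueField ↥𝒪) p) (hac : IsAlgClosed (ResidueField ↥𝒪))
    (halg : ∀ z : ResidueField ↥𝒪, ∃ q : ℤ[X], q.Monic ∧ aeval z q = 0) :
    s27g_Good 𝒪 𝒱 p := by
  letI := s27g_resAlgebra hO.lies
  -- `x ∈ 𝒱`
  have hxelt : 𝔉.elt (Pi.single 𝔉.i0 X) = 𝔉.x := by
    rw [s27g_inf_elt_single_zero hF, aeval_X]
  have hxV : 𝔉.x ∈ 𝒱 := by
    rw [← hxelt, hO.mem]
    intro i m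
    by_cases hi : i = 𝔉.i0
    · subst hi
      rw [Pi.single_eq_same, coeff_X]
      split_ifs
      · exact one_mem 𝒪
      · exact zero_mem 𝒪
    · rw [Pi.single_eq_of_ne hi, coeff_zero]
      exact zero_mem 𝒪
  -- the two separating generators
  have sepK : rt_IsSepGen K 𝔉.x := by
    haveI := (s27g_finrank_eq hF).1
    exact rt_isSepGen_of_charZero hF.x_trans
  have hFb := s27g_red_isFrame 𝔉 hF hI hO
  have sepk := s27g_red_sepGen 𝔉 hF hI hO p hp
  have hCb := s27g_isClosed_of_jacUnit (𝔉.red hO.lies) hFb (s27g_red_jacUnit 𝔉 hF hI hO)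
  obtain ⟨P, hP⟩ := s27g_exists_place_infty hF sepK
  obtain ⟨Pb, hPb⟩ := s27g_exists_place_infty hFb sepk
  have hdim := s27g_ortho_dim 𝔉 hF hO
  -- the Riemann–Roch spaces at infinity
  have hinfty : ∀ r : ℕ, s27g_red 𝒱 (riemannRochSpace (Finsupp.single P (r : ℤ))) =
      (riemannRochSpace (Finsupp.single Pb (r : ℤ)) : Set (ResidueField ↥𝒱)) := by
    intro r
    ext z
    constructor
    · rintro ⟨f, hfW, rfl⟩
      obtain ⟨a, hfa, ha⟩ := (s27g_mem_L_infty_iff hF hC sepK hP r (f : F)).mp hfW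
      have hfV : 𝔉.elt a ∈ 𝒱 := hfa ▸ f.2
      have hco : s27g_coeffsIn 𝒪 a := (hO.mem a).mp hfV
      have hres : residue ↥𝒱 f = (𝔉.red hO.lies).elt (fun i => s27g_redPoly 𝒪 (a i)) := by
        rw [← s27g_resElt_elt 𝔉 hF hO a hco, s27gm_resElt_of_mem 𝒱 hfV]
        congr 1
        exact Subtype.ext hfa
      rw [SetLike.mem_coe, hres]
      apply (s27g_mem_L_infty_iff hFb hCb sepk hPb r _).mpr
      refine ⟨_, rfl, ?_⟩
      by_cases hab : (fun i => s27g_redPoly 𝒪 (a i)) = 0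
      · exact Or.inl hab
      · right
        have ha0 : a ≠ 0 := by
          rintro rfl
          apply hab
          funext i
          exact s27gm_redPoly_zero 𝒪
        have har := ha.resolve_left ha0
        rw [s27g_inf_wdeg_le_iff]
        intro i hi
        have hai : a i ≠ 0 := by
          intro h0
          apply hi
          show s27g_redPoly 𝒪 (a i) = 0
          rw [h0, s27gm_redPoly_zero]
        have h1 : 𝔉.n * (s27g_redPoly 𝒪 (a i)).natDegree + 𝔉.ρ i ≤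
            𝔉.n * (a i).natDegree + 𝔉.ρ i :=
          Nat.add_le_add_right (Nat.mul_le_mul_left _ (s27gm_redPoly_natDegree_le 𝒪 (a i))) _
        exact h1.trans ((s27g_inf_le_wdeg 𝔉.tos27g_Consts hai).trans har)
    · intro hz
      obtain ⟨ab, rfl, hab⟩ :=
        (s27g_mem_L_infty_iff hFb hCb sepk hPb r z).mp hz
      have hex : ∀ i : Fin 𝔉.n, ∃ Q : K[X], (∀ m, Q.coeff m ∈ 𝒪) ∧ s27g_redPoly 𝒪 Q = ab i ∧
          Q.natDegree = (ab i).natDegree ∧ (ab i = 0 → Q = 0) :=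
        fun i => s27gm_exists_lift 𝒪 (ab i)
      choose a ha1 ha2 ha3 ha4 using hex
      have hco : s27g_coeffsIn 𝒪 a := fun i m => ha1 i m
      have hfV : 𝔉.elt a ∈ 𝒱 := (hO.mem a).mpr hco
      refine ⟨⟨𝔉.elt a, hfV⟩, ?_, ?_⟩
      · apply (s27g_mem_L_infty_iff hF hC sepK hP r _).mpr
        refine ⟨a, rfl, ?_⟩
        rcases hab with h0 | hle
        · left
          funext i
          exact ha4 i (congrFun h0 i)
        · right
          rw [s27g_inf_wdeg_le_iff]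
          intro i hi
          have habi : ab i ≠ 0 := fun h0 => hi (ha4 i h0)
          rw [ha3 i]
          exact (s27g_inf_le_wdeg (𝔉.red hO.lies).tos27g_Consts (a := ab) (i := i) habi).trans hle
      · rw [← s27gm_resElt_of_mem 𝒱 hfV, s27g_resElt_elt 𝔉 hF hO a hco]
        congr 1
        funext i
        exact ha2 i
  -- the genus
  have hgenus : ∃ g : ℕ, s27g_IsRGenus K F g ∧
      s27g_IsRGenus (ResidueField ↥𝒪) (ResidueField ↥𝒱) g := by
    obtain ⟨g, hg, A₀, hA₀⟩ := rt_exists_genus sepK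
    obtain ⟨gb, hgb, Ab₀, hAb₀⟩ := rt_exists_genus sepk
    refine ⟨g, ⟨hg, A₀, hA₀⟩, ?_⟩
    suffices hgg : gb = g by
      subst hgg
      exact ⟨hgb, Ab₀, hAb₀⟩
    obtain ⟨r, hr1, hr2⟩ : ∃ r : ℕ, Divisor.degree A₀ + g ≤ r ∧ Divisor.degree Ab₀ + gb ≤ r := by
      refine ⟨(max (Divisor.degree A₀ + g) (Divisor.degree Ab₀ + gb)).toNat, ?_, ?_⟩
      · exact (le_max_left _ _).trans (Int.self_le_toNat _)
      · exact (le_max_right _ _).trans (Int.self_le_toNat _)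
    have h1 := s27h_riemann_eq sepK hg hA₀ (D := Finsupp.single P (r : ℤ))
      (by rw [rt_degree_single sepK]; exact hr1)
    have h2 := s27h_riemann_eq sepk hgb hAb₀ (D := Finsupp.single Pb (r : ℤ))
      (by rw [rt_degree_single sepk]; exact hr2)
    rw [rt_degree_single sepK] at h1
    rw [rt_degree_single sepk] at h2
    have hfin := rt_L_finite sepK (Finsupp.single P (r : ℤ))
    obtain ⟨Wb, hWb, hWbdim⟩ := hdim (riemannRochSpace (Finsupp.single P (r : ℤ))) hfin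
    have hWb' : Wb = riemannRochSpace (Finsupp.single Pb (r : ℤ)) :=
      SetLike.coe_injective (hWb.trans (hinfty r))
    rw [hWb'] at hWbdim
    rw [hWbdim] at h2
    have : (gb : ℤ) = g := by linarith
    exact_mod_cast this
  exact
    { lies := hO.lies
      charP := hchar
      algClosed := hac
      algebraic := halg
      value := s27g_ortho_value 𝔉 hF hO
      sepGen := by
        refine ⟨⟨𝔉.x, hxV⟩, sepK, ?_, ?_⟩
        · have : residue ↥𝒱 ⟨𝔉.x, hxV⟩ = (𝔉.red hO.lies).x := (s27gm_resElt_of_mem 𝒱 hxV).symm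
          rw [this]
          exact sepk
        · have : residue ↥𝒱 ⟨𝔉.x, hxV⟩ = (𝔉.red hO.lies).x := (s27gm_resElt_of_mem 𝒱 hxV).symm
          rw [this, (s27g_finrank_eq hFb).2, (s27g_finrank_eq hF).2]
          rfl
      rgenus := hgenus
      dim := hdim
      infty := ⟨P, Pb, hinfty⟩ }

/-- **(GOOD), existence**, avoiding any finite set of residue characteristics. -/
theorem s27g_good [IsAlgClosed K] [CharZero K] {x : F} (hx : rt_IsSepGen K x) (S : Finset ℕ) :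
    ∃ (p : ℕ) (𝒪 : ValuationSubring K) (𝒱 : ValuationSubring F),
      p.Prime ∧ p ∉ S ∧ s27g_Good 𝒪 𝒱 p := by
  obtain ⟨𝔉, hF, hC⟩ := s27g_exists_frame hx
  have hJ := s27g_jacUnit_of_isClosed 𝔉 hF hC
  obtain ⟨p, 𝒪, hp, hpS, hpn, hI, hchar, hac, halg⟩ := s27gm_exists_integralAt 𝔉 hF hJ S
  obtain ⟨𝒱, hO⟩ := s27g_exists_ortho 𝔉 hF hI
  exact ⟨p, 𝒪, 𝒱, hp, hpS, s27gm_good_of_ortho 𝔉 hF hC hI hO p hpn hchar hac halg⟩

/-- **(GOOD)** in the shape of the TOP seam `s27t_Good_stmt`. -/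
theorem s27g_good_top [IsAlgClosed K] [CharZero K] {x0 : F} (hx : rt_IsSepGen K x0)
    (S : Finset ℕ) :
    ∃ (𝒪 : ValuationSubring K) (𝒱 : ValuationSubring F) (p : ℕ),
      p.Prime ∧ p ∉ S ∧ s27g_Good 𝒪 𝒱 p := by
  obtain ⟨p, 𝒪, 𝒱, h⟩ := s27g_good hx S
  exact ⟨𝒪, 𝒱, p, h⟩

end Fermat.Agent.S27
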