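/-
Project S27 (`#Pic⁰(F)[ℓ^k] = ℓ^(2gk)`), cell (GOOD) G0 = (FF-BASIC) (helper23).  Prefix `s27f_`.

A function field `F / K` in the sense of the Prelude (`IsCurveOver K F`: `Ω[F⁄K]` free of rank one;
`Algebra.EssFiniteType K F`: finitely generated as a field) over an algebraically closed field of
characteristic zero has a SEPARATING GENERATOR (`rt_IsSepGen K x`: `x` transcendental, `F / K(x)`
finite separable).

* `s27f_finrank_kaehler` : for an algebraically independent family `v : ι → F` (`ι` finite) with
  `F / K(v)` separable algebraic, `finrank_F Ω[F⁄K] = #ι`   (any fields);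
* `s27f_exists_sepGen`   : the separating generator.
-/
import Mathlib
import Fermat.Prelude.Def_AlgebraicCurve_IsCurveOver
import Fermat.Agent.JT3.Riemann.Approx

set_option autoImplicit false
set_option linter.unusedSectionVars false
set_option linter.style.haveILetI false

noncomputable section

namespace Fermat.Agent.S27

open IntermediateField KaehlerDifferential TensorProduct AlgebraicCurve Fermat.Agent.JT3

section Rank

variable (K F : Type*) [Field K] [Field F] [Algebra K F]

open scoped IntermediateField.algebraAdjoinAdjoin in
/-- `F` is formally étale over the polynomial ring on a separating transcendence family. -/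
theorem s27f_formallyEtale {ι : Type*} {v : ι → F} (hb : AlgebraicIndependent K v)
    [Algebra.IsSeparable (IntermediateField.adjoin K (Set.range v)) F] :
    letI : Algebra (MvPolynomial ι K) F := (MvPolynomial.aeval v : MvPolynomial ι K →ₐ[K] F).toRingHom.toAlgebra
    Algebra.FormallyEtale (MvPolynomial ι K) F := by
  letI iPF : Algebra (MvPolynomial ι K) F :=
    (MvPolynomial.aeval v : MvPolynomial ι K →ₐ[K] F).toRingHom.toAlgebra
  -- the subalgebra generated by the family
  letI iPA : Algebra (MvPolynomial ι K) (Algebra.adjoin K (Set.range v)) :=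
    (hb.aevalEquiv : MvPolynomial ι K ≃ₐ[K] Algebra.adjoin K (Set.range v)).toAlgHom.toRingHom.toAlgebra
  haveI tow : IsScalarTower (MvPolynomial ι K) (Algebra.adjoin K (Set.range v)) F :=
    IsScalarTower.of_algebraMap_eq fun x => by
      show MvPolynomial.aeval v x = ((hb.aevalEquiv x : Algebra.adjoin K (Set.range v)) : F)
      rw [← hb.algebraMap_aevalEquiv]
      rfl
  -- `P → A` is an isomorphism
  haveI h0 : Algebra.FormallyEtale (MvPolynomial ι K) (Algebra.adjoin K (Set.range v)) :=
    Algebra.FormallyEtale.of_equiv
      (AlgEquiv.ofRingEquiv (f := (hb.aevalEquiv : MvPolynomial ι K ≃ₐ[K] _).toRingEquiv)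
        (fun x => rfl) : MvPolynomial ι K ≃ₐ[MvPolynomial ι K] Algebra.adjoin K (Set.range v))
  -- `A → E` is a localisation
  haveI h1 : Algebra.FormallyEtale (Algebra.adjoin K (Set.range v))
      (IntermediateField.adjoin K (Set.range v)) :=
    Algebra.FormallyEtale.of_isLocalization (nonZeroDivisors (Algebra.adjoin K (Set.range v)))
  -- `E → F` is separable algebraic
  haveI h2 : Algebra.FormallyEtale (IntermediateField.adjoin K (Set.range v)) F :=
    Algebra.FormallyEtale.of_isSeparable _ F
  haveI h3 : Algebra.FormallyEtale (Algebra.adjoin K (Set.range v)) F :=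
    Algebra.FormallyEtale.comp (Algebra.adjoin K (Set.range v))
      (IntermediateField.adjoin K (Set.range v)) F
  exact Algebra.FormallyEtale.comp (MvPolynomial ι K) (Algebra.adjoin K (Set.range v)) F

/-- **the rank of the Kähler differentials of a separably generated extension.** -/
theorem s27f_finrank_kaehler {ι : Type*} [Fintype ι] {v : ι → F}
    (hb : AlgebraicIndependent K v)
    [Algebra.IsSeparable (IntermediateField.adjoin K (Set.range v)) F] :
    Module.finrank F Ω[F⁄K] = Fintype.card ι := by
  letI iPF : Algebra (MvPolynomial ι K) F :=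
    (MvPolynomial.aeval v : MvPolynomial ι K →ₐ[K] F).toRingHom.toAlgebra
  haveI tow : IsScalarTower K (MvPolynomial ι K) F :=
    IsScalarTower.of_algebraMap_eq fun x => by
      show algebraMap K F x = MvPolynomial.aeval v (algebraMap K (MvPolynomial ι K) x)
      rw [AlgHom.commutes]
  haveI := s27f_formallyEtale K F hb
  have e := KaehlerDifferential.tensorKaehlerEquivOfFormallyEtale K (MvPolynomial ι K) F
  rw [← e.finrank_eq, Module.finrank_baseChange,
    Module.finrank_eq_card_basis (KaehlerDifferential.mvPolynomialBasis K ι)]

end Rank

section SepGen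

variable (K F : Type*) [Field K] [Field F] [Algebra K F]

/-- **(FF-BASIC)**: a function field over an algebraically closed field of characteristic zero has
a separating generator. -/
theorem s27f_exists_sepGen [IsAlgClosed K] [CharZero K] [IsCurveOver K F]
    [Algebra.EssFiniteType K F] : ∃ x : F, rt_IsSepGen K x := by
  classical
  obtain ⟨s, hs, hsep⟩ := exists_isTranscendenceBasis_and_isSeparable_of_perfectField K F
  haveI : Algebra.IsSeparable
      (IntermediateField.adjoin K (Set.range ((↑) : s → F))) F := by
    convert hsep <;> simp
  have hcard : s.card = 1 := by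
    have h := s27f_finrank_kaehler K F (ι := s) hs.1
    rw [IsCurveOver.finrank_kaehler] at h
    simpa using h.symm
  obtain ⟨x, rfl⟩ := Finset.card_eq_one.1 hcard
  have hsing : (({x} : Finset F) : Set F) = {x} := Finset.coe_singleton x
  have htr : Transcendental K x := by
    have := hs.1.transcendental ⟨x, by simp⟩
    simpa using this
  have hsep' : Algebra.IsSeparable K⟮x⟯ F := by
    rw [hsing] at hsep
    exact hsep
  haveI := hsep'
  haveI : Algebra.EssFiniteType K⟮x⟯ F := Algebra.EssFiniteType.of_comp K K⟮x⟯ F
  haveI : Algebra.IsAlgebraic K⟮x⟯ F := Algebra.IsSeparable.isAlgebraic K⟮x⟯ F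
  exact ⟨x, htr, Algebra.finite_of_essFiniteType_of_isAlgebraic, hsep'⟩

end SepGen

end Fermat.Agent.S27
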