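/-
S27 / (GOOD), cell L7 (helper4): abstract commutative algebra for the Jacobian criterion.
Prefix `s27g_cl`.  Mathlib only.

* `s27g_cl_localization_closed` : a noetherian domain `R`, a maximal ideal `𝔪` with
  `𝔪 ≤ (z) + 𝔪²` for some `z ∈ 𝔪` ⟹ `R_𝔪` is integrally closed (Nakayama + DVR criterion).
* `s27g_cl_exists_point` : maximal ideals of an algebra of finite type over an algebraically closed
  field `L` are kernels of `L`-points.
* `s27g_cl_rank_one` : linear algebra: vectors `Z_l` (`l : Fin n`) killed by the rows of a matrix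
  with a nonzero `(n-1)`-minor are all proportional to one of them.
-/
import Mathlib

set_option autoImplicit false
set_option linter.style.haveILetI false

namespace Fermat.Agent.S27

open IsLocalRing

section Loc

variable {R : Type*} [CommRing R] [IsDomain R] [IsNoetherianRing R]

/-- **DVR criterion**: if `𝔪 ≤ (z) + 𝔪²` with `z ∈ 𝔪`, then `R_𝔪` is integrally closed. -/
theorem s27g_cl_localization_closed (𝔪 : Ideal R) [h𝔪 : 𝔪.IsMaximal] {z : R} (hz : z ∈ 𝔪)
    (h : 𝔪 ≤ Ideal.span {z} ⊔ 𝔪 ^ 2) : IsIntegrallyClosed (Localization.AtPrime 𝔪) := by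
  set S := Localization.AtPrime 𝔪 with hS
  haveI : IsNoetherianRing S := IsLocalization.isNoetherianRing 𝔪.primeCompl S inferInstance
  haveI : IsDomain S := IsLocalization.isDomain_localization 𝔪.primeCompl_le_nonZeroDivisors
  have hmax : maximalIdeal S = Ideal.map (algebraMap R S) 𝔪 :=
    (Localization.AtPrime.map_eq_maximalIdeal).symm
  -- the maximal ideal of `S` is `(z) + M²`
  have h1 : maximalIdeal S ≤ Ideal.span {algebraMap R S z} ⊔ maximalIdeal S • maximalIdeal S := by
    rw [hmax]
    refine (Ideal.map_mono h).trans ?_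
    rw [Ideal.map_sup, Ideal.map_span, Set.image_singleton, Ideal.map_pow, pow_two, smul_eq_mul]
  have h2 : maximalIdeal S ≤ Ideal.span {algebraMap R S z} :=
    Submodule.le_of_le_smul_of_le_jacobson_bot (IsNoetherian.noetherian _)
      (IsLocalRing.jacobson_eq_maximalIdeal (⊥ : Ideal S) bot_ne_top).ge h1
  have h3 : maximalIdeal S = Ideal.span {algebraMap R S z} := by
    refine le_antisymm h2 ?_
    rw [Ideal.span_le, Set.singleton_subset_iff, hmax]
    exact Ideal.mem_map_of_mem _ hz
  have h4 : (maximalIdeal S).IsPrincipal := ⟨⟨algebraMap R S z, h3⟩⟩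
  have h5 := ((tfae_of_isNoetherianRing_of_isLocalRing_of_isDomain S).out 4 3).1 h4
  exact h5.1

end Loc

section Point

variable {L A : Type*} [Field L] [IsAlgClosed L] [CommRing A] [Algebra L A]
  [Algebra.FiniteType L A]

/-- maximal ideals of an algebra of finite type over an algebraically closed field are kernels of
rational points. -/
theorem s27g_cl_exists_point (𝔪 : Ideal A) [h𝔪 : 𝔪.IsMaximal] :
    ∃ P : A →ₐ[L] L, ∀ a : A, P a = 0 ↔ a ∈ 𝔪 := by
  letI := Ideal.Quotient.field 𝔪
  haveI : Algebra.FiniteType L (A ⧸ 𝔪) :=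
    Algebra.FiniteType.of_surjective (Ideal.Quotient.mkₐ L 𝔪) Ideal.Quotient.mk_surjective
  haveI : Module.Finite L (A ⧸ 𝔪) := finite_of_finite_type_of_isJacobsonRing L (A ⧸ 𝔪)
  haveI : Algebra.IsIntegral L (A ⧸ 𝔪) := Algebra.IsIntegral.of_finite L (A ⧸ 𝔪)
  have hb : Function.Bijective (algebraMap L (A ⧸ 𝔪)) :=
    IsAlgClosed.algebraMap_bijective_of_isIntegral
  let e : L ≃ₐ[L] (A ⧸ 𝔪) := AlgEquiv.ofBijective (Algebra.ofId L (A ⧸ 𝔪)) hb
  refine ⟨(e.symm : (A ⧸ 𝔪) →ₐ[L] L).comp (Ideal.Quotient.mkₐ L 𝔪), fun a => ?_⟩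
  rw [AlgHom.comp_apply]
  constructor
  · intro h0
    have h1 : Ideal.Quotient.mkₐ L 𝔪 a = 0 := by
      have := congrArg e h0
      simpa using this
    exact Ideal.Quotient.eq_zero_iff_mem.1 h1
  · intro ha
    have h1 : Ideal.Quotient.mkₐ L 𝔪 a = 0 := Ideal.Quotient.eq_zero_iff_mem.2 ha
    rw [h1, map_zero]

end Point

section Lin

variable {L T : Type*} [Field L] [AddCommGroup T] [Module L T]

/-- **linear algebra**: vectors `Z l` (`l : Fin n`) killed by all rows of a matrix `N` having a
nonzero `(n-1)`-minor are all multiples of one of them. -/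
theorem s27g_cl_rank_one {n : ℕ} (hn : 0 < n) {ρ : Type*} (Z : Fin n → T)
    (N : Matrix ρ (Fin n) L) (hN : ∀ r, ∑ l, N r l • Z l = 0)
    (rows : Fin (n - 1) → ρ) (cols : Fin (n - 1) → Fin n)
    (hdet : (N.submatrix rows cols).det ≠ 0) :
    ∃ l0, ∀ l, ∃ c : L, Z l = c • Z l0 := by
  classical
  set φ : (Fin n → L) →ₗ[L] T := Fintype.linearCombination L Z with hφ
  -- the rows lie in the kernel
  have hker : ∀ s, (fun l => N (rows s) l) ∈ LinearMap.ker φ := fun s => by
    rw [LinearMap.mem_ker, hφ, Fintype.linearCombination_apply]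
    exact hN (rows s)
  -- they are linearly independent
  have hli0 : LinearIndependent L (fun s => (N.submatrix rows cols) s) :=
    Matrix.linearIndependent_rows_of_det_ne_zero hdet
  have hli1 : LinearIndependent L (fun s : Fin (n - 1) => (fun l => N (rows s) l)) := by
    refine LinearIndependent.of_comp (LinearMap.funLeft L L cols) ?_
    exact hli0
  have hli2 : LinearIndependent L
      (fun s : Fin (n - 1) => (⟨fun l => N (rows s) l, hker s⟩ : LinearMap.ker φ)) := by
    refine LinearIndependent.of_comp (LinearMap.ker φ).subtype ?_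
    exact hli1
  have h1 : n - 1 ≤ Module.finrank L (LinearMap.ker φ) := by
    have := hli2.fintype_card_le_finrank
    simpa using this
  have h2 := LinearMap.finrank_range_add_finrank_ker φ
  rw [Module.finrank_fintype_fun_eq_card, Fintype.card_fin] at h2
  have h3 : Module.finrank L (LinearMap.range φ) ≤ 1 := by omega
  obtain ⟨v, hv⟩ := finrank_le_one_iff.1 h3
  have hZ : ∀ l, Z l ∈ LinearMap.range φ := fun l => by
    refine ⟨Pi.single l 1, ?_⟩
    rw [hφ, Fintype.linearCombination_apply_single, one_smul]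
  by_cases hall : ∀ l, Z l = 0
  · exact ⟨⟨0, hn⟩, fun l => ⟨0, by rw [hall l, zero_smul]⟩⟩
  · push Not at hall
    obtain ⟨l1, hl1⟩ := hall
    refine ⟨l1, fun l => ?_⟩
    obtain ⟨c1, hc1⟩ := hv ⟨Z l1, hZ l1⟩
    obtain ⟨c, hc⟩ := hv ⟨Z l, hZ l⟩
    have hc1' : c1 • (v : T) = Z l1 := congrArg Subtype.val hc1
    have hc' : c • (v : T) = Z l := congrArg Subtype.val hc
    have hc10 : c1 ≠ 0 := by
      rintro rfl
      rw [zero_smul] at hc1'
      exact hl1 hc1'.symm
    refine ⟨c * c1⁻¹, ?_⟩
    rw [← hc1', ← hc', smul_smul, mul_assoc, inv_mul_cancel₀ hc10, mul_one]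

end Lin

end Fermat.Agent.S27
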