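/-
S27, cell (GOOD) G0 = FF-BASIC (helper24).  Prefix `s27g_ff`, namespace `Fermat.Agent.S27`.

A function field `F / K` in the sense of the frozen statement S27 (`[IsCurveOver K F]`
`[Algebra.EssFiniteType K F]`, `K` of characteristic zero) has a SEPARATING GENERATOR: an element
`x` transcendental over `K` with `F / K(x)` finite separable, i.e. `rt_IsSepGen K x`
(the hypothesis of all of `JT3/Riemann`).

* `s27g_ff_finrank_kaehler` : `finrank_F Ω[F/K] = #ι` for `F` separable algebraic over `K(v i : i ∈ ι)`,
                              `v` algebraically independent (any characteristic);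
* `s27g_exists_sepGen`      : the existence of a separating generator;
* `s27g_ff_sepGen_of_transcendental` : in this situation EVERY transcendental element is one.
-/
import Mathlib
import Fermat.Prelude.Def_AlgebraicCurve_IsCurveOver
import Fermat.Agent.JT3.Riemann.Approx

set_option autoImplicit false
set_option linter.style.haveILetI false

noncomputable section

namespace Fermat.Agent.S27

open AlgebraicCurve IntermediateField KaehlerDifferential TensorProduct Fermat.Agent.JT3

section Rank

variable {K F : Type*} [Field K] [Field F] [Algebra K F]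

open scoped IntermediateField.algebraAdjoinAdjoin in
/-- `F` is formally étale over the polynomial ring on an algebraically independent family over whose
field of fractions it is separable. -/
theorem s27g_ff_formallyEtale {ι : Type*} {v : ι → F} (hb : AlgebraicIndependent K v)
    [Algebra.IsSeparable (IntermediateField.adjoin K (Set.range v)) F] :
    (MvPolynomial.aeval v : MvPolynomial ι K →ₐ[K] F).toRingHom.FormallyEtale := by
  -- `A0 = K[v]`, `E = K(v)`
  have h1 : Algebra.FormallyEtale (Algebra.adjoin K (Set.range v))
      (IntermediateField.adjoin K (Set.range v)) :=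
    .of_isLocalization (nonZeroDivisors (Algebra.adjoin K (Set.range v)))
  have h2 : Algebra.FormallyEtale (IntermediateField.adjoin K (Set.range v)) F :=
    Algebra.FormallyEtale.of_isSeparable _ F
  have h3 : Algebra.FormallyEtale (Algebra.adjoin K (Set.range v)) F :=
    Algebra.FormallyEtale.comp _ (IntermediateField.adjoin K (Set.range v)) F
  have h3' : (algebraMap (Algebra.adjoin K (Set.range v)) F).FormallyEtale :=
    RingHom.formallyEtale_algebraMap.mpr h3
  -- the isomorphism `K[X_i] ≃ K[v]`
  have h4 : (hb.aevalEquiv : MvPolynomial ι K →+* Algebra.adjoin K (Set.range v)).FormallyEtale := by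
    let f : MvPolynomial ι K →+* Algebra.adjoin K (Set.range v) := hb.aevalEquiv
    change f.FormallyEtale
    algebraize [f]
    let e : MvPolynomial ι K ≃ₐ[MvPolynomial ι K] Algebra.adjoin K (Set.range v) :=
      { hb.aevalEquiv.toRingEquiv with
        commutes' := fun r => rfl }
    exact Algebra.FormallyEtale.of_equiv e
  have h5 := h4.comp h3'
  convert h5 using 1
  ext x
  · simp
  · simp [AlgebraicIndependent.aevalEquiv]

/-- **rank of the differentials of a separably generated extension.** -/
theorem s27g_ff_finrank_kaehler {ι : Type*} [Fintype ι] {v : ι → F}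
    (hb : AlgebraicIndependent K v)
    [Algebra.IsSeparable (IntermediateField.adjoin K (Set.range v)) F] :
    Module.finrank F Ω[F⁄K] = Fintype.card ι := by
  have hE := s27g_ff_formallyEtale hb
  let f : MvPolynomial ι K →+* F := (MvPolynomial.aeval v : MvPolynomial ι K →ₐ[K] F).toRingHom
  letI : Algebra (MvPolynomial ι K) F := f.toAlgebra
  haveI : IsScalarTower K (MvPolynomial ι K) F :=
    IsScalarTower.of_algebraMap_eq fun r => by
      change algebraMap K F r = (MvPolynomial.aeval v) (algebraMap K (MvPolynomial ι K) r)
      rw [AlgHom.commutes]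
  haveI : Algebra.FormallyEtale (MvPolynomial ι K) F := hE
  let e := KaehlerDifferential.tensorKaehlerEquivOfFormallyEtale K (MvPolynomial ι K) F
  let b0 := KaehlerDifferential.mvPolynomialBasis K ι
  let b1 : Module.Basis ι F (F ⊗[MvPolynomial ι K] Ω[MvPolynomial ι K⁄K]) := b0.baseChange F
  let b2 : Module.Basis ι F Ω[F⁄K] := b1.map e
  rw [Module.finrank_eq_card_basis b2]

end Rank

section Main

variable {K F : Type*} [Field K] [Field F] [Algebra K F]

/-- a function field in the sense of S27 over a field of characteristic zero has transcendence degree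
one, realised by a separating transcendence basis `{x}`. -/
theorem s27g_ff_exists_basis [CharZero K] [IsCurveOver K F] [Algebra.EssFiniteType K F] :
    ∃ x : F, IsTranscendenceBasis K ((↑) : (({x} : Finset F) : Set F) → F) ∧
      Algebra.IsSeparable K⟮x⟯ F := by
  obtain ⟨s, hs, hsep⟩ := exists_isTranscendenceBasis_and_isSeparable_of_perfectField K F
  have hsep' : Algebra.IsSeparable (IntermediateField.adjoin K (Set.range ((↑) : s → F))) F := by
    convert hsep <;> simp
  have hcard := s27g_ff_finrank_kaehler (K := K) (F := F) hs.1
  rw [IsCurveOver.finrank_kaehler] at hcard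
  have h1 : s.card = 1 := by simpa using hcard.symm
  obtain ⟨x, rfl⟩ := Finset.card_eq_one.mp h1
  refine ⟨x, hs, ?_⟩
  convert hsep <;> simp

/-- **(FF-BASIC)**: existence of a separating generator. -/
theorem s27g_exists_sepGen [IsAlgClosed K] [CharZero K] [IsCurveOver K F]
    [Algebra.EssFiniteType K F] : ∃ x : F, rt_IsSepGen K x := by
  obtain ⟨x, hs, hsep⟩ := s27g_ff_exists_basis (K := K) (F := F)
  refine ⟨x, ?_, ?_, hsep⟩
  · have := hs.1.transcendental ⟨x, by simp⟩
    simpa using this
  · haveI : Algebra.IsAlgebraic K⟮x⟯ F := by
      have := hs.isAlgebraic_field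
      convert this <;> simp
    haveI : Algebra.EssFiniteType K⟮x⟯ F := Algebra.EssFiniteType.of_comp K K⟮x⟯ F
    exact Algebra.finite_of_essFiniteType_of_isAlgebraic

/-- the transcendence degree is one. -/
theorem s27g_ff_trdeg [CharZero K] [IsCurveOver K F] [Algebra.EssFiniteType K F] :
    Algebra.trdeg K F = 1 := by
  obtain ⟨x, hs, -⟩ := s27g_ff_exists_basis (K := K) (F := F)
  have := hs.cardinalMk_eq_trdeg
  rw [← this]
  simp

/-- in characteristic zero EVERY transcendental element of a function field (in the sense of S27) is a
separating generator. -/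
theorem s27g_ff_sepGen_of_transcendental [CharZero K] [IsCurveOver K F]
    [Algebra.EssFiniteType K F] {y : F} (hy : Transcendental K y) : rt_IsSepGen K y := by
  have htr := s27g_ff_trdeg (K := K) (F := F)
  have hai : AlgebraicIndependent K (fun _ : Unit => y) :=
    (algebraicIndependent_unique_type_iff (ι := Unit)).mpr hy
  have hb : IsTranscendenceBasis K (fun _ : Unit => y) := by
    refine hai.isTranscendenceBasis_of_lift_trdeg_le ?_ ?_
    · rw [htr]; exact Cardinal.one_lt_aleph0
    · rw [htr]; simp
  haveI : Algebra.IsAlgebraic K⟮y⟯ F := by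
    have := hb.isAlgebraic_field
    convert this <;> simp
  haveI : Algebra.EssFiniteType K⟮y⟯ F := Algebra.EssFiniteType.of_comp K K⟮y⟯ F
  refine ⟨hy, Algebra.finite_of_essFiniteType_of_isAlgebraic, ?_⟩
  exact Algebra.IsAlgebraic.isSeparable_of_perfectField

end Main

end Fermat.Agent.S27
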