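/-
S27 / (GOOD), cell L9c (helper20): **`x̄` is a separating generator of the reduced function field**
when the residue characteristic does not divide the rank `n` of the frame.
Auxiliary names `s27g_rf_*`; the cell theorem keeps helper13's name `s27g_red_sepGen`.

The reduced frame is a frame (L9a), so `F̄ / k(x̄)` is finite of degree `n` (L8′′); a finite
extension whose degree is prime to the characteristic is separable (the inseparable degree is a
power of `p` dividing the degree).
-/
import Mathlib
import Fermat.Agent.S27.Good.RedIsFrame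
import Fermat.Agent.S27.Good.Infty

set_option autoImplicit false
set_option linter.unusedSectionVars false
set_option linter.unusedVariables false
set_option linter.style.haveILetI false

noncomputable section

namespace Fermat.Agent.S27

open Polynomial AlgebraicCurve IsLocalRing IntermediateField Fermat.Agent.JT3
open scoped Classical

/-- a finite field extension of degree prime to the characteristic is separable. -/
theorem s27g_rf_isSeparable_of_not_dvd (A B : Type*) [Field A] [Field B] [Algebra A B]
    [FiniteDimensional A B] (p : ℕ) [CharP A p] (hp : ¬ p ∣ Module.finrank A B) :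
    Algebra.IsSeparable A B := by
  rcases CharP.char_is_prime_or_zero A p with hpr | h0
  · haveI : ExpChar A p := ExpChar.prime hpr
    obtain ⟨n, hn⟩ := finInsepDegree_eq_pow (F := A) (E := B) p
    have hmul := Field.finSepDegree_mul_finInsepDegree A B
    rw [← Field.finSepDegree_eq_finrank_iff]
    cases n with
    | zero =>
      rw [hn, pow_zero, mul_one] at hmul
      exact hmul
    | succ n =>
      exfalso
      apply hp
      rw [← hmul, hn, pow_succ, ← mul_assoc]
      exact Dvd.intro_left _ rfl
  · subst h0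
    haveI : CharZero A := CharP.charP_to_charZero A
    exact Algebra.IsSeparable.of_integral A B

section RedSep

variable {K F : Type*} [Field K] [Field F] [Algebra K F]
  (𝔉 : s27g_Frame K F) {𝒪 : ValuationSubring K} {𝒱 : ValuationSubring F}

/-- the degree of the reduced function field over `k(x̄)` is `n`. -/
theorem s27g_rf_red_finrank (hF : 𝔉.IsFrame) (hI : 𝔉.IsIntegralAt 𝒪) (ho : s27g_Ortho 𝔉 𝒪 𝒱) :
    letI := s27g_resAlgebra ho.lies
    FiniteDimensional (ResidueField ↥𝒪)⟮(𝔉.red ho.lies).x⟯ (ResidueField ↥𝒱) ∧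
      Module.finrank (ResidueField ↥𝒪)⟮(𝔉.red ho.lies).x⟯ (ResidueField ↥𝒱) = 𝔉.n := by
  letI := s27g_resAlgebra ho.lies
  exact s27g_finrank_eq (s27g_red_isFrame 𝔉 hF hI ho)

/-- **L9c: `x̄` is a separating generator** when `p ∤ n`. -/
theorem s27g_red_sepGen (hF : 𝔉.IsFrame) (hI : 𝔉.IsIntegralAt 𝒪) (ho : s27g_Ortho 𝔉 𝒪 𝒱)
    (p : ℕ) [CharP (ResidueField ↥𝒪) p] (hpn : ¬ p ∣ 𝔉.n) :
    letI := s27g_resAlgebra ho.lies
    rt_IsSepGen (ResidueField ↥𝒪) (𝔉.red ho.lies).x := by
  letI := s27g_resAlgebra ho.lies
  have hR := s27g_red_isFrame 𝔉 hF hI ho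
  obtain ⟨hfd, hrank⟩ := s27g_rf_red_finrank 𝔉 hF hI ho
  haveI := hfd
  refine ⟨hR.x_trans, hfd, ?_⟩
  haveI : CharP (ResidueField ↥𝒪)⟮(𝔉.red ho.lies).x⟯ p :=
    charP_of_injective_algebraMap
      (algebraMap (ResidueField ↥𝒪) (ResidueField ↥𝒪)⟮(𝔉.red ho.lies).x⟯).injective p
  apply s27g_rf_isSeparable_of_not_dvd _ _ p
  rw [hrank]
  exact hpn

end RedSep

end Fermat.Agent.S27
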