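/-
S27 / seam (GOOD) → (RED) (helper13): from `s27g_Good 𝒪 𝒱 p` to the interface of (RED)
(`s27r_Red`, `s27r_Good` of `Red/Defs.lean`), with `k = ResidueField 𝒪`, `Fb = ResidueField 𝒱`,
`r0 = r = IsLocalRing.residue`.  Prefix `s27g_`.
-/
import Mathlib
import Fermat.Agent.S27.Good.Defs
import Fermat.Agent.S27.Red.Defs

set_option autoImplicit false
set_option linter.style.haveILetI false

noncomputable section

namespace Fermat.Agent.S27

open Polynomial AlgebraicCurve IsLocalRing IntermediateField Fermat.Agent.JT3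

universe u v
variable {K : Type u} {F : Type v} [Field K] [Field F] [Algebra K F]
variable {𝒪 : ValuationSubring K} {𝒱 : ValuationSubring F}

/-- the structure map of the residue fields on residue classes. -/
theorem s27g_algebraMap_residue (h : s27g_Over 𝒪 𝒱) (a : ↥𝒪) :
    @algebraMap (ResidueField ↥𝒪) (ResidueField ↥𝒱) _ _ (s27g_resAlgebra h) (residue ↥𝒪 a) =
      residue ↥𝒱 (s27g_incl h a) := by
  haveI := s27g_incl_isLocalHom h
  rfl

/-- the constant reduction attached to `𝒱 / 𝒪`. -/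
def s27g_toRed (h : s27g_Over 𝒪 𝒱) :
    @s27r_Red K F (ResidueField ↥𝒪) (ResidueField ↥𝒱) _ _ _ _ _ (s27g_resAlgebra h) :=
  letI := s27g_resAlgebra h
  { O := 𝒪
    V := 𝒱
    r0 := residue ↥𝒪
    r := residue ↥𝒱
    r0_surj := residue_surjective
    r_surj := residue_surjective
    mem_iff := h
    comp := fun a ha => (s27g_algebraMap_residue h ⟨a, ha⟩).symm }

/-- the Riemann genus predicates of (GOOD) and (RED) coincide. -/
theorem s27g_isRGenus_iff (K : Type u) (F : Type v) [Field K] [Field F] [Algebra K F] (g : ℕ) :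
    s27g_IsRGenus K F g ↔ s27r_IsGenus K F g := Iff.rfl

/-- **seam (GOOD) → (RED).** -/
theorem s27g_toRed_good {p : ℕ} (hG : s27g_Good 𝒪 𝒱 p) :
    ∃ x : F, @s27r_Good K F _ _ _ (ResidueField ↥𝒪) (ResidueField ↥𝒱) _ _
      (s27g_resAlgebra hG.lies) (s27g_toRed hG.lies) x := by
  letI := s27g_resAlgebra hG.lies
  obtain ⟨x, sepK, sepk, hdeg⟩ := hG.sepGen
  obtain ⟨g, hgK, hgk⟩ := hG.rgenus
  refine ⟨(x : F), ⟨x.2, sepK, sepk, hdeg.symm, ?_⟩⟩
  intro gK gk hK hk
  have h1 : gK = g := s27r_isGenus_unique hK ((s27g_isRGenus_iff K F g).mp hgK)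
  have h2 : gk = g := s27r_isGenus_unique hk ((s27g_isRGenus_iff _ _ g).mp hgk)
  rw [h1, h2]

end Fermat.Agent.S27
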